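import Fermat.Agent.Semistable.Main

/-!
# The square of Frobenius on torsion killed by the two norms to level `M`

If the norms of the Kummer function `G` of a torsion class `D` and of `w G` are constants times
`m`-th powers, then `φ² D - D` is a class on the two sheets, on which `φ²` is multiplication by
`q²`.
-/

set_option autoImplicit false

noncomputable section

namespace Fermat.Agent.Semistable

open HahnSeries AlgebraicCurve ModularCurve Fermat.Agent.Reduction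

variable {K F k : Type*} [Field K] [Field F] [Algebra K F] [Field k] {A : ValuationSubring K}
  {π : A →+* k} {q : ℕ} [NeZero q]

namespace Sheets

/-- An element of the decomposition group acting as the square of Frobenius on `k`. -/
structure FrobSq (S : Sheets A π q F) extends Semi S where
  res : ∀ a : A, π ⟨τ a, mem a a.2⟩ = S.σ (S.σ (π a))

variable {S : Sheets A π q F}

theorem σ_eq_pow (c : k) : S.σ c = c ^ q := by
  have h := S.frob_eq (algebraMap k (LaurentSeries k) c)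
  rw [coeffMap_algebraMap, algebraMap_laurentSeries_eq_single, qExpand_single, mul_zero,
    ← algebraMap_laurentSeries_eq_single, ← map_pow] at h
  exact (algebraMap k (LaurentSeries k)).injective h

variable (S) in
/-- The coefficientwise square of Frobenius. -/
abbrev sig2 : LaurentSeries k →+* LaurentSeries k :=
  (coeffMap (S.σ : k →+* k)).comp (coeffMap (S.σ : k →+* k))

theorem sig2_mem {x : LaurentSeries k} (hx : x ∈ S.C) : S.sig2 x ∈ S.C := S.σ_mem _ (S.σ_mem _ hx)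

theorem sig2_ne {x : LaurentSeries k} (hx : x ≠ 0) : S.sig2 x ≠ 0 := fun h =>
  hx (S.sig2.injective (h.trans (map_zero S.sig2).symm))

theorem sig2_smul (c : k) (x : LaurentSeries k) :
    S.sig2 (c • x) = S.σ (S.σ c) • S.sig2 x := by
  simp only [smul_eq_algebraMap_mul, map_mul, RingHom.comp_apply, coeffMap_algebraMap,
    RingHom.coe_coe]

/-- At a node the square of Frobenius is the `q²`-th power. -/
theorem Pt.map_sig2 (u : S.Pt) (x : S.C) : u (S.sigC (S.sigC x)) = u x ^ (q * q) := by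
  show u.1 _ = u.1 x ^ (q * q)
  rw [← u.2 (S.sigC (S.sigC x)), frC_sigC, map_pow, frC_sigC, ← pow_mul]
  exact _root_.map_pow u.1 _ _

namespace FrobSq

variable (σ : S.FrobSq)

theorem red {y : LaurentSeries K} {x : LaurentSeries k} (h : Red A π y x) :
    Red A π (coeffMap (σ.τ : K →+* K) y) (S.sig2 x) := fun i => by
  obtain ⟨hi, hv⟩ := h i
  exact ⟨σ.mem _ hi, (σ.res ⟨_, hi⟩).trans (congrArg (fun z => S.σ (S.σ z)) hv)⟩

theorem red2 {f : F} {x : Ser2 k} (h : Red2 A π (S.T f) x) :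
    Red2 A π (S.T (σ.g f)) (S.sig2 x.1, S.sig2 x.2) := by
  rw [σ.T_g]
  exact ⟨σ.red h.1, σ.red h.2⟩

end FrobSq

variable (S) in
/-- The norms to level `M` of `G` and its constant multiples reduce to constants times `m`-th
powers of functions of level `M`. -/
def NormPow (m : ℕ) (G : F) : Prop :=
  ∀ (c₁ c₂ : K) (g₁ g₂ : LaurentSeries k), c₁ ≠ 0 → c₂ ≠ 0 → Red A π (c₁ • S.ι G) g₁ →
    Red A π (c₂ • S.ι (S.w G)) g₂ → g₁ ≠ 0 → g₂ ≠ 0 →
      ∃ κ : k, ∃ h ∈ S.C, κ ≠ 0 ∧ h ≠ 0 ∧ g₁ * coeffMap (S.σ : k →+* k) g₂ = κ • h ^ m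

/-- The two norm conditions give `σ² g₁ / g₁` as a constant times an `m`-th power. -/
theorem exists_sig2_eq {m : ℕ} {g₁ g₂ : LaurentSeries k} (_h1 : g₁ ≠ 0) (h2 : g₂ ≠ 0)
    {κ₁ κ₂ : k} {a₁ a₂ : LaurentSeries k} (hκ₁ : κ₁ ≠ 0) (hκ₂ : κ₂ ≠ 0)
    (e₁ : g₁ * coeffMap (S.σ : k →+* k) g₂ = κ₁ • a₁ ^ m)
    (e₂ : g₂ * coeffMap (S.σ : k →+* k) g₁ = κ₂ • a₂ ^ m) :
    ∃ κ : k, κ ≠ 0 ∧ S.sig2 g₁ * a₁ ^ m = κ • (coeffMap (S.σ : k →+* k) a₂ ^ m * g₁) := by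
  refine ⟨S.σ κ₂ / κ₁, div_ne_zero ((map_ne_zero S.σ).mpr hκ₂) hκ₁, ?_⟩
  have e₃ := congrArg (coeffMap (S.σ : k →+* k)) e₂
  rw [smul_eq_algebraMap_mul, map_mul, map_mul, coeffMap_algebraMap, map_pow,
    RingHom.coe_coe] at e₃
  rw [smul_eq_algebraMap_mul] at e₁
  rw [smul_eq_algebraMap_mul, map_div₀]
  have hσ2 : coeffMap (S.σ : k →+* k) g₂ ≠ 0 := fun h =>
    h2 ((coeffMap (S.σ : k →+* k)).injective (h.trans (map_zero _).symm))
  have hκ : algebraMap k (LaurentSeries k) κ₁ ≠ 0 := (map_ne_zero _).mpr hκ₁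
  rw [RingHom.comp_apply, div_mul_eq_mul_div, eq_div_iff hκ]
  refine mul_right_cancel₀ hσ2 ?_
  linear_combination (algebraMap k (LaurentSeries k) κ₁ * a₁ ^ m) * e₃ -
    (algebraMap k (LaurentSeries k) (S.σ κ₂) * coeffMap (S.σ : k →+* k) a₂ ^ m) * e₁

/-- The reduction of `τ y * r`, for `y * r` reducing to an `m`-th power. -/
theorem FrobSq.red_twist (σ : S.FrobSq) {y r : LaurentSeries K} {g x a b : LaurentSeries k}
    {c : K} {κ : k} {m : ℕ} (hc : c ≠ 0) (hκ : κ ≠ 0) (hy : Red A π (c • y) g) (hg : g ≠ 0)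
    (hr : r = 0 ∨ Normalizable A π r) (hH : Red A π (y * r) (x ^ m)) (ha : a ≠ 0)
    (hab : S.sig2 g * a ^ m = κ • (b ^ m * g)) :
    ∃ u : k, u ≠ 0 ∧ Red A π (coeffMap (σ.τ : K →+* K) y * r) (u • (b / a * x) ^ m) := by
  obtain ⟨v, z, hv, hgz, h⟩ := σ.toSemi.red_twist hc hy hg (σ.red hy) hr hH
  refine ⟨v * κ, mul_ne_zero hv hκ, ?_⟩
  have key : S.sig2 g * z = κ • (b / a * x) ^ m := by
    rw [smul_eq_algebraMap_mul] at hab ⊢
    rw [mul_pow, div_pow, div_mul_eq_mul_div, mul_div, eq_div_iff (pow_ne_zero m ha)]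
    linear_combination z * hab + algebraMap k (LaurentSeries k) κ * b ^ m * hgz
  rwa [key, smul_smul] at h

variable [FF.IsFunctionField K F] [IsAlgClosed K]

/-- The class `φ² D - D`. -/
theorem FrobSq.exists_datum (σ : S.FrobSq) {m : ℕ} (hm : 0 < m) {D : Divisor K F}
    (hD : S.Neg D) (_hdeg : Divisor.degree D = 0) {G : F} (hG : G ≠ 0)
    (hordG : ∀ v, v.ord G = -((m : ℤ) * D v)) (hN : S.NormPow m G) (hN' : S.NormPow m (S.w G)) :
    ∃ d : S.Datum m, ∃ h : F, h ≠ 0 ∧ d.E = σ.act D - D - FF.divOf K h := by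
  refine σ.toSemi.exists_datum hD hG hordG fun r x hr0 hregr hregG hx1 hx2 hx10 hx20 hxm => ?_
  obtain ⟨c₁, hc₁, g₁, hg₁, hcg₁⟩ := S.normalizable G hregG hG
  obtain ⟨c₂, hc₂, g₂, hg₂, hcg₂⟩ :=
    S.normalizable _ hregG.apply_w ((map_ne_zero S.w).mpr hG)
  obtain ⟨κ₁, a₁, ha₁C, hκ₁, ha₁, e₁⟩ := hN c₁ c₂ g₁ g₂ hc₁ hc₂ hcg₁ hcg₂ hg₁ hg₂
  obtain ⟨κ₂, a₂, ha₂C, hκ₂, ha₂, e₂⟩ :=
    hN' c₂ c₁ g₂ g₁ hc₂ hc₁ hcg₂ (by rwa [S.w_w]) hg₂ hg₁
  obtain ⟨l₁, hl₁, f₁⟩ := S.exists_sig2_eq hg₁ hg₂ hκ₁ hκ₂ e₁ e₂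
  obtain ⟨l₂, hl₂, f₂⟩ := S.exists_sig2_eq hg₂ hg₁ hκ₂ hκ₁ e₂ e₁
  obtain ⟨u₁, hu₁, r₁⟩ := σ.red_twist hc₁ hl₁ hcg₁ hg₁
    (Or.inr (S.normalizable r hregr hr0)) hxm.1 ha₁ f₁
  obtain ⟨u₂, hu₂, r₂⟩ := σ.red_twist hc₂ hl₂ hcg₂ hg₂
    (Or.inr (S.normalizable _ hregr.apply_w ((map_ne_zero S.w).mpr hr0))) hxm.2 ha₂ f₂
  have hreg' : S.Reg (σ.g G * r) := Reg.mul (fun v h1 h2 => by
    refine FF.mem_ordGE_of_le_ord v ?_
    obtain ⟨w, rfl⟩ := σ.P.surjective v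
    rw [σ.ord_P, hordG]
    have := hD w (fun h => h1 (by rw [h, σ.P_inf])) (fun h => h2 (by rw [h, σ.P_zero]))
    nlinarith [Int.natCast_nonneg m]) hregr
  have hred' : Red2 A π (S.T (σ.g G * r))
      (u₁ • (coeffMap (S.σ : k →+* k) a₂ / a₁ * x.1) ^ m,
        u₂ • (coeffMap (S.σ : k →+* k) a₁ / a₂ * x.2) ^ m) := by
    rw [S.T_mul, σ.T_g]
    exact ⟨r₁, r₂⟩
  obtain ⟨hmem1, hmem2⟩ := hreg'.red_mem hred'
  have hCmem : ∀ {u : k} {a b y : LaurentSeries k}, u ≠ 0 → a ∈ S.C → a ≠ 0 → b ∈ S.C → y ∈ S.C →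
      u • (b / a * y) ^ m ∈ S.C → b / a * y ∈ S.C := by
    intro u a b y hu ha ha0 hb hy h
    refine S.normal _ a ha ha0 ?_ m hm ?_
    · rw [div_mul_eq_mul_div, div_mul_cancel₀ _ ha0]
      exact S.C.mul_mem hb hy
    · have h' := mem_of_scale (c := u⁻¹) h
      rwa [smul_smul, inv_mul_cancel₀ hu, one_smul] at h'
  have hσne : ∀ {a : LaurentSeries k}, a ≠ 0 → coeffMap (S.σ : k →+* k) a ≠ 0 := fun {a} ha h =>
    ha ((coeffMap (S.σ : k →+* k)).injective (h.trans (map_zero _).symm))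
  exact ⟨(u₁, u₂),
    (coeffMap (S.σ : k →+* k) a₂ / a₁ * x.1, coeffMap (S.σ : k →+* k) a₁ / a₂ * x.2), hu₁, hu₂,
    hCmem hu₁ ha₁C ha₁ (S.σ_mem _ ha₂C) hx1 hmem1, hCmem hu₂ ha₂C ha₂ (S.σ_mem _ ha₁C) hx2 hmem2,
    mul_ne_zero (div_ne_zero (hσne ha₂) ha₁) hx10, mul_ne_zero (div_ne_zero (hσne ha₁) ha₂) hx20,
    hred'⟩

variable {m : ℕ}

/-- Conjugate class. -/
def Datum.conjSq (σ : S.FrobSq) (d : S.Datum m) : S.Datum m where
  E := σ.act d.E
  G := σ.g d.G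
  η := (S.sig2 d.η.1, S.sig2 d.η.2)
  ū := (S.σ (S.σ d.ū.1), S.σ (S.σ d.ū.2))
  neg := σ.neg_act d.neg
  deg := by rw [σ.degree_act, d.deg]
  G_ne := fun h => d.G_ne (σ.g.injective (h.trans (map_zero σ.g).symm))
  ord_G := fun v => by
    obtain ⟨v, rfl⟩ := σ.P.surjective v
    rw [σ.ord_P, σ.act_apply, d.ord_G]
  red_G := by
    have h := σ.red2 d.red_G
    simpa only [scale2, sig2_smul, Prod.pow_fst, Prod.pow_snd, map_pow] using h
  η₁_mem := sig2_mem d.η₁_mem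
  η₂_mem := sig2_mem d.η₂_mem
  η₁_ne := sig2_ne d.η₁_ne
  η₂_ne := sig2_ne d.η₂_ne
  u₁_ne := (map_ne_zero S.σ).mpr ((map_ne_zero S.σ).mpr d.u₁_ne)
  u₂_ne := (map_ne_zero S.σ).mpr ((map_ne_zero S.σ).mpr d.u₂_ne)

theorem Datum.conjSq_mem_V (σ : S.FrobSq) {d : S.Datum m} (hm : 0 < m) {n : ℤ} {b : Ser2 k}
    (hb : b ∈ d.V n) : (S.sig2 b.1, S.sig2 b.2) ∈ (d.conjSq σ).V n := by
  obtain ⟨-, f, hf, hfb⟩ := hb
  refine (d.conjSq σ).mem_V_of_red hm (f := σ.g f) (σ.mem_L_act hf) ?_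
  have h := σ.red2 hfb
  simpa only [Datum.conjSq, mulPair_apply, Prod.fst_mul, Prod.snd_mul, map_mul, Prod.mk_mul_mk]
    using h

variable [IsAlgClosed k]

omit [FF.IsFunctionField K F] [IsAlgClosed K] [IsAlgClosed k] in
/-- Powers of a class, with the values at the nodes. -/
theorem Datum.exists_pow (d : S.Datum m) (hm : 0 < m) (j : ℕ) :
    ∃ e : S.Datum m, e.E = (j : ℤ) • d.E ∧ e.ū = d.ū ^ j ∧
      ∀ (n : ℤ) (b : S.Ole n), (b : Ser2 k) ∈ d.V n → ∃ (p : ℤ) (c : S.Ole p),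
        (c : Ser2 k) ∈ e.V p ∧ ∀ u, S.evNode p c u = S.evNode n b u ^ j := by
  induction j with
  | zero =>
    let e : S.Datum m :=
      { E := 0
        G := 1
        η := 1
        ū := 1
        neg := S.neg_zero'
        deg := map_zero _
        G_ne := one_ne_zero
        ord_G := fun v => by rw [v.ord_one]; simp
        red_G := by rw [S.T_one, one_pow, scale2_one]; exact red2_one
        η₁_mem := S.C.one_mem
        η₂_mem := S.C.one_mem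
        η₁_ne := one_ne_zero
        η₂_ne := one_ne_zero
        u₁_ne := one_ne_zero
        u₂_ne := one_ne_zero }
    have h1 : (1 : Ser2 k) ∈ e.V 0 := by
      refine e.mem_V_of_red hm (f := 1) ?_ ?_
      · rw [mem_L_zero]
        refine ⟨reg_one, ?_, ?_⟩ <;>
          simp only [map_one] <;>
          exact fun i hi => by rw [HahnSeries.coeff_one, if_neg (by omega)]
      · show Red2 A π _ (1 * 1)
        rw [S.T_one, one_mul]
        exact red2_one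
    refine ⟨e, by simp [e], by simp [e], fun n b _ => ⟨0, ⟨1, h1.1⟩, h1, fun u => ?_⟩⟩
    rw [pow_zero]
    refine Prod.ext ?_ ?_
    · exact (congrArg (u.1 : S.Pt).1 (Subtype.ext rfl : (S.elt (⟨1, h1.1⟩ : S.Ole 0)).1 = 1)).trans
        (map_one _)
    · exact (congrArg (S.flip u.1).1 (Subtype.ext rfl : (S.elt (⟨1, h1.1⟩ : S.Ole 0)).2 = 1)).trans
        (map_one _)
  | succ j ih =>
    obtain ⟨e, hE, hu, hV⟩ := ih
    refine ⟨e.mul d, ?_, ?_, fun n b hb => ?_⟩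
    · show e.E + d.E = _
      rw [hE, Nat.cast_succ, add_smul, one_smul]
    · show e.ū * d.ū = _
      rw [hu, pow_succ]
    · obtain ⟨p, c, hc, hv⟩ := hV n b hb
      have hmem := Datum.mul_mem_V hm hc hb
      exact ⟨p + n, ⟨_, hmem.1⟩, hmem, fun u => by
        rw [value_mul c b ⟨_, hmem.1⟩ rfl u, hv, pow_succ]⟩

/-- **`φ²` is multiplication by `q²` on classes on the two sheets.** -/
theorem Datum.frobSq_sub_mem_principal (σ : S.FrobSq) (d : S.Datum m) (hm : 0 < m)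
    (hmk : (m : k) ≠ 0) :
    σ.act d.E - ((q * q : ℕ) : ℤ) • d.E ∈ Divisor.principal (K := K) (F := F) := by
  obtain ⟨n₀, a, ha, ha1, ha2⟩ := d.exists_both hm
  obtain ⟨-, h, hh, hred⟩ := id ha
  obtain ⟨di, hE, hη, hu, hh0⟩ := d.exists_inv hh hred ha.1 ha1 ha2
  obtain ⟨e, heE, heu, hV⟩ := di.exists_pow hm (q * q)
  have hū : ((d.conjSq σ).mul e).ū = 1 := by
    show (S.σ (S.σ d.ū.1), S.σ (S.σ d.ū.2)) * e.ū = 1
    rw [heu, hu, S.σ_eq_pow, S.σ_eq_pow, S.σ_eq_pow, S.σ_eq_pow, ← pow_mul, ← pow_mul,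
      show ((d.ū.1 ^ (q * q), d.ū.2 ^ (q * q)) : k × k) = d.ū ^ (q * q) from rfl, ← mul_pow,
      show d.ū * d.ū⁻¹ = 1 from
        Prod.ext (mul_inv_cancel₀ d.u₁_ne) (mul_inv_cancel₀ d.u₂_ne), one_pow]
  have htriv : ((d.conjSq σ).mul e).IsTrivial := by
    refine Datum.isTrivial_of_witness _ hm hū fun u => ?_
    obtain ⟨N₁, hN₁⟩ := d.exists_value_ne_zero hm
    obtain ⟨N₂, hN₂⟩ := di.exists_value_ne_zero hm
    obtain ⟨b, hb, hb1, -⟩ := hN₁ N₁ le_rfl u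
    obtain ⟨b', hb', hb'1, -⟩ := hN₂ N₂ le_rfl u
    obtain ⟨p, c, hc, hv⟩ := hV N₂ b' hb'
    have hcon := Datum.conjSq_mem_V σ hm hb
    have hval : S.evNode N₁ ⟨_, hcon.1⟩ u = S.evNode N₁ b u ^ (q * q) := by
      refine Prod.ext ?_ ?_
      · exact Pt.map_sig2 u.1 (S.elt b).1
      · exact Pt.map_sig2 (S.flip u.1) (S.elt b).2
    have hmem := Datum.mul_mem_V hm hcon hc
    refine ⟨N₁ + p, ⟨_, hmem.1⟩, hmem, ?_, ?_⟩
    · rw [value_mul ⟨_, hcon.1⟩ c ⟨_, hmem.1⟩ rfl u, hv, hval, ← mul_pow, Prod.pow_fst,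
        Prod.pow_snd, Prod.fst_mul, Prod.snd_mul,
        value_mul_eq b b' (d.isCbar_mul_inv di hh0 hred ha1 ha2 hE hη hb hb') u]
    · rw [value_mul ⟨_, hcon.1⟩ c ⟨_, hmem.1⟩ rfl u, hv, hval, ← mul_pow, Prod.pow_fst,
        Prod.fst_mul]
      exact pow_ne_zero _ (mul_ne_zero hb1 hb'1)
  have hp := Datum.IsTrivial.mem_principal' _ hm hmk hū htriv
  rw [show ((d.conjSq σ).mul e).E = σ.act d.E + e.E from rfl, heE, hE] at hp
  have := add_mem hp (AddSubgroup.zsmul_mem _ (divOf_mem_principal hh0) ((q * q : ℕ) : ℤ))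
  rwa [smul_sub, smul_neg, add_assoc, sub_add_cancel, ← sub_eq_add_neg] at this

/-- **The square of Frobenius on classes killed by the norms.** -/
theorem FrobSq.sub_smul_mem_principal (σ : S.FrobSq) {m : ℕ} (hm : 0 < m) (hmk : (m : k) ≠ 0)
    {D : Divisor K F} (hdeg : Divisor.degree D = 0) (hD : S.Neg D) {G : F} (hG : G ≠ 0)
    (hordG : ∀ v, v.ord G = -((m : ℤ) * D v)) (hN : S.NormPow m G) (hN' : S.NormPow m (S.w G)) :
    σ.act (σ.act D - D) - ((q * q : ℕ) : ℤ) • (σ.act D - D) ∈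
      Divisor.principal (K := K) (F := F) := by
  obtain ⟨d, h, hh, hd⟩ := σ.exists_datum hm hD hdeg hG hordG hN hN'
  have hp := d.frobSq_sub_mem_principal σ hm hmk
  have hh' := divOf_mem_principal (K := K) hh
  rw [hd, map_sub σ.act (σ.act D - D), smul_sub] at hp
  have := add_mem hp (sub_mem (σ.act_principal hh')
    (AddSubgroup.zsmul_mem _ hh' ((q * q : ℕ) : ℤ)))
  convert this using 1
  abel

end Sheets

end Fermat.Agent.Semistable
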