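import Fermat.Agent.Semistable.Setup
import Fermat.Agent.MFGenus.PlaceBasic
import Fermat.Agent.FF.Places

/-!
# The place given by the order of an expansion
-/

set_option autoImplicit false

noncomputable section

namespace Fermat.Agent.Semistable

open AlgebraicCurve ModularCurve Fermat.Agent.Reduction

variable {K F : Type*} [Field K] [Field F] [Algebra K F]

theorem poleLE_zero_algebraMap (c : K) :
    PoleLE 0 (algebraMap K (LaurentSeries K) c) := by
  intro i hi
  rw [algebraMap_laurentSeries_eq_single, HahnSeries.coeff_single, if_neg (by omega)]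

/-- The ring of elements without pole in the expansion. -/
def seriesRing (ι : F →ₐ[K] LaurentSeries K) : ValuationSubring F where
  carrier := {f | PoleLE 0 (ι f)}
  zero_mem' := by
    simp only [Set.mem_ofPred_eq, map_zero]
    exact fun _ _ => rfl
  one_mem' := by
    simp only [Set.mem_ofPred_eq, map_one]
    intro i hi
    rw [HahnSeries.coeff_one, if_neg (by omega)]
  add_mem' := fun {a b} ha hb => by
    simp only [Set.mem_ofPred_eq, map_add] at *
    exact (poleLESubmodule K 0).add_mem ha hb
  neg_mem' := fun {a} ha => by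
    simp only [Set.mem_ofPred_eq, map_neg] at *
    exact (poleLESubmodule K 0).neg_mem ha
  mul_mem' := fun {a b} ha hb => by
    simp only [Set.mem_ofPred_eq, map_mul] at *
    simpa using ha.mul hb
  mem_or_inv_mem' := fun f => by
    simp only [Set.mem_ofPred_eq, map_inv₀]
    rcases eq_or_ne (ι f) 0 with h | h
    · exact Or.inl (h ▸ fun _ _ => rfl)
    rw [poleLE_iff_order h, poleLE_iff_order (inv_ne_zero h)]
    have h1 := HahnSeries.order_mul h (inv_ne_zero h)
    rw [mul_inv_cancel₀ h, HahnSeries.order_one] at h1
    omega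

theorem mem_seriesRing {ι : F →ₐ[K] LaurentSeries K} {f : F} :
    f ∈ seriesRing ι ↔ PoleLE 0 (ι f) := Iff.rfl

variable [FF.IsFunctionField K F]

/-- The place given by the order of the expansion, some element having a simple pole. -/
def seriesPlace (ι : F →ₐ[K] LaurentSeries K) (hι : ∃ z, (ι z).order = -1) : Place K F where
  toValuationSubring := seriesRing ι
  algebraMap_mem' a := by
    rw [mem_seriesRing, ι.commutes]
    exact poleLE_zero_algebraMap a
  ne_top' h := by
    obtain ⟨z, hz⟩ := hι
    have h1 : PoleLE 0 (ι z) := mem_seriesRing.mp (h ▸ ValuationSubring.mem_top z)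
    rw [poleLE_iff_order (fun h0 => by rw [h0, HahnSeries.order_zero] at hz; omega)] at h1
    omega
  isPrincipalIdealRing' := by
    refine FF.isPrincipalIdealRing_valuationSubring_of_ne_top (K := K) _ (fun a => ?_)
    rw [mem_seriesRing, ι.commutes]
    exact poleLE_zero_algebraMap a

omit [FF.IsFunctionField K F] in
theorem isOrd_order (ι : F →ₐ[K] LaurentSeries K) :
    MFGenus.IsOrd (fun f => (ι f).order) where
  map_mul f g hf hg := by
    show (ι (f * g)).order = (ι f).order + (ι g).order
    rw [map_mul, HahnSeries.order_mul ((map_ne_zero ι).mpr hf) ((map_ne_zero ι).mpr hg)]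
  map_add f g hf hg hfg := by
    show min (ι f).order (ι g).order ≤ (ι (f + g)).order
    rw [map_add]
    exact HahnSeries.min_order_le_order_add (by rwa [← map_add, ne_eq, map_eq_zero])

/-- The order at `seriesPlace` is the order of the expansion. -/
theorem ord_seriesPlace (ι : F →ₐ[K] LaurentSeries K) (hι : ∃ z, (ι z).order = -1) (f : F) :
    (seriesPlace ι hι).ord f = (ι f).order := by
  set v := seriesPlace ι hι with hv
  rcases eq_or_ne f 0 with rfl | hf
  · simp
  obtain ⟨π, hπ0, hπ⟩ := MFGenus.exists_ord_eq_one v
  have hle : ∀ g ∈ v.toValuationSubring, g ≠ 0 → 0 ≤ (ι g).order := fun g hg hg0 => by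
    have := (poleLE_iff_order ((map_ne_zero ι).mpr hg0)).mp (mem_seriesRing.mp hg)
    omega
  have key : ∀ g, g ≠ 0 → (ι g).order = v.ord g * (ι π).order :=
    fun g hg => MFGenus.isOrd_eq_mul_ord v (isOrd_order ι) hle hπ0 hπ hg
  obtain ⟨z, hz⟩ := hι
  have h1 := key z (fun h => by rw [h, map_zero, HahnSeries.order_zero] at hz; omega)
  have h2 : 0 ≤ (ι π).order :=
    hle π ((MFGenus.mem_iff_ord_nonneg v hπ0).2 (by omega)) hπ0
  have h3 : (ι π).order = 1 := by
    rcases Int.eq_one_or_neg_one_of_mul_eq_one (show (ι π).order * -v.ord z = 1 by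
      rw [hz] at h1; rw [mul_neg, mul_comm, ← h1]; norm_num) with h | h <;> omega
  rw [key f hf, h3, mul_one]

omit [FF.IsFunctionField K F] in
/-- A place is determined by its order function. -/
theorem place_eq_of_ord {u v : Place K F} (h : ∀ f, u.ord f = v.ord f) : u = v := by
  refine Place.ext (SetLike.ext fun f => ?_)
  rcases eq_or_ne f 0 with rfl | hf
  · simp
  rw [MFGenus.mem_iff_ord_nonneg u hf, MFGenus.mem_iff_ord_nonneg v hf, h]

end Fermat.Agent.Semistable
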