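import Fermat.Agent.Semistable.AtkinLehner
import Fermat.Agent.Semistable.SeriesPlace
import Fermat.Agent.Cosets.Psi
import Fermat.Agent.Igusa.Irreducible

/-!
# The cusps `∞` and `0` of `X₀(qM)` over the cusp `∞` of `X₀(M)`
-/

set_option autoImplicit false

noncomputable section

open ModularCurve AlgebraicCurve Fermat.Agent.Reduction

namespace Fermat.Agent.Semistable

local notation "ℚbar" => AlgebraicClosure ℚ

/-- The expansion at `∞`. -/
abbrev expInf (N : ℕ) : modularFunctionFieldBar N →ₐ[ℚbar] LaurentSeries ℚbar :=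
  (modularFunctionFieldBar N).val

theorem coe_jElt (N : ℕ) [NeZero N] :
    ((MFGenus.jElt ℚbar N : modularFunctionFieldBar N) : LaurentSeries ℚbar) = jqModC ℚbar := by
  show coeffEmb ℚbar (qExpand ℚ 1 jq) = _
  have h1 : qExpand ℚ 1 jq = jq := by
    ext i
    simpa using qExpand_coeff_mul 1 jq i
  rw [h1, coeffEmb, ← jqModC_rat]
  exact map_jqModC _

theorem order_jElt (N : ℕ) [NeZero N] : (expInf N (MFGenus.jElt ℚbar N)).order = -1 := by
  show ((MFGenus.jElt ℚbar N : modularFunctionFieldBar N) : LaurentSeries ℚbar).order = -1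
  rw [coe_jElt, Igusa.order_jqModC]

theorem transcendental_jEltBar (N : ℕ) [NeZero N] :
    Transcendental ℚbar (MFGenus.jElt ℚbar N : modularFunctionFieldBar N) :=
  MFGenus.transcendental_jElt FF.qbarToComplex

theorem degree_poleDiv_jElt (N : ℕ) [NeZero N] :
    Divisor.degree (FF.poleDiv ℚbar (MFGenus.jElt ℚbar N : modularFunctionFieldBar N)) =
      (dedekindPsi N : ℤ) := by
  rw [FF.degree_poleDiv (transcendental_jEltBar N),
    ← MFGenus.finrank_eq_dedekindPsi (L := ℚbar) (N := N) FF.qbarToComplex]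

/-- The cusp `∞`. -/
def cuspInf (N : ℕ) [NeZero N] : Place ℚbar (modularFunctionFieldBar N) :=
  seriesPlace (expInf N) ⟨_, order_jElt N⟩

theorem ord_cuspInf (N : ℕ) [NeZero N] (f : modularFunctionFieldBar N) :
    (cuspInf N).ord f = (f : LaurentSeries ℚbar).order :=
  ord_seriesPlace _ _ f

variable {q M : ℕ} [NeZero q] [NeZero M] (w : ALData q M) (hq : q.Prime)

/-- The expansion at `0`. -/
abbrev expZero : modularFunctionFieldBar (M * q) →ₐ[ℚbar] LaurentSeries ℚbar :=
  (expInf (M * q)).comp (wEquiv w hq).toAlgHom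

theorem expZero_apply (f : modularFunctionFieldBar (M * q)) :
    expZero w hq f = (wEquiv w hq f : LaurentSeries ℚbar) := rfl

theorem order_expZero_jElt :
    (expZero w hq (wEquiv w hq (MFGenus.jElt ℚbar (M * q)))).order = -1 := by
  rw [expZero_apply, wEquiv_wEquiv]
  exact order_jElt (M * q)

/-- The cusp `0`. -/
def cuspZero : Place ℚbar (modularFunctionFieldBar (M * q)) :=
  seriesPlace (expZero w hq) ⟨_, order_expZero_jElt w hq⟩

theorem ord_cuspZero (f : modularFunctionFieldBar (M * q)) :
    (cuspZero w hq).ord f = (wEquiv w hq f : LaurentSeries ℚbar).order :=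
  ord_seriesPlace _ _ f

omit w hq in
theorem order_qExpand' {y : LaurentSeries ℚbar} :
    (qExpand ℚbar q y).order = (q : ℤ) * y.order := by
  rcases eq_or_ne y 0 with rfl | hy
  · simp
  refine le_antisymm (HahnSeries.order_le_of_coeff_ne_zero ?_) ?_
  · rw [qExpand_coeff_mul]
    exact fun h => hy (HahnSeries.coeff_order_eq_zero.mp h)
  · have hq0 : qExpand ℚbar q y ≠ 0 := fun h => hy (qExpand_injective q (by rw [h, map_zero]))
    obtain ⟨i, hi⟩ : ∃ i, (qExpand ℚbar q y).order = i := ⟨_, rfl⟩
    rw [hi]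
    have hne : (qExpand ℚbar q y).coeff i ≠ 0 := by
      rw [← hi]; exact fun h => hq0 (HahnSeries.coeff_order_eq_zero.mp h)
    obtain ⟨j, rfl⟩ : (q : ℤ) ∣ i := by
      by_contra hn
      exact hne (qExpand_coeff_of_not_dvd q _ hn)
    rw [qExpand_coeff_mul] at hne
    exact mul_le_mul_of_nonneg_left (HahnSeries.order_le_of_coeff_ne_zero hne) (by positivity)

theorem ord_cuspInf_alpha (y : modularFunctionFieldBar M) :
    (cuspInf (M * q)).ord (heckeAlphaBar ℚbar M q y) = (y : LaurentSeries ℚbar).order := by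
  rw [ord_cuspInf, coe_heckeAlphaBar]

theorem ord_cuspZero_alpha (y : modularFunctionFieldBar M) :
    (cuspZero w hq).ord (heckeAlphaBar ℚbar M q y) = (q : ℤ) * (y : LaurentSeries ℚbar).order := by
  rw [ord_cuspZero, wEquiv_heckeAlphaBar, coe_heckeBetaBar, order_qExpand']

theorem cuspInf_ne_cuspZero : cuspInf (M * q) ≠ cuspZero w hq := by
  intro h
  have h1 := ord_cuspInf_alpha (q := q) (MFGenus.jElt ℚbar M)
  rw [h, ord_cuspZero_alpha, show ((MFGenus.jElt ℚbar M : modularFunctionFieldBar M) :
    LaurentSeries ℚbar).order = -1 from order_jElt M] at h1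
  have : (q : ℤ) = 1 := by linarith
  exact hq.ne_one (by exact_mod_cast this)

/-- Regular outside `∞`. -/
def RegM (y : modularFunctionFieldBar M) : Prop :=
  ∀ v : Place ℚbar (modularFunctionFieldBar M), v ≠ cuspInf M → 0 ≤ v.ord y

theorem finrankAlong_alpha (hq : q.Prime) (hqM : ¬ q ∣ M) :
    (finrankAlong ℚbar (heckeAlphaBar ℚbar M q) : ℤ) = q + 1 := by
  have hj : heckeAlphaBar ℚbar M q (MFGenus.jElt ℚbar M) = MFGenus.jElt ℚbar (M * q) :=
    Subtype.ext (coe_heckeAlphaBar M q _)
  have h := FF.degree_poleDiv_along (heckeAlphaBar ℚbar M q) (transcendental_jEltBar M)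
  rw [hj, degree_poleDiv_jElt, degree_poleDiv_jElt,
    Fermat.Agent.Cosets.dedekindPsi_mul
      (((Nat.Prime.coprime_iff_not_dvd hq).mpr hqM).symm)] at h
  have hp : dedekindPsi q = q + 1 := by
    simpa using Fermat.Agent.Cosets.dedekindPsi_prime_pow hq 0
  rw [hp] at h
  push_cast at h
  have hpos : (dedekindPsi M : ℤ) ≠ 0 := by
    rw [← degree_poleDiv_jElt, FF.degree_poleDiv (transcendental_jEltBar M)]
    have := FF.finite_adjoin_simple (transcendental_jEltBar M)
    exact_mod_cast Module.finrank_pos.ne'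
  exact mul_right_cancel₀ hpos (by linarith)

/-- Only `∞` and `0` lie over the cusp `∞` of level `M`. -/
theorem eq_cusp_of_restrict (hqM : ¬ q ∣ M) (hα : (heckeAlphaBar ℚbar M q).toRingHom.IsIntegral)
    (v : Place ℚbar (modularFunctionFieldBar (M * q)))
    (h : v.restrictAlong (heckeAlphaBar ℚbar M q) hα = cuspInf M) :
    v = cuspInf (M * q) ∨ v = cuspZero w hq := by
  classical
  by_contra hne
  push Not at hne
  obtain ⟨x, hx, hxu⟩ := FF.exists_ord_neg_unique (cuspInf M)
  have hxT := FF.transcendental_of_isPole _ hx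
  have hpd : FF.poleDiv ℚbar x = Finsupp.single (cuspInf M) (-(cuspInf M).ord x) := by
    ext u
    rw [FF.poleDiv_apply]
    rcases eq_or_ne u (cuspInf M) with rfl | hu
    · rw [Finsupp.single_eq_same]; omega
    · rw [Finsupp.single_eq_of_ne hu]; have := hxu u hu; omega
  have hdeg := FF.degree_poleDiv_along (heckeAlphaBar ℚbar M q) hxT
  rw [finrankAlong_alpha hq hqM, hpd, Divisor.degree_single, FF.deg_eq_one] at hdeg
  set z := heckeAlphaBar ℚbar M q x with hz
  set a := (cuspInf M).ord x with ha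
  set D : Divisor ℚbar (modularFunctionFieldBar (M * q)) :=
    Finsupp.single (cuspInf (M * q)) (-a) + Finsupp.single (cuspZero w hq) (-((q : ℤ) * a)) +
      Finsupp.single v 1 with hD
  have hi : (cuspInf (M * q)).ord z = a := by rw [hz, ord_cuspInf_alpha, ← ord_cuspInf, ha]
  have hzo : (cuspZero w hq).ord z = q * a := by rw [hz, ord_cuspZero_alpha, ← ord_cuspInf, ha]
  have hv : v.ord z ≤ -1 := by
    have he := Place.ord_restrictAlong (heckeAlphaBar ℚbar M q) hα v x
    rw [h, ← hz, ← ha] at he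
    have hpos : (1 : ℤ) ≤ (Place.ramificationIndexAlong (heckeAlphaBar ℚbar M q) v : ℤ) := by
      let _ := algebraAlong (heckeAlphaBar ℚbar M q)
      have := isIntegral_along (heckeAlphaBar ℚbar M q) hα
      exact_mod_cast v.ramificationIndex_pos (F := modularFunctionFieldBar M)
    rw [he]
    nlinarith
  have hne' := cuspInf_ne_cuspZero w hq
  have hle : D ≤ FF.poleDiv ℚbar z := by
    intro u
    rw [FF.poleDiv_apply, hD, Finsupp.add_apply, Finsupp.add_apply]
    by_cases h1 : u = cuspInf (M * q)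
    · subst h1
      rw [Finsupp.single_eq_same, Finsupp.single_eq_of_ne hne', Finsupp.single_eq_of_ne hne.1.symm,
        hi]
      omega
    by_cases h2 : u = cuspZero w hq
    · subst h2
      rw [Finsupp.single_eq_same, Finsupp.single_eq_of_ne hne'.symm,
        Finsupp.single_eq_of_ne hne.2.symm, hzo]
      omega
    rw [Finsupp.single_eq_of_ne h1, Finsupp.single_eq_of_ne h2]
    by_cases h3 : u = v
    · subst h3
      rw [Finsupp.single_eq_same]
      omega
    · rw [Finsupp.single_eq_of_ne h3]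
      omega
  have h2 := FF.degree_mono hle
  rw [hD, map_add, map_add, Divisor.degree_single, Divisor.degree_single, Divisor.degree_single,
    FF.deg_eq_one, FF.deg_eq_one, FF.deg_eq_one, hdeg] at h2
  push_cast at h2
  nlinarith

/-- `α` of a function regular outside `∞` is regular outside the two cusps. -/
theorem regOff_alpha (hqM : ¬ q ∣ M) {y : modularFunctionFieldBar M} (hy : RegM y) :
    RegOff (cuspInf (M * q)) (cuspZero w hq) (heckeAlphaBar ℚbar M q y) := by
  intro v h1 h2
  have hα := FF.isIntegralAlong (heckeAlphaBar ℚbar M q)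
  refine FF.mem_ordGE_of_le_ord v ?_
  rw [Place.ord_restrictAlong (heckeAlphaBar ℚbar M q) hα v y]
  refine mul_nonneg (Int.natCast_nonneg _) (hy _ fun h => ?_)
  rcases eq_cusp_of_restrict w hq hqM hα v h with h' | h'
  exacts [h1 h', h2 h']

theorem regOff_wEquiv {f : modularFunctionFieldBar (M * q)}
    (hf : RegOff (cuspInf (M * q)) (cuspZero w hq) f) :
    RegOff (cuspInf (M * q)) (cuspZero w hq) (wEquiv w hq f) := by
  intro v h1 h2
  rcases eq_or_ne f 0 with rfl | hf0
  · simp
  set g := SemilinearAut.ofAlgAut (wEquiv w hq)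
  have hgu : ∀ u, g • u = wEquiv w hq u := fun u => SemilinearAut.ofAlgAut_smul _ u
  set v' := g⁻¹ • v with hv'
  have hord : ∀ u, v.ord (wEquiv w hq u) = v'.ord u := fun u => by
    rw [← hgu, ← SemilinearAut.ord_smul g v' u, hv', smul_inv_smul]
  have hinf : v' ≠ cuspInf (M * q) := fun h => h2 (place_eq_of_ord fun u => by
    rw [← wEquiv_wEquiv w hq u, hord, h, ord_cuspInf, ord_cuspZero, wEquiv_wEquiv])
  have hzero : v' ≠ cuspZero w hq := fun h => h1 (place_eq_of_ord fun u => by
    rw [← wEquiv_wEquiv w hq u, hord, h, ord_cuspInf, ord_cuspZero])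
  refine FF.mem_ordGE_of_le_ord v ?_
  rw [hord]
  exact (FF.mem_ordGE_of_ne_zero v' hf0).mp (hf v' hinf hzero)

end Fermat.Agent.Semistable
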