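import Fermat.Agent.Semistable.FrobLattice
import Fermat.Agent.Carayol.Endgame.Main
import Fermat.Agent.GalRep.PointExtension
import Fermat.Agent.Density.Reps
import Fermat.Agent.S22

/-!
# The characteristic polynomial of Frobenius at `q ∥ M` for a newform of level `M`
-/

set_option autoImplicit false

noncomputable section

open ModularCurve AlgebraicCurve Matrix IsLocalRing CuspForm
open Fermat.Agent.GalRep Fermat.Agent.Cosets Fermat.Agent.Kummer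
open Fermat.Agent.Carayol.Endgame

namespace Fermat.Agent.Semistable

local notation "ℚbar" => AlgebraicClosure ℚ
local notation "Γℚbar" => (AlgebraicClosure ℚ ≃ₐ[ℚ] AlgebraicClosure ℚ)

variable {O : Type} [CommRing O] [IsDomain O] [IsDiscreteValuationRing O]
  [IsAdicComplete (maximalIdeal O) O]

omit [IsAdicComplete (IsLocalRing.maximalIdeal O) O] in
/-- A representation in a basis. -/
theorem exists_matrix_rep (ρ : GaloisRepAdic O) :
    ∃ R₂ : Γℚbar →* Matrix (Fin 2) (Fin 2) O, MatrixContinuous R₂ ∧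
      ∀ σ, (R₂ σ).trace = LinearMap.trace O ρ.V (ρ.ρ σ) ∧ (R₂ σ).det = LinearMap.det (ρ.ρ σ) := by
  let b₂ := Module.finBasisOfFinrankEq O ρ.V ρ.finrank_eq
  let e₂ := LinearMap.toMatrixAlgEquiv b₂
  let R₂ : Γℚbar →* Matrix (Fin 2) (Fin 2) O := e₂.toAlgHom.toMonoidHom.comp ρ.ρ
  refine ⟨R₂, fun n => ?_, fun σ => ⟨(LinearMap.trace_eq_matrix_trace O b₂ (ρ.ρ σ)).symm,
    LinearMap.det_toMatrix b₂ (ρ.ρ σ)⟩⟩
  obtain ⟨F, hF, h⟩ := ρ.isAdicContinuous n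
  refine ⟨F, hF, fun σ hσ i j => ?_⟩
  have key : ∀ x ∈ (maximalIdeal O ^ n) • (⊤ : Submodule O ρ.V),
      b₂.repr x i ∈ maximalIdeal O ^ n := fun x hx => by
    refine Submodule.smul_induction_on hx (fun r hr v _ => ?_) (fun u v hu hv => ?_)
    · rw [map_smul, Finsupp.smul_apply, smul_eq_mul]; exact Ideal.mul_mem_right _ _ hr
    · rw [map_add, Finsupp.add_apply]; exact Ideal.add_mem _ hu hv
  have h1 := key _ (h σ hσ (b₂ j))
  rw [map_sub, Finsupp.sub_apply] at h1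
  have h2 : R₂ σ i j = b₂.repr (ρ.ρ σ (b₂ j)) i := LinearMap.toMatrixAlgEquiv_apply b₂ _ i j
  rw [h2, show (1 : Matrix (Fin 2) (Fin 2) O) i j = b₂.repr (b₂ j) i by
    simp [Matrix.one_apply, Finsupp.single_apply, eq_comm]]
  exact h1

/-- A determinant equal to `ℓ` at almost all Frobenius elements is the cyclotomic character. -/
theorem det_eq_cycl (p : ℕ) [Fact p.Prime] (hp : (p : O) ∈ maximalIdeal O)
    (R₂ : Γℚbar →* Matrix (Fin 2) (Fin 2) O) (hR₂ : MatrixContinuous R₂)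
    (S : Finset ℕ) (hpS : p ∈ S)
    (h : ∀ ℓ : ℕ, ℓ.Prime → ℓ ∉ S → ∀ A : ValuationSubring ℚbar, A.LiesOverPrime ℓ →
      ∀ τ : Γℚbar, A.IsFrobeniusAt τ ℓ → (R₂ τ).det = (ℓ : O)) (σ : Γℚbar) :
    (R₂ σ).det = padicHom p O hp (cycl p σ) := by
  rw [← sub_eq_zero]
  refine IsHausdorff.haus (I := maximalIdeal O) inferInstance _ fun n => ?_
  rw [SModEq.zero, smul_eq_mul, Ideal.mul_top]
  refine Ideal.pow_le_pow_right (Nat.le_add_right n 1) ?_
  set I := maximalIdeal O ^ (n + 1)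
  obtain ⟨L₁, hL₁, h1⟩ := hR₂ (n + 1)
  obtain ⟨L₂, hL₂, h2⟩ := cycl_finiteLevel p (n + 1)
  let χ : Γℚbar →* O ⧸ I :=
    { toFun := fun σ => Ideal.Quotient.mk I (R₂ σ).det
      map_one' := by simp
      map_mul' := fun a b => by rw [map_mul, Matrix.det_mul, map_mul] }
  let χ' : Γℚbar →* O ⧸ I :=
    (Ideal.Quotient.mk I).toMonoidHom.comp ((padicHom p O hp).toMonoidHom.comp (cycl p))
  have he : χ = χ' := by
    refine Density.monoidHom_eq_of_forall_frobenius ⟨L₁, hL₁, fun τ hτ => ?_⟩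
      ⟨L₂, hL₂, fun τ hτ => ?_⟩ (↑S : Set ℕ) S.finite_toSet fun ℓ hℓ hℓS A hA τ hτ => ?_
    · show Ideal.Quotient.mk I (R₂ τ).det = 1
      rw [RingHom.map_det, show (Ideal.Quotient.mk I).mapMatrix (R₂ τ) = 1 from ?_, Matrix.det_one]
      ext i j
      rw [RingHom.mapMatrix_apply, Matrix.map_apply,
        Ideal.Quotient.mk_eq_mk_iff_sub_mem _ _ |>.mpr (h1 τ hτ i j)]
      simp [Matrix.one_apply]
    · show Ideal.Quotient.mk I (padicHom p O hp (cycl p τ)) = 1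
      rw [← map_one (Ideal.Quotient.mk I), Ideal.Quotient.mk_eq_mk_iff_sub_mem,
        ← map_one (padicHom p O hp), ← map_sub]
      exact padicHom_mem_pow p O hp (by rw [map_sub, h2 τ hτ, map_one, sub_self])
    · show Ideal.Quotient.mk I (R₂ τ).det = Ideal.Quotient.mk I (padicHom p O hp (cycl p τ))
      have hℓS' : ℓ ∉ S := by simpa using hℓS
      rw [h ℓ hℓ hℓS' A hA τ hτ, cycl_frobenius p hℓ (fun he => hℓS' (he ▸ hpS)) hA hτ,
        map_natCast (padicHom p O hp)]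
  exact (Ideal.Quotient.mk_eq_mk_iff_sub_mem _ _).mp (DFunLike.congr_fun he σ)

omit [IsAdicComplete (IsLocalRing.maximalIdeal O) O] in
/-- A quadratic relation at almost all Frobenius elements on a saturated stable lattice holds
everywhere. -/
theorem quad_of_forall_frobenius {d : ℕ} (R₂ : Γℚbar →* Matrix (Fin 2) (Fin 2) O)
    (hR₂ : MatrixContinuous R₂) (R : Γℚbar →* Matrix (Fin d) (Fin d) O) (hR : MatrixContinuous R)
    (L : Submodule O (Fin d → O)) (hstab : ∀ σ, ∀ v ∈ L, R σ *ᵥ v ∈ L)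
    (hsat : ∀ (c : O) (v : Fin d → O), c ≠ 0 → c • v ∈ L → v ∈ L)
    (S : Set ℕ) (hS : S.Finite)
    (hfrob : ∀ ℓ : ℕ, ℓ.Prime → ℓ ∉ S → ∀ A : ValuationSubring ℚbar, A.LiesOverPrime ℓ →
      ∀ τ : Γℚbar, A.IsFrobeniusAt τ ℓ → ∀ v ∈ L,
        R τ *ᵥ (R τ *ᵥ v) - (R₂ τ).trace • R τ *ᵥ v + (R₂ τ).det • v = 0)
    (σ : Γℚbar) {v : Fin d → O} (hv : v ∈ L) :
    R σ *ᵥ (R σ *ᵥ v) - (R₂ σ).trace • R σ *ᵥ v + (R₂ σ).det • v = 0 := by
  obtain ⟨r, P, Q, hQP, hPL, hPQ⟩ := exists_coordinates L hsat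
  have hPR : ∀ σ, P * (Q * R σ * P) = R σ * P := fun σ =>
    Matrix.ext_of_mulVec_single fun i => by
      simp only [← Matrix.mulVec_mulVec]
      exact hPQ _ (hstab σ _ (hPL _))
  let R' : Γℚbar →* Matrix (Fin r) (Fin r) O :=
    { toFun := fun σ => Q * R σ * P
      map_one' := by rw [map_one, Matrix.mul_one, hQP]
      map_mul' := fun σ τ => by
        rw [map_mul, show Q * (R σ * R τ) * P = Q * R σ * (R τ * P) by
          simp only [Matrix.mul_assoc], ← hPR τ]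
        simp only [Matrix.mul_assoc] }
  have hR'c : MatrixContinuous R' := fun n => by
    obtain ⟨F, hF, h⟩ := hR n
    refine ⟨F, hF, fun σ hσ i j => ?_⟩
    have h1 : Q * R σ * P - 1 = Q * (R σ - 1) * P := by
      rw [Matrix.mul_sub, Matrix.sub_mul, Matrix.mul_one, hQP]
    change (Q * R σ * P) i j - _ ∈ _
    rw [← Matrix.sub_apply, h1, Matrix.mul_apply]
    refine sum_mem fun k _ => Ideal.mul_mem_right _ _ ?_
    rw [Matrix.mul_apply]
    exact sum_mem fun l _ => Ideal.mul_mem_left _ _ (h σ hσ l k)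
  have hR'P : ∀ σ x, P *ᵥ (R' σ *ᵥ x) = R σ *ᵥ (P *ᵥ x) := fun σ x => by
    rw [Matrix.mulVec_mulVec, Matrix.mulVec_mulVec]
    exact congrArg (· *ᵥ x) (hPR σ)
  have hquad : QuadRel (R' σ) (R₂ σ) := by
    refine quadRel_of_forall_frobenius R' hR'c R₂ hR₂ S hS (fun ℓ hℓ hℓS A hA τ hτ => ?_) σ
    refine Matrix.ext_of_mulVec_single fun i => ?_
    have h1 := congrArg (Q *ᵥ ·) (hfrob ℓ hℓ hℓS A hA τ hτ _ (hPL (Pi.single i 1)))
    simp only [← hR'P, Matrix.mulVec_add, Matrix.mulVec_sub, Matrix.mulVec_smul,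
      Matrix.mulVec_mulVec, ← Matrix.mul_assoc, hQP, Matrix.one_mul, Matrix.one_mulVec,
      Matrix.mulVec_zero] at h1
    rw [Matrix.zero_mulVec, Matrix.add_mulVec, Matrix.sub_mulVec, Matrix.smul_mulVec,
      Matrix.smul_mulVec, Matrix.one_mulVec]
    exact h1
  have h1 := congrArg (P *ᵥ ·) (congrArg (· *ᵥ (Q *ᵥ v)) hquad)
  simp only [Matrix.add_mulVec, Matrix.sub_mulVec, Matrix.smul_mulVec, Matrix.one_mulVec,
    ← Matrix.mulVec_mulVec, Matrix.mulVec_add, Matrix.mulVec_sub, Matrix.mulVec_smul,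
    Matrix.zero_mulVec, Matrix.mulVec_zero] at h1
  rwa [hR'P, hR'P, hPQ v hv] at h1

/-- `X² - tX + q = 0` and `(X² - q²)(X² - 1) = 0` force `t = ± (q + 1)`. -/
theorem eq_or_eq_neg_of_quadratic {R : Type*} [CommRing R] [IsDomain R] {d : ℕ}
    {B : Matrix (Fin d) (Fin d) R} {t : R} {c : ℕ} {v : Fin d → R}
    (hB : ∀ u, B *ᵥ u = 0 → u = 0) (hv : v ≠ 0)
    (h1 : ∀ u ∈ ({v, B *ᵥ v, B *ᵥ (B *ᵥ v)} : Set (Fin d → R)),
      B *ᵥ (B *ᵥ u) - t • B *ᵥ u + (c : R) • u = 0)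
    (h2 : ((B * B - ((c * c : ℕ) : Matrix (Fin d) (Fin d) R)) * (B * B - 1)) *ᵥ v = 0) :
    t = (c : R) + 1 ∨ t = -((c : R) + 1) := by
  have e0 := h1 v (by simp)
  have e1 := h1 (B *ᵥ v) (by simp)
  have e2 := h1 (B *ᵥ (B *ᵥ v)) (by simp)
  simp only [← Matrix.mulVec_mulVec, Matrix.sub_mulVec, Matrix.one_mulVec, Matrix.mulVec_sub,
    Matrix.natCast_mulVec] at h2
  have key : (t * t - ((c : R) + 1) * ((c : R) + 1)) • B *ᵥ (B *ᵥ v) = 0 := by
    funext i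
    have f0 := congrFun e0 i
    have f1 := congrFun e1 i
    have f2 := congrFun e2 i
    have f3 := congrFun h2 i
    simp only [Pi.add_apply, Pi.sub_apply, Pi.smul_apply, Pi.zero_apply, smul_eq_mul,
      Nat.cast_mul] at f0 f1 f2 f3 ⊢
    linear_combination f3 - f2 - t * f1 - (c : R) * f0
  have hne : B *ᵥ (B *ᵥ v) ≠ 0 := fun h => hv (hB _ (hB _ h))
  rcases smul_eq_zero.mp key with h | h
  · have h' : (t - ((c : R) + 1)) * (t + ((c : R) + 1)) = 0 := by linear_combination h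
    rcases mul_eq_zero.mp h' with h'' | h''
    · exact Or.inl (sub_eq_zero.mp h'')
    · exact Or.inr (eq_neg_of_add_eq_zero_left h'')
  · exact absurd h hne

variable [CharZero O] {lam : ℕ} [Fact lam.Prime] {q M : ℕ} [NeZero q] [NeZero M]

/-- **The trace of Frobenius at `q ∥ M` is `± (q + 1)`.** -/
theorem trace_frobenius_eq {g : CuspForm (CongruenceSubgroup.Gamma0 (M * q)) 2}
    (hg : g.IsNewform) (hq : q.Prime) (hqM : ¬ q ∣ M) (hqlam : q ≠ lam) (S : Finset ℕ)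
    (hlamS : lam ∈ S) (hMS : ∀ l : ℕ, l.Prime → l ∣ M * q → l ∈ S)
    (chig : heckeAlgebra (M * q) 2 (↑S : Set ℕ) →+* ℂ)
    (hchig : ∀ (ℓ : ℕ) (hℓ : ℓ.Prime) (hℓM : ¬ ℓ ∣ M * q) (hℓS : ℓ ∉ (↑S : Set ℕ)),
      chig (heckeAlgebra.T hℓ hℓM hℓS) = ModularFormClass.qCoeff g ℓ)
    (hT : TorsionReduction (M * q) lam) (hT' : TorsionReduction M lam)
    (hpO : (lam : O) ∈ maximalIdeal O)
    (j : chig.range →+* O) (κO : heckeAlgebra (M * q) 2 ∅ →+* O)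
    (hκO : ∀ (ℓ : ℕ) (hℓ : ℓ.Prime) (hℓM : ¬ ℓ ∣ M * q) (hℓS : ℓ ∉ (↑S : Set ℕ)),
      κO (heckeOp (M * q) ⟨ℓ, hℓ⟩) = j (chig.rangeRestrict (heckeAlgebra.T hℓ hℓM hℓS)))
    (ρ : GaloisRepAdic O)
    (hρ : ∀ (ℓ : ℕ) (hℓ : ℓ.Prime), ℓ ∉ S → ∀ A : ValuationSubring ℚbar, A.LiesOverPrime ℓ →
      ∀ σ : Γℚbar, A.IsFrobeniusAt σ ℓ → LinearMap.charpoly (ρ.ρ σ) =
        Polynomial.X ^ 2 - Polynomial.C (κO (heckeOp (M * q) ⟨ℓ, hℓ⟩)) * Polynomial.X
          + Polynomial.C ((ℓ : O)))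
    {A : ValuationSubring ℚbar} (hA : A.LiesOverPrime q) {φ : Γℚbar} (hφ : A.IsFrobeniusAt φ q) :
    (LinearMap.trace O ρ.V (ρ.ρ φ) = (q : O) + 1 ∨
      LinearMap.trace O ρ.V (ρ.ρ φ) = -((q : O) + 1)) ∧ LinearMap.det (ρ.ρ φ) = (q : O) := by
  classical
  have := Hecke.moduleFinite_of_hasIntegralStructure (S := (∅ : Set ℕ)) (by norm_num)
    (MFCore.hasIntegralStructure (M * q) 2)
  have : CharZero (FractionRing O) :=
    charZero_of_injective_algebraMap (IsFractionRing.injective O (FractionRing O))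
  obtain ⟨R₂, hR₂, hR₂td⟩ := exists_matrix_rep ρ
  let a : Nat.Primes → O := fun l => κO (heckeOp (M * q) l)
  let L := eigenLattice (heckeMat (M * q)) a
  let R := latticeRepO (M * q) lam O hpO
  obtain ⟨v, hvL, hv0⟩ : ∃ v ∈ L, v ≠ 0 :=
    exists_ne_zero_mem_eigenLattice (FractionRing O) (heckeMat (M * q)) a
      ((jZeroDatum (M * q) lam hT).finrank_eigenspace_bounds
        ((algebraMap O (FractionRing O)).comp κO)).1
  have hstab : ∀ σ, ∀ u ∈ L, R σ *ᵥ u ∈ L := fun σ u hu l => by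
    rw [Matrix.mulVec_mulVec, ← (latticeRepO_commute (M * q) lam O hpO σ l).eq,
      ← Matrix.mulVec_mulVec, hu l, Matrix.mulVec_smul]
  have hsat : ∀ (c : O) (u : Fin (homRank (M * q)) → O), c ≠ 0 → c • u ∈ L → u ∈ L :=
    fun c u hc hu l => smul_right_injective (Fin (homRank (M * q)) → O) hc
      ((Matrix.mulVec_smul _ c u).symm.trans ((hu l).trans (smul_comm _ _ _)))
  have hnot : ∀ ℓ : ℕ, ℓ.Prime → ℓ ∉ S → ¬ ℓ ∣ M * q * lam ∧ ¬ ℓ ∣ M * lam ∧ ¬ ℓ ∣ M * q := by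
    intro ℓ hℓ hℓS
    have h1 : ¬ ℓ ∣ M * q := fun h => hℓS (hMS ℓ hℓ h)
    have h2 : ¬ ℓ ∣ lam := fun h =>
      hℓS ((Nat.prime_dvd_prime_iff_eq hℓ Fact.out).mp h ▸ hlamS)
    exact ⟨fun h => (hℓ.dvd_mul.mp h).elim h1 h2,
      fun h => (hℓ.dvd_mul.mp h).elim (fun h' => h1 (h'.mul_right q)) h2, h1⟩
  have hquad : ∀ ℓ (hℓ : ℓ.Prime), ℓ ∉ S → ∀ B : ValuationSubring ℚbar, B.LiesOverPrime ℓ →
      ∀ τ : Γℚbar, B.IsFrobeniusAt τ ℓ → ∀ u ∈ L,
        R τ *ᵥ (R τ *ᵥ u) - a ⟨ℓ, hℓ⟩ • R τ *ᵥ u + (ℓ : O) • u = 0 := by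
    intro ℓ hℓ hℓS B hB τ hτ u hu
    have h := Carayol.Endgame.quadratic_mulVec
      (latticeRepO_quadratic (M * q) lam O hpO hT ℓ hℓ (hnot ℓ hℓ hℓS).1 B hB τ hτ) u
    rwa [hstab τ u hu ⟨ℓ, hℓ⟩] at h
  have htd : ∀ ℓ (hℓ : ℓ.Prime), ℓ ∉ S → ∀ B : ValuationSubring ℚbar, B.LiesOverPrime ℓ →
      ∀ τ : Γℚbar, B.IsFrobeniusAt τ ℓ →
        (R₂ τ).trace = a ⟨ℓ, hℓ⟩ ∧ (R₂ τ).det = (ℓ : O) := by
    intro ℓ hℓ hℓS B hB τ hτ
    rw [(hR₂td τ).1, (hR₂td τ).2]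
    exact Carayol.Endgame.trace_det_of_charpoly ρ (hρ ℓ hℓ hℓS B hB τ hτ)
  have hdet : (R₂ φ).det = (q : O) := by
    rw [det_eq_cycl lam hpO R₂ hR₂ S hlamS
        (fun ℓ hℓ hℓS B hB τ hτ => (htd ℓ hℓ hℓS B hB τ hτ).2) φ,
      cycl_frobenius lam hq hqlam hA hφ, map_natCast]
  refine ⟨?_, (hR₂td φ).2.symm.trans hdet⟩
  rw [← (hR₂td φ).1]
  -- every map to level `M` kills the eigenvectors
  have hpush : ∀ u ∈ L, ∀ P : Matrix (Fin (homRank M)) (Fin (homRank (M * q))) ℤ_[lam],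
      (∀ σ, P * latticeRep (M * q) lam σ = latticeRep M lam σ * P) →
      P.map (padicHom lam O hpO) *ᵥ u = 0 := by
    intro u hu P hP
    set PO := P.map (padicHom lam O hpO) with hPO
    let R' := latticeRepO M lam O hpO
    have hcomm : ∀ σ v, PO *ᵥ (R σ *ᵥ v) = R' σ *ᵥ (PO *ᵥ v) := fun σ v => by
      rw [Matrix.mulVec_mulVec, Matrix.mulVec_mulVec]
      refine congrArg (· *ᵥ v) ?_
      simp only [R, R', latticeRepO_apply, hPO, ← Matrix.map_mul, hP σ]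
    refine eq_zero_of_eigen hg S hMS chig hchig j (dvd_mul_right M q)
      (fun h => hq.one_lt.ne' (Nat.eq_of_mul_eq_mul_left
        (Nat.pos_of_neZero M) (h.symm.trans (mul_one _).symm))) ?_ _ ?_
    · exact latticeMat M
    intro ℓ hℓ hℓM hℓS
    have hℓS' : ℓ ∉ S := by simpa using hℓS
    erw [latticeMat_heckeOp M ⟨ℓ, hℓ⟩]
    rw [← hκO ℓ hℓ hℓM hℓS]
    change _ = a ⟨ℓ, hℓ⟩ • _
    obtain ⟨B, hB⟩ := Gal.exists_liesOverPrime (L := ℚbar) hℓ
    obtain ⟨τ, hτ⟩ := Gal.exists_isFrobeniusAt hℓ hB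
    set u' := R τ⁻¹ *ᵥ u with hu'
    have hτu : R τ *ᵥ u' = u := by
      rw [hu', Matrix.mulVec_mulVec, ← map_mul, mul_inv_cancel, map_one, Matrix.one_mulVec]
    have h1 := congrArg (PO *ᵥ ·) (hquad ℓ hℓ hℓS' B hB τ hτ u' (hstab _ u hu))
    simp only [Matrix.mulVec_add, Matrix.mulVec_sub, Matrix.mulVec_smul, Matrix.mulVec_zero,
      hcomm] at h1
    have h2 := Carayol.Endgame.quadratic_mulVec
      (latticeRepO_quadratic M lam O hpO hT' ℓ hℓ (hnot ℓ hℓ hℓS').2.1 B hB τ hτ) (PO *ᵥ u')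
    rw [← hcomm τ u', hτu] at h1 h2
    rw [← h2] at h1
    exact (sub_right_inj.mp (add_right_cancel h1)).symm
  have hT2 := latticeRepO_sq_sub_mul_sub lam hpO hq hqlam hqM hA hφ (hpush v hvL)
  rw [map_mul] at hT2
  refine eq_or_eq_neg_of_quadratic (B := R φ) (c := q) ?_ hv0 (fun u hu => ?_) hT2
  · intro u hu
    have h1 := congrArg (R φ⁻¹ *ᵥ ·) hu
    simpa only [Matrix.mulVec_mulVec, ← map_mul, inv_mul_cancel, map_one, Matrix.one_mulVec,
      Matrix.mulVec_zero] using h1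
  · have huL : u ∈ L := by
      rcases hu with rfl | rfl | rfl
      exacts [hvL, hstab _ _ hvL, hstab _ _ (hstab _ _ hvL)]
    have h := quad_of_forall_frobenius R₂ hR₂ R (latticeRepO_continuous (M * q) lam O hpO) L hstab
      hsat (↑S : Set ℕ) S.finite_toSet (fun ℓ hℓ hℓS B hB τ hτ u' hu' => by
        have hℓS' : ℓ ∉ S := by simpa using hℓS
        rw [(htd ℓ hℓ hℓS' B hB τ hτ).1, (htd ℓ hℓ hℓS' B hB τ hτ).2]
        exact hquad ℓ hℓ hℓS' B hB τ hτ u' hu') φ huL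
    rwa [hdet] at h

open Polynomial in
/-- A Galois representation attached to a newform whose Frobenius characteristic polynomials are
computed also at the primes exactly dividing the level. -/
theorem exists_galoisRep_charpoly_frobenius_eq
    {N : ℕ} [NeZero N] {g : CuspForm (CongruenceSubgroup.Gamma0 N) 2} (hg : g.IsNewform)
    (lam : ℕ) [Fact lam.Prime] (hred : ∀ (N : ℕ) [NeZero N], GalRep.TorsionReduction N lam)
    (S : Finset ℕ)
    (O' : Type) [CommRing O'] [IsDomain O'] [IsDiscreteValuationRing O']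
    [IsAdicComplete (maximalIdeal O') O'] [Finite (ResidueField O')]
    [CharZero O'] (hlamO' : (lam : O') ∈ maximalIdeal O')
    (chig : heckeAlgebra N 2 (↑S : Set ℕ) →+* ℂ)
    (hchig : ∀ (ℓ : ℕ) (hℓ : ℓ.Prime) (hℓM : ¬ ℓ ∣ N) (hℓS : ℓ ∉ (↑S : Set ℕ)),
      chig (heckeAlgebra.T hℓ hℓM hℓS) = ModularFormClass.qCoeff g ℓ)
    (iota : chig.range →+* O')
    (hlamS : lam ∈ S) (hMS : ∀ q : ℕ, q.Prime → q ∣ N → q ∈ S) :
    ∃ (O'' : Type) (_ : CommRing O'') (_ : IsDomain O'') (_ : IsDiscreteValuationRing O'')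
      (_ : IsAdicComplete (maximalIdeal O'') O'') (_ : Finite (ResidueField O''))
      (_ : CharZero O'') (_ : Algebra O' O'') (_ : Module.Finite O' O'')
      (_ : IsLocalHom (algebraMap O' O'')),
      Function.Injective (algebraMap O' O'') ∧
      ∃ ρ : GaloisRepAdic O'',
        (∀ (ℓ : ℕ) (hℓ : ℓ.Prime) (hℓM : ¬ ℓ ∣ N) (hℓS : ℓ ∉ (↑S : Set ℕ)),
          ∀ A : ValuationSubring ℚbar, A.LiesOverPrime ℓ →
            ∀ σ : Γℚbar, A.IsFrobeniusAt σ ℓ →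
              LinearMap.charpoly (ρ.ρ σ) =
                X ^ 2 - C (algebraMap O' O'' ((iota.comp chig.rangeRestrict)
                  (heckeAlgebra.T hℓ hℓM hℓS))) * X + C ((ℓ : O''))) ∧
        (∀ q : ℕ, q.Prime → q ≠ lam → q ∣ N → ¬ q ^ 2 ∣ N →
          ∀ A : ValuationSubring ℚbar, A.LiesOverPrime q →
            ∀ σ : Γℚbar, A.IsFrobeniusAt σ q →
              LinearMap.charpoly (ρ.ρ σ) = X ^ 2 - C ((q : O'') + 1) * X + C ((q : O'')) ∨
              LinearMap.charpoly (ρ.ρ σ) = X ^ 2 + C ((q : O'') + 1) * X + C ((q : O''))) := by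
  have := Fermat.Agent.S22.result N 2 ∅
  obtain ⟨O, i1, i2, i3, i4, i5, i6, i7, i8, i9, hinj, hpO, κO, hκO⟩ :=
    GalRep.exists_point_extension S O' hlamO' (iota.comp chig.rangeRestrict)
  have : NeZero lam := ⟨(Fact.out : lam.Prime).ne_zero⟩
  obtain ⟨ρ, hρ, -⟩ := GalRep.exists_rep_of_eigensystem (GalRep.jZeroDatum N lam (hred N)) S
    hlamS hMS O hpO κO
  refine ⟨O, i1, i2, i3, i4, i5, i6, i7, i8, i9, hinj, ρ, fun ℓ hℓ hℓM hℓS A hA σ hσ => ?_,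
    fun q hq hqlam hqN hq2 A hA σ hσ => ?_⟩
  · rw [hρ ℓ hℓ (by simpa using hℓS) A hA σ hσ, hκO ℓ hℓ hℓM hℓS]
  obtain ⟨M, rfl⟩ := exists_eq_mul_left_of_dvd hqN
  have : NeZero q := ⟨hq.ne_zero⟩
  have : NeZero M := ⟨fun h => NeZero.ne (M * q) (by rw [h, Nat.zero_mul])⟩
  have hqM : ¬ q ∣ M := fun h => hq2 (by rw [sq]; exact mul_dvd_mul_right h q)
  obtain ⟨htr, hdet⟩ := trace_frobenius_eq hg hq hqM hqlam S hlamS hMS chig hchig (hred _)
    (hred _) hpO ((algebraMap O' O).comp iota) κO hκO ρ hρ hA hσ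
  rw [Density.charpoly_eq_of_finrank_two ρ.finrank_eq, hdet]
  rcases htr with h | h
  · exact Or.inl (by rw [h])
  · exact Or.inr (by rw [h, map_neg]; ring)

end Fermat.Agent.Semistable
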