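import Fermat.Agent.Semistable.Instance
import Fermat.Agent.Reduction.Level.Normal
import Fermat.Agent.Reduction.Affine

/-!
# The reduction data of level `M` at a place over `q ∤ M`
-/

set_option autoImplicit false

noncomputable section

open ModularCurve AlgebraicCurve Fermat.Agent.Reduction

namespace Fermat.Agent.Semistable

local notation "ℚbar" => AlgebraicClosure ℚ

/-- Regularity outside the place of `q = 0` does not depend on the presentation of the field. -/
theorem forall_place_of_eq {K : Type*} [Field K] {F₁ F₂ : IntermediateField K (LaurentSeries K)}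
    (h : F₁ = F₂) {p₁ : Place K F₁} {p₂ : Place K F₂}
    (h₁ : ∀ f : F₁, p₁.ord f = (f : LaurentSeries K).order)
    (h₂ : ∀ f : F₂, p₂.ord f = (f : LaurentSeries K).order) {y₁ : F₁} {y₂ : F₂}
    (hy : (y₁ : LaurentSeries K) = y₂) :
    (∀ v : Place K F₁, v ≠ p₁ → 0 ≤ v.ord y₁) ↔ (∀ v : Place K F₂, v ≠ p₂ → 0 ≤ v.ord y₂) := by
  subst h
  obtain rfl : y₁ = y₂ := Subtype.ext hy
  obtain rfl : p₁ = p₂ := place_eq_of_ord fun f => (h₁ f).trans (h₂ f).symm
  exact Iff.rfl

namespace LevelData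

variable {k : Type*} [Field k] {A : ValuationSubring ℚbar} {π : A →+* k} {M : ℕ} [NeZero M]

theorem regM_iff (S : CurveRed A π) (hF : modularFunctionFieldBar M = S.F)
    {y : modularFunctionFieldBar M} {u : S.F} (h : (y : LaurentSeries ℚbar) = u) :
    RegM y ↔ ∀ v : Place ℚbar S.F, v ≠ S.pt → 0 ≤ v.ord u :=
  forall_place_of_eq hF (fun f => ord_cuspInf M f) S.ord_pt h

theorem mem_regularSub_iff {S : CurveRed A π} {n₀ : ℕ} (hgap : S.GapBound n₀) {n : ℤ}
    {x : LaurentSeries k} : x ∈ S.regularSub n ↔ PoleLE n x ∧ x ∈ S.Cbar := by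
  rw [CurveRed.mem_regularSub, hgap.mem_Cbar_iff, and_comm]

/-- The data from a reduced curve with gap bound. -/
def ofCurveRed (S : CurveRed A π) (hF : modularFunctionFieldBar M = S.F) {n₀ : ℕ}
    (hgap : S.GapBound n₀) : LevelData A π M where
  C := S.Cbar
  gM := S.g
  n₀ := n₀
  finite_C n := by
    have := hgap.finite n
    exact Submodule.finiteDimensional_of_le (S₂ := S.regularSub n) fun x hx =>
      (mem_regularSub_iff hgap).mpr ⟨hx.1, hx.2⟩
  finrank_C n hn := by
    refine (congrArg (fun V : Submodule k (LaurentSeries k) => (Module.finrank k V : ℤ)) ?_).trans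
      (hgap.finrank_regularSub hn)
    exact Submodule.ext fun x =>
      ⟨fun hx => (mem_regularSub_iff hgap).mpr ⟨hx.1, hx.2⟩,
        fun hx => ⟨((mem_regularSub_iff hgap).mp hx).1, ((mem_regularSub_iff hgap).mp hx).2⟩⟩
  normal a y hy hy0 hay m hm ham := by
    refine hgap.mem_Cbar_iff.mpr ⟨?_, IsIntegral.of_pow hm ?_⟩
    · rw [← mul_div_cancel_right₀ a hy0]
      exact div_mem (S.Cbar_le_Fbar hay) (S.Cbar_le_Fbar hy)
    · exact isIntegral_algebraMap (x := (⟨a ^ m, ham⟩ : S.Cbar))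
  normalizable y hy hy0 :=
    S.normalizable ⟨(y : LaurentSeries ℚbar), hF ▸ y.2⟩ ((regM_iff S hF rfl).mp hy)
      fun h => hy0 (Subtype.ext (congrArg (fun u : S.F => (u : LaurentSeries ℚbar)) h))
  red_mem y hy x hx := by
    have hu := (regM_iff S hF (u := ⟨(y : LaurentSeries ℚbar), hF ▸ y.2⟩) rfl).mp hy
    set u : S.F := ⟨(y : LaurentSeries ℚbar), hF ▸ y.2⟩
    set n : ℕ := (-(y : LaurentSeries ℚbar).order).toNat
    refine S.mem_Cbar.mpr ⟨n, u, (S.coe_mem_space).mpr fun v => ?_, hx⟩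
    rcases eq_or_ne u 0 with h | h
    · exact Or.inl h
    refine Or.inr ?_
    rcases eq_or_ne v S.pt with rfl | hv
    · rw [S.atPt_self, S.ord_pt]
      show -(n : ℤ) ≤ (y : LaurentSeries ℚbar).order
      omega
    · rw [S.atPt_of_ne _ hv, neg_zero]
      exact hu v hv
  exists_lift n hn x hx hxp := by
    have h1 : x ∈ redSub S.surj (S.space (S.atPt n)) := by
      rw [hgap.redSub_eq (by exact_mod_cast hn)]
      exact (mem_regularSub_iff hgap).mpr ⟨hxp, hx⟩
    obtain ⟨z, hz, hzx⟩ := h1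
    obtain ⟨u, rfl, hu⟩ := S.exists_regular_of_mem_space (S.offNonpos_atPt _) hz
    have hp := S.poleLE_space hz
    rw [S.atPt_self] at hp
    exact ⟨⟨(u : LaurentSeries ℚbar), hF.symm ▸ u.2⟩, (regM_iff S hF rfl).mpr hu, hzx, hp⟩

theorem nonempty_residue {q : ℕ} [Fact q.Prime] (A : ValuationSubring ℚbar)
    (hA : A.LiesOverPrime q) (M : ℕ) [NeZero M] (hqM : ¬ q ∣ M) :
    Nonempty (LevelData A (IsLocalRing.residue A) M) := by
  obtain ⟨n₀, hgap⟩ := Reduction.Level.exists_gapBound_qbar A hA M hqM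
  exact ⟨ofCurveRed (Reduction.Level.qbarCurve A hA M hqM)
    (Reduction.Level.modularFunctionFieldBar_eq_fullC M) hgap⟩

end LevelData

/-- **Inertia at `q ∥ N` is unipotent of echelon two on prime-to-`q` torsion of `J₀(N)`.** -/
theorem inertia_smul_sub_smul_sub {N q n : ℕ} [NeZero N] (hq : q.Prime) (hqN : q ∣ N)
    (hq2 : ¬ q ^ 2 ∣ N) (hn : 0 < n) (hnq : ¬ q ∣ n) {A : ValuationSubring ℚbar}
    (hA : A.LiesOverPrime q) {τ : ℚbar ≃ₐ[ℚ] ℚbar} (hτ : τ ∈ A.inertiaSubgroupIn ℚ) {x : JZero N}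
    (hx : n • x = 0) : τ • (τ • x - x) = τ • x - x := by
  obtain ⟨M, rfl⟩ := exists_eq_mul_left_of_dvd hqN
  have : Fact q.Prime := ⟨hq⟩
  have : NeZero q := ⟨hq.ne_zero⟩
  have : NeZero M := ⟨fun h => NeZero.ne (M * q) (by rw [h, Nat.zero_mul])⟩
  have hqM : ¬ q ∣ M := fun h => hq2 (by rw [sq]; exact mul_dvd_mul_right h q)
  have := Gal.isAlgClosed_residueField A
  have := Gal.charP_residueField A hq hA
  obtain ⟨L⟩ := LevelData.nonempty_residue A hA M hqM
  obtain ⟨w⟩ := ALData.exists_of_coprime hq hqM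
  exact L.smul_sub_sub_eq_zero w hq hA IsLocalRing.residue_surjective hqM hτ hn hnq hx

end Fermat.Agent.Semistable
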