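import Fermat.Agent.Semistable.Principal

/-!
# Inertia is unipotent of echelon two on torsion prime to the residue characteristic
-/

set_option autoImplicit false

noncomputable section

namespace Fermat.Agent.Semistable

open HahnSeries AlgebraicCurve ModularCurve Fermat.Agent.Reduction

variable {K F k : Type*} [Field K] [Field F] [Algebra K F] [Field k] {A : ValuationSubring K}
  {π : A →+* k} {q : ℕ} [NeZero q] {S : Sheets A π q F}

namespace Sheets

/-- The reduction of `τ y * r` from those of `c • y`, `τ (c • y)` and `y * r`. -/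
theorem Semi.red_twist (σ : S.Semi) {y r : LaurentSeries K} {g g' x : LaurentSeries k} {c : K}
    (hc : c ≠ 0) (hy : Red A π (c • y) g) (hg : g ≠ 0)
    (hτ : Red A π (coeffMap (σ.τ : K →+* K) (c • y)) g')
    (hr : r = 0 ∨ Normalizable A π r) (hH : Red A π (y * r) x) :
    ∃ (v : k) (z : LaurentSeries k), v ≠ 0 ∧ g * z = x ∧
      Red A π (coeffMap (σ.τ : K →+* K) y * r) (v • (g' * z)) := by
  have hτc : σ.τ c ≠ 0 := (map_ne_zero σ.τ).mpr hc
  have hmem : c / σ.τ c ∈ A := by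
    rw [← ValuationSubring.valuation_le_one_iff, map_div₀, σ.val,
      div_self ((A.valuation.ne_zero_iff).mpr hc)]
  have hu : π ⟨c / σ.τ c, hmem⟩ ≠ 0 := by
    rw [residue_ne_zero_iff S.surj]
    show A.valuation (c / σ.τ c) = 1
    rw [map_div₀, σ.val, div_self ((A.valuation.ne_zero_iff).mpr hc)]
  have hr' : c⁻¹ • r = 0 ∨ Normalizable A π (c⁻¹ • r) := by
    rcases hr with rfl | ⟨e, he, z, hz, hez⟩
    · exact Or.inl (smul_zero _)
    · exact Or.inr ⟨e * c, mul_ne_zero he hc, z, hz, by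
        rwa [smul_smul, mul_assoc, mul_inv_cancel₀ hc, mul_one]⟩
  have hcr : Red A π (c • y * c⁻¹ • r) x := by
    convert hH using 1
    rw [smul_eq_algebraMap_mul, smul_eq_algebraMap_mul, mul_mul_mul_comm, ← map_mul,
      mul_inv_cancel₀ hc, map_one, one_mul]
  obtain ⟨z, hz, hgz⟩ := exists_red_of_mul S.surj hy hg hcr hr'
  refine ⟨_, z, hu, hgz, ?_⟩
  convert (hτ.mul hz).smul (⟨c / σ.τ c, hmem⟩ : A) using 1
  show coeffMap (σ.τ : K →+* K) y * r =
    (c / σ.τ c) • (coeffMap (σ.τ : K →+* K) (c • y) * c⁻¹ • r)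
  simp only [smul_eq_algebraMap_mul, map_mul, coeffMap_algebraMap, RingHom.coe_coe]
  have : algebraMap K (LaurentSeries K) (c / σ.τ c) * algebraMap K (LaurentSeries K) (σ.τ c) *
      algebraMap K (LaurentSeries K) c⁻¹ = 1 := by
    rw [← map_mul, ← map_mul, div_mul_cancel₀ _ hτc, mul_inv_cancel₀ hc, map_one]
  linear_combination (-(coeffMap (σ.τ : K →+* K) y * r)) * this

/-- The reduction of `τ y * (H / y)` is a constant times that of `H`. -/
theorem Inertia.red_twist (σ : S.Inertia) {y r : LaurentSeries K} {x : LaurentSeries k}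
    (hy : Normalizable A π y) (hr : r = 0 ∨ Normalizable A π r) (hH : Red A π (y * r) x) :
    ∃ u : k, u ≠ 0 ∧ Red A π (coeffMap (σ.τ : K →+* K) y * r) (u • x) := by
  obtain ⟨c, hc, g, hg, hcy⟩ := hy
  obtain ⟨v, z, hv, hgz, h⟩ := σ.toSemi.red_twist hc hcy hg (σ.red hcy) hr hH
  exact ⟨v, hv, hgz ▸ h⟩

variable [FF.IsFunctionField K F] [IsAlgClosed K]

omit [FF.IsFunctionField K F] [IsAlgClosed K] in
theorem Semi.act_principal (σ : S.Semi) {D : Divisor K F}
    (hD : D ∈ Divisor.principal (K := K) (F := F)) :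
    σ.act D ∈ Divisor.principal (K := K) (F := F) := by
  obtain ⟨f, hf, hDf⟩ := hD
  refine ⟨σ.g f, fun h => hf (σ.g.injective (h.trans (map_zero σ.g).symm)), fun v => ?_⟩
  obtain ⟨v, rfl⟩ := σ.P.surjective v
  rw [σ.act_apply, σ.ord_P, hDf]

omit [IsAlgClosed K] in
theorem divOf_mem_principal {f : F} (hf : f ≠ 0) :
    FF.divOf K f ∈ Divisor.principal (K := K) (F := F) := ⟨f, hf, fun v => FF.divOf_apply f v⟩

variable (S) in
/-- Every class has a representative which is non-positive outside the cusps. -/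
theorem exists_neg_rep (D : Divisor K F) :
    ∃ h : F, h ≠ 0 ∧ S.Neg (D - FF.divOf K h) := by
  obtain ⟨γ, hγ⟩ := FF.exists_riemann_inequality K F
  obtain ⟨n, hn⟩ : ∃ n : ℤ, 0 < FF.ell (-D + S.bd n) := ⟨(|γ| + |Divisor.degree D|), by
    have := hγ (-D + S.bd (|γ| + |Divisor.degree D|))
    rw [map_add, map_neg, S.degree_bd] at this
    have := le_abs_self γ
    have := le_abs_self (Divisor.degree D)
    have := abs_nonneg γ
    have := abs_nonneg (Divisor.degree D)
    omega⟩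
  obtain ⟨h, hh, hh0⟩ : ∃ h ∈ riemannRochSpace (-D + S.bd n), h ≠ 0 := by
    refine Submodule.exists_mem_ne_zero_of_ne_bot fun hb => ?_
    rw [FF.ell, hb, finrank_bot] at hn
    exact lt_irrefl 0 hn
  refine ⟨h, hh0, fun v h1 h2 => ?_⟩
  have := FF.mem_riemannRochSpace.mp hh v
  rw [FF.mem_ordGE_of_ne_zero v hh0, Finsupp.add_apply, Finsupp.neg_apply,
    S.bd_of_ne n h1 h2] at this
  simp only [Finsupp.sub_apply, FF.divOf_apply]
  omega

variable (S) in
/-- A function of `L(D + n (∞) + n (0))` with both reductions nonzero. -/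
theorem exists_balanced {D : Divisor K F} (hD : S.Neg D) :
    ∃ n, ∃ h ∈ S.L D n, ∃ x : Ser2 k, Red2 A π (S.T h) x ∧ x.1 ∈ S.C ∧ x.2 ∈ S.C ∧
      x.1 ≠ 0 ∧ x.2 ≠ 0 := by
  obtain ⟨γ, hγ⟩ := FF.exists_riemann_inequality K F
  obtain ⟨c, hc0, hc1, hc2⟩ : ∃ c : ℤ, 0 ≤ c ∧ D S.inf ≤ c ∧ D S.zero ≤ c :=
    ⟨max 0 (max (D S.inf) (D S.zero)), le_max_left _ _,
      (le_max_left _ _).trans (le_max_right _ _), (le_max_right _ _).trans (le_max_right _ _)⟩
  set n : ℤ := (S.n₀ : ℤ) + (c + γ - S.gM - Divisor.degree D).toNat + 1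
  set V := redPair S.surj S.T (S.L D n) with hV
  have hle : V ≤ S.Ole (n + c) := by
    rintro x ⟨f, hf, hx⟩
    obtain ⟨h1, h2⟩ := poleLE_of_mem_L hf
    obtain ⟨m1, m2⟩ := (reg_of_mem_L hD hf).red_mem hx
    exact ⟨⟨hx.1.poleLE (h1.mono (by omega)), m1⟩, ⟨hx.2.poleLE (h2.mono (by omega)), m2⟩⟩
  have hdim : Module.finrank k (S.Cle (n + c)) < Module.finrank k V := by
    rw [hV, finrank_redPair S.surj _ _ fun f hf hf0 => (reg_of_mem_L hD hf).normalizable2 hf0]
    have h1 := hγ (D + S.bd n)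
    rw [map_add, S.degree_bd] at h1
    have h2 := S.finrank_Cle (n := n + c) (by omega)
    show _ < FF.ell (D + S.bd n)
    omega
  obtain ⟨x, ⟨f, hf, hfx⟩, h1, h2⟩ := exists_both_ne_zero hle hdim
  obtain ⟨m1, m2⟩ := (reg_of_mem_L hD hf).red_mem hfx
  exact ⟨n, f, hf, x, hfx, m1, m2, h1, h2⟩

/-- The class `τ D - D`, once the reduction of `τ G * (h ^ m / G)` is known for balanced `h`. -/
theorem Semi.exists_datum (σ : S.Semi) {m : ℕ} {D : Divisor K F} (hD : S.Neg D) {G : F}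
    (hG : G ≠ 0) (hordG : ∀ v, v.ord G = -((m : ℤ) * D v))
    (hred : ∀ (r : F) (x : Ser2 k), r ≠ 0 → S.Reg r → S.Reg G → x.1 ∈ S.C → x.2 ∈ S.C →
      x.1 ≠ 0 → x.2 ≠ 0 → Red2 A π (S.T G * S.T r) (x ^ m) →
      ∃ (u : k × k) (η : Ser2 k), u.1 ≠ 0 ∧ u.2 ≠ 0 ∧ η.1 ∈ S.C ∧ η.2 ∈ S.C ∧ η.1 ≠ 0 ∧
        η.2 ≠ 0 ∧ Red2 A π (S.T (σ.g G * r)) (scale2 u (η ^ m))) :
    ∃ d : S.Datum m, ∃ h : F, h ≠ 0 ∧ d.E = σ.act D - D - FF.divOf K h := by
  obtain ⟨n, h, hh, x, hx, hx1, hx2, hx10, hx20⟩ := S.exists_balanced hD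
  have hh0 : h ≠ 0 := by
    rintro rfl
    rw [map_zero] at hx
    exact hx10 (congrArg Prod.fst (hx.unique red2_zero))
  set r : F := h ^ m / G with hr
  have hordr : ∀ v, v.ord r = (m : ℤ) * (v.ord h + D v) := fun v => by
    rw [hr, FF.ord_div v (pow_ne_zero m hh0) hG, FF.ord_pow, hordG]
    ring
  have hregr : S.Reg r := fun v h1 h2 => by
    refine FF.mem_ordGE_of_le_ord v ?_
    rw [hordr]
    refine mul_nonneg (Int.natCast_nonneg m) ?_
    have := S.mem_L.mp hh v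
    rw [FF.mem_ordGE_of_ne_zero v hh0, Finsupp.add_apply, S.bd_of_ne n h1 h2] at this
    omega
  have hregG : S.Reg G := fun v h1 h2 => by
    refine FF.mem_ordGE_of_le_ord v ?_
    rw [hordG]
    nlinarith [hD v h1 h2, Int.natCast_nonneg m]
  have hGr : G * r = h ^ m := mul_div_cancel₀ _ hG
  have hxm : Red2 A π (S.T (G * r)) (x ^ m) := by
    rw [hGr, S.T_pow]
    exact hx.pow m
  rw [S.T_mul] at hxm
  have hr0 : r ≠ 0 := div_ne_zero (pow_ne_zero m hh0) hG
  have hgG : σ.g G ≠ 0 := fun h' => hG (σ.g.injective (h'.trans (map_zero σ.g).symm))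
  obtain ⟨u, η, hu1, hu2, hη1, hη2, hη10, hη20, hred'⟩ :=
    hred r x hr0 hregr hregG hx1 hx2 hx10 hx20 hxm
  refine ⟨
    { E := σ.act D - D - FF.divOf K h
      G := σ.g G * r
      η := η
      ū := u
      neg := fun v h1 h2 => by
        have hh' := S.mem_L.mp hh v
        rw [FF.mem_ordGE_of_ne_zero v hh0, Finsupp.add_apply, S.bd_of_ne n h1 h2] at hh'
        have := σ.neg_act hD v h1 h2
        simp only [Finsupp.sub_apply, FF.divOf_apply]
        omega
      deg := by rw [map_sub, map_sub, σ.degree_act, FF.degree_divOf, sub_self, sub_zero]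
      G_ne := mul_ne_zero hgG hr0
      ord_G := fun v => by
        rw [v.ord_mul hgG hr0, hordr]
        obtain ⟨w, rfl⟩ := σ.P.surjective v
        rw [σ.ord_P, hordG]
        simp only [Finsupp.sub_apply, σ.act_apply, FF.divOf_apply]
        ring
      red_G := hred'
      η₁_mem := hη1
      η₂_mem := hη2
      η₁_ne := hη10
      η₂_ne := hη20
      u₁_ne := hu1
      u₂_ne := hu2 }, h, hh0, rfl⟩

/-- The first class `τ D - D`. -/
theorem Inertia.exists_datum (σ : S.Inertia) {m : ℕ} {D : Divisor K F}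
    (hD : S.Neg D) (_hdeg : Divisor.degree D = 0) {G : F} (hG : G ≠ 0)
    (hordG : ∀ v, v.ord G = -((m : ℤ) * D v)) :
    ∃ d : S.Datum m, ∃ h : F, h ≠ 0 ∧ d.E = σ.act D - D - FF.divOf K h := by
  refine σ.toSemi.exists_datum hD hG hordG fun r x hr0 hregr hregG hx1 hx2 hx10 hx20 hxm => ?_
  obtain ⟨u₁, hu₁, hred₁⟩ := σ.red_twist (S.normalizable G hregG hG)
    (Or.inr (S.normalizable r hregr hr0)) hxm.1
  obtain ⟨u₂, hu₂, hred₂⟩ := σ.red_twist
    (S.normalizable _ hregG.apply_w ((map_ne_zero S.w).mpr hG))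
    (Or.inr (S.normalizable _ hregr.apply_w ((map_ne_zero S.w).mpr hr0))) hxm.2
  refine ⟨(u₁, u₂), x, hu₁, hu₂, hx1, hx2, hx10, hx20, ?_⟩
  rw [S.T_mul, σ.T_g]
  exact ⟨hred₁, hred₂⟩

variable [IsAlgClosed k]

/-- A trivial class with multiplier one is principal. -/
theorem Datum.IsTrivial.mem_principal' {m : ℕ} (d : S.Datum m) (hm : 0 < m) (hmk : (m : k) ≠ 0)
    (hu : d.ū = 1) (hd : d.IsTrivial) : d.E ∈ Divisor.principal (K := K) (F := F) := by
  obtain ⟨N₁, hN₁⟩ := Datum.IsTrivial.exists_V_eq d hd hm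
  obtain ⟨N₂, hN₂⟩ := S.exists_lead_pair
  set n := max N₁ N₂
  obtain ⟨u, hu', v, hv', x, y, hx, hy, h1, h2, h3, h4⟩ := hN₂ n (le_max_right _ _)
  have hxm := redPair_L_le n (show x ∈ redPair S.surj S.T (S.L 0 n) from ⟨u, hu', hx⟩)
  have hym := redPair_L_le n (show y ∈ redPair S.surj S.T (S.L 0 n) from ⟨v, hv', hy⟩)
  have hc : x + y ∈ d.V n := by
    rw [hN₁ n (le_max_left _ _)]
    exact add_mem hxm hym
  have hne : (x + y).1.coeff (-n) ≠ 0 ∧ (x + y).2.coeff (-n) ≠ 0 := by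
    simp [h1, h2, h3, h4]
  have hord : ∀ z : LaurentSeries k, PoleLE n z → z.coeff (-n) ≠ 0 → z ≠ 0 ∧ z.order = -n :=
    fun z hz hz' => by
      have hz0 : z ≠ 0 := fun h => hz' (by rw [h]; rfl)
      exact ⟨hz0, le_antisymm (HahnSeries.order_le_of_coeff_ne_zero hz')
        ((poleLE_iff_order hz0).mp hz)⟩
  obtain ⟨hc10, hc1o⟩ := hord _ hc.1.1.1 hne.1
  obtain ⟨hc20, hc2o⟩ := hord _ hc.1.2.1 hne.2
  obtain ⟨-, f, hf, hfred⟩ := id hc
  obtain ⟨e, hE, hη, hū, hf0⟩ := d.exists_inv hf hfred hc.1 hc10 hc20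
  have htriv : e.IsTrivial := Datum.IsTrivial.inv hd hm hf0 hfred hc10 hc20 hE hη
  have heu : e.ū = 1 := by rw [hū, hu, inv_one]
  have hbound : ∀ v, e.E v ≤ S.bd n v := fun v => by
    have := S.mem_L.mp hf v
    rw [FF.mem_ordGE_of_ne_zero v hf0, Finsupp.add_apply] at this
    rw [hE, Finsupp.sub_apply, Finsupp.neg_apply, FF.divOf_apply]
    omega
  have := Datum.IsTrivial.mem_principal e hm hmk heu htriv
    ((hbound S.inf).trans_eq (S.bd_inf n)) ((hbound S.zero).trans_eq (S.bd_zero n))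
    (by rw [hη]; exact hc1o) (by rw [hη]; exact hc2o)
  rw [hE] at this
  have h' := add_mem this (divOf_mem_principal hf0)
  rw [sub_add_cancel] at h'
  exact neg_mem_iff.mp h'

/-- **Inertia is unipotent of echelon two on torsion prime to the residue characteristic.** -/
theorem Inertia.sub_sub_mem_principal (σ : S.Inertia) {m : ℕ} (hm : 0 < m) (hmk : (m : k) ≠ 0)
    {D : Divisor K F} (hdeg : Divisor.degree D = 0)
    (hD : (m : ℤ) • D ∈ Divisor.principal (K := K) (F := F)) :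
    σ.act (σ.act D - D) - (σ.act D - D) ∈ Divisor.principal (K := K) (F := F) := by
  obtain ⟨h₀, hh₀, hneg⟩ := S.exists_neg_rep D
  set D₁ := D - FF.divOf K h₀ with hD₁
  have hdeg₁ : Divisor.degree D₁ = 0 := by rw [hD₁, map_sub, hdeg, FF.degree_divOf, sub_zero]
  have hmD : -((m : ℤ) • D₁) ∈ Divisor.principal (K := K) (F := F) := by
    rw [hD₁, smul_sub, neg_sub]
    exact sub_mem (AddSubgroup.zsmul_mem _ (divOf_mem_principal hh₀) _) hD
  obtain ⟨G, hG, hGD⟩ := hmD
  obtain ⟨d, h₁, hh₁, hd⟩ := σ.exists_datum (m := m) hneg hdeg₁ hG fun v => by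
    rw [← hGD v]; simp
  obtain ⟨e, heu, het, h₂, hh₂, he⟩ := d.exists_trivial_conj σ hm
  have hp := Datum.IsTrivial.mem_principal' e hm hmk heu het
  rw [he] at hp
  have hp' : σ.act d.E - d.E ∈ Divisor.principal (K := K) (F := F) := by
    have := add_mem hp (divOf_mem_principal hh₂)
    rwa [sub_add_cancel] at this
  have hP : σ.act D - D - d.E ∈ Divisor.principal (K := K) (F := F) := by
    rw [hd, hD₁, map_sub]
    have : σ.act D - D - (σ.act D - σ.act (FF.divOf K h₀) - (D - FF.divOf K h₀) - FF.divOf K h₁) =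
        σ.act (FF.divOf K h₀) - FF.divOf K h₀ + FF.divOf K h₁ := by abel
    rw [this]
    exact add_mem (sub_mem (σ.act_principal (divOf_mem_principal hh₀)) (divOf_mem_principal hh₀))
      (divOf_mem_principal hh₁)
  have : σ.act (σ.act D - D) - (σ.act D - D) =
      σ.act (σ.act D - D - d.E) - (σ.act D - D - d.E) + (σ.act d.E - d.E) := by
    rw [map_sub σ.act (σ.act D - D) d.E]; abel
  rw [this]
  exact add_mem (sub_mem (σ.act_principal hP) hP) hp'

end Sheets

end Fermat.Agent.Semistable
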