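import Fermat.Agent.Semistable.Galois
import Fermat.Agent.Semistable.Main
import Mathlib.RingTheory.MvPowerSeries.Expand
import Mathlib.RingTheory.PowerSeries.Expand

/-!
# The two-sheeted reduction of `X₀(qM)` at a place over `q`, and its inertia elements
-/

set_option autoImplicit false

noncomputable section

open ModularCurve AlgebraicCurve Fermat.Agent.Reduction

namespace Fermat.Agent.Semistable

local notation "ℚbar" => AlgebraicClosure ℚ
local notation "Γℚbar" => (AlgebraicClosure ℚ ≃ₐ[ℚ] AlgebraicClosure ℚ)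

theorem isLocalHom_of_surjective' {R k : Type*} [CommRing R] [IsLocalRing R] [Field k] (π : R →+* k)
    (hπ : Function.Surjective π) : IsLocalHom π := by
  refine ⟨fun a ha => ?_⟩
  by_contra h
  have hmax : (RingHom.ker π).IsMaximal := RingHom.ker_isMaximal_of_surjective π hπ
  have : a ∈ RingHom.ker π := by
    rw [IsLocalRing.eq_maximalIdeal hmax]
    exact h
  rw [RingHom.mem_ker] at this
  rw [this] at ha
  exact not_isUnit_zero ha

section Pic

variable {K F : Type*} [Field K] [Field F] [Algebra K F]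

theorem smul_sub_eq_of_sub_mem_principal (g : SemilinearAut K F)
    (D : Divisor.degZero (K := K) (F := F))
    (h : g • (g • (D : Divisor K F) - D) - (g • (D : Divisor K F) - D) ∈
      Divisor.principal (K := K) (F := F)) :
    g • (g • Pic0.mk D - Pic0.mk D) = g • Pic0.mk D - Pic0.mk D := by
  rw [← sub_eq_zero, SemilinearAut.pic0_smul_mk]
  change Pic0.mk (SemilinearAut.degZeroSMulHom g (SemilinearAut.degZeroSMulHom g D - D) -
    (SemilinearAut.degZeroSMulHom g D - D)) = 0
  refine (QuotientAddGroup.eq_zero_iff _).mpr ?_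
  rw [AddSubgroup.mem_addSubgroupOf]
  simpa only [AddSubgroupClass.coe_sub, SemilinearAut.coe_degZeroSMulHom] using h

theorem zsmul_mem_principal_of_nsmul_eq_zero (n : ℕ) (D : Divisor.degZero (K := K) (F := F))
    (h : n • Pic0.mk D = 0) :
    (n : ℤ) • (D : Divisor K F) ∈ Divisor.principal (K := K) (F := F) := by
  change Pic0.mk (n • D) = 0 at h
  have h1 := (QuotientAddGroup.eq_zero_iff _).mp h
  rw [AddSubgroup.mem_addSubgroupOf, AddSubgroupClass.coe_nsmul] at h1
  rwa [natCast_zsmul]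

end Pic

section Frobenius

variable {k : Type*} [Field k] (q : ℕ) [NeZero q] [Fact q.Prime] [CharP k q]

theorem qExpand_coeffMap_frobenius (s : LaurentSeries k) :
    qExpand k q (coeffMap (frobenius k q) s) = s ^ q := by
  have hps : ∀ f : PowerSeries k,
      qExpand k q (coeffMap (frobenius k q) (HahnSeries.ofPowerSeries ℤ k f)) =
        HahnSeries.ofPowerSeries ℤ k f ^ q := by
    intro f
    have h2 : PowerSeries.map (frobenius k q) (PowerSeries.expand q (NeZero.ne q) f) = f ^ q :=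
      MvPowerSeries.map_frobenius_expand (σ := Unit) (R := k) q (NeZero.ne q) (f := f)
    rw [← map_pow, ← h2]
    ext n
    rcases lt_or_ge n 0 with hn | hn
    · rw [ofPowerSeries_coeff_of_neg _ hn]
      by_cases hd : (q : ℤ) ∣ n
      · obtain ⟨m, rfl⟩ := hd
        rw [qExpand_coeff_mul, coeffMap_coeff, ofPowerSeries_coeff_of_neg, map_zero]
        nlinarith [show (0 : ℤ) ≤ q from Int.natCast_nonneg q]
      · exact qExpand_coeff_of_not_dvd q _ hd
    lift n to ℕ using hn
    rw [HahnSeries.ofPowerSeries_apply_coeff, PowerSeries.coeff_map, PowerSeries.coeff_expand]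
    by_cases hd : q ∣ n
    · obtain ⟨m, rfl⟩ := hd
      rw [if_pos (dvd_mul_right _ _), Nat.mul_div_cancel_left _ (NeZero.pos q), Nat.cast_mul,
        qExpand_coeff_mul, coeffMap_coeff, HahnSeries.ofPowerSeries_apply_coeff]
    · rw [if_neg hd, map_zero,
        qExpand_coeff_of_not_dvd q _ (by rwa [Int.natCast_dvd_natCast])]
  obtain ⟨m, f, rfl⟩ : ∃ (m : ℤ) (f : PowerSeries k),
      HahnSeries.single m (1 : k) * HahnSeries.ofPowerSeries ℤ k f = s :=
    ⟨s.order, s.powerSeriesPart, s.single_order_mul_powerSeriesPart⟩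
  rw [map_mul, map_mul, coeffMap_single, qExpand_single, hps, mul_pow, HahnSeries.single_pow,
    map_one, one_pow, nsmul_eq_mul]

end Frobenius

namespace LevelData

variable {k : Type*} [Field k] [IsAlgClosed k] {A : ValuationSubring ℚbar} {π : A →+* k} {q M : ℕ}
  [NeZero q] [NeZero M] [CharP k q] (L : LevelData A π M) (w : ALData q M) (hq : q.Prime)
  (hA : A.LiesOverPrime q) (hπ : Function.Surjective π) (hqM : ¬ q ∣ M)

omit [IsAlgClosed k] [NeZero q] [NeZero M] in
include hq hA hπ in
omit [CharP k q] in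
theorem exists_pow_le (a : A) (ha : π a = 0) (b : ℚbar) (hb : b ≠ 0) :
    ∃ n : ℕ, A.valuation (a : ℚbar) ^ n ≤ A.valuation b := by
  have hnu : (a : ℚbar) ∈ A.nonunits := by
    rw [A.mem_nonunits_iff]
    refine lt_of_le_of_ne ((A.valuation_le_one_iff _).mpr a.2) fun h => ?_
    exact (residue_ne_zero_iff hπ a).mpr h ha
  obtain ⟨n, hn⟩ := Fermat.Agent.Gal.exists_pow_div_mem_nonunits hq hA hnu hb
  rw [A.mem_nonunits_iff, map_div₀, map_pow, div_lt_one₀ ((Valuation.pos_iff _).mpr hb)] at hn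
  exact ⟨n, hn.le⟩

include hq hA hπ in
omit [NeZero q] in
theorem coeffMap_frobenius_mem [Fact q.Prime] {x : LaurentSeries k} (hx : x ∈ L.C) :
    coeffMap ((frobeniusEquiv k q : k ≃+* k) : k →+* k) x ∈ L.C ∧
      coeffMap ((frobeniusEquiv k q).symm : k →+* k) x ∈ L.C := by
  have := isLocalHom_of_surjective' π hπ
  obtain ⟨φ, hφ⟩ := Fermat.Agent.Gal.exists_isFrobeniusAt hq hA
  set n : ℕ := max L.n₀ (-x.order).toNat
  obtain ⟨y, hy, hyx, -⟩ := L.exists_lift n (le_max_left _ _) x hx
    ((poleLE_neg_order x).mono (by omega))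
  exact ⟨L.red_mem _ (regM_galois φ hy) _ (red_coeffMap_frobenius hφ hyx),
    L.red_mem _ (regM_galois φ⁻¹ hy) _ (red_coeffMap_frobenius_symm hφ hyx)⟩

omit [IsAlgClosed k] [CharP k q] in
theorem exists_lift_cusp (w : ALData q M) (hq : q.Prime) (hqM : ¬ q ∣ M) (n : ℕ) (hn : L.n₀ ≤ n)
    (x : LaurentSeries k) (hx : x ∈ L.C) (hxp : PoleLE n x) :
    ∃ f, RegOff (cuspInf (M * q)) (cuspZero w hq) f ∧ Red A π (expInf (M * q) f) x ∧
      Red A π (expInf (M * q) (wEquiv w hq f)) (qExpand k q x) ∧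
      PoleLE n (expInf (M * q) f) ∧
      PoleLE ((q * n : ℕ) : ℤ) (expInf (M * q) (wEquiv w hq f)) := by
  obtain ⟨y, hy, hyx, hyp⟩ := L.exists_lift n hn x hx hxp
  refine ⟨heckeAlphaBar ℚbar M q y, regOff_alpha w hq hqM hy, ?_⟩
  rw [wEquiv_heckeAlphaBar, IntermediateField.coe_val, coe_heckeAlphaBar, coe_heckeBetaBar]
  refine ⟨hyx, ?_, hyp, ?_⟩
  · obtain ⟨z, hz, hzx⟩ := red_iff_exists.mp hyx
    exact red_iff_exists.mpr ⟨qExpand A q z, by rw [coeffMap_qExpand, hz],
      by rw [coeffMap_qExpand, hzx]⟩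
  · intro i hi
    by_cases hd : (q : ℤ) ∣ i
    · obtain ⟨j, rfl⟩ := hd
      rw [qExpand_coeff_mul]
      refine hyp j ?_
      push_cast at hi
      exact lt_of_mul_lt_mul_left (by linarith) (Int.natCast_nonneg q)
    · exact qExpand_coeff_of_not_dvd q _ hd

/-- **The two-sheeted reduction of `X₀(qM)`.** -/
def sheets [Fact q.Prime] : Sheets A π q (modularFunctionFieldBar (M * q)) where
  surj := hπ
  arch := exists_pow_le hq hA hπ
  one_lt := hq.one_lt
  C := L.C
  gM := L.gM
  n₀ := L.n₀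
  finite_C := L.finite_C
  finrank_C := L.finrank_C
  normal := L.normal
  σ := frobeniusEquiv k q
  frob_eq := fun x => qExpand_coeffMap_frobenius q x
  σ_mem := fun _ hx => (L.coeffMap_frobenius_mem hq hA hπ hx).1
  σ_symm_mem := fun _ hx => (L.coeffMap_frobenius_mem hq hA hπ hx).2
  ι := expInf (M * q)
  w := wEquiv w hq
  w_w := wEquiv_wEquiv w hq
  inf := cuspInf (M * q)
  zero := cuspZero w hq
  inf_ne_zero := cuspInf_ne_cuspZero w hq
  ord_inf := ord_cuspInf (M * q)
  ord_zero := ord_cuspZero w hq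
  reg_w := fun _ hf => regOff_wEquiv w hq hf
  normalizable := fun _ hf hf0 => L.normalizable_cusp w hq hA hπ hqM hf hf0
  red_mem := fun _ hf _ hx hw => L.red_mem_cusp w hq hπ hqM hf hx hw
  exists_lift := fun n hn x hx hxp => L.exists_lift_cusp w hq hqM n hn x hx hxp

/-- An inertia element acting on the reduction. -/
def inertia [Fact q.Prime] {τ : Γℚbar} (hτ : τ ∈ A.inertiaSubgroupIn ℚ) :
    (L.sheets w hq hA hπ hqM).Inertia where
  τ := τ.toRingEquiv
  g := arithmeticRingAut (modularFunctionFieldFull (M * q)) τ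
  P := galPlace τ (M * q)
  ord_P := ord_galPlace τ
  P_inf := galPlace_cuspInf τ (M * q)
  P_zero := galPlace_cuspZero τ w hq
  ι_g := fun f => coe_arithmeticRingAut_apply _ τ f
  w_g := fun f => wEquiv_arithmeticRingAut w hq τ f
  mem := fun _ ha => EC.Reduction.apply_mem_of_mem_decomposition
    (EC.Reduction.mem_decomposition_of_mem_inertia hτ) ha
  res := fun a => by
    have := isLocalHom_of_surjective' π hπ
    exact (EC.Reduction.res_inertia hτ (EC.Reduction.Res.of_mem π a.2)).2
  val := valuation_apply_of_mem_decomposition hq hA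
    (EC.Reduction.mem_decomposition_of_mem_inertia hτ)

theorem inertia_act [Fact q.Prime] {τ : Γℚbar} (hτ : τ ∈ A.inertiaSubgroupIn ℚ)
    (D : Divisor ℚbar (modularFunctionFieldBar (M * q))) :
    (L.inertia w hq hA hπ hqM hτ).act D =
      arithmeticGalois (modularFunctionFieldFull (M * q)) τ • D := rfl

include L w hq hA hπ hqM in
/-- **Inertia at `q` is unipotent of echelon two on prime-to-`q` torsion of `J₀(qM)`.** -/
theorem smul_sub_sub_eq_zero {τ : Γℚbar} (hτ : τ ∈ A.inertiaSubgroupIn ℚ) {n : ℕ} (hn : 0 < n)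
    (hnq : ¬ q ∣ n) {x : JZero (M * q)} (hx : n • x = 0) : τ • (τ • x - x) = τ • x - x := by
  have : Fact q.Prime := ⟨hq⟩
  have hnk : (n : k) ≠ 0 := by rwa [Ne, CharP.cast_eq_zero_iff k q]
  obtain ⟨D, rfl⟩ := Pic0.mk_surjective x
  have h := (L.inertia w hq hA hπ hqM hτ).sub_sub_mem_principal hn hnk
    (Divisor.mem_degZero.mp D.2) (zsmul_mem_principal_of_nsmul_eq_zero n D hx)
  rw [inertia_act, inertia_act] at h
  rw [galois_smul_pic0_def, galois_smul_pic0_def]
  exact smul_sub_eq_of_sub_mem_principal _ D h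

end LevelData

end Fermat.Agent.Semistable
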