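import Fermat.Agent.Semistable.Level
import Fermat.Agent.GalRep.DatumJZero
import Fermat.Agent.HeckeDatum.FromDatum
import Fermat.Agent.HeckeDatum.Local

/-!
# S34 from the reduction properties of the `p`-power torsion of `J₀(N)`
-/

set_option autoImplicit false

noncomputable section

open ModularCurve AlgebraicCurve Matrix
open Fermat.Agent.Kummer (Tors)

namespace Fermat.Agent.Semistable

local notation "ℚbar" => AlgebraicClosure ℚ

theorem sub_one_sq_mulVec_eq_zero {M J : Type*} [AddCommGroup M] [AddCommGroup J] {d n : ℕ}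
    (j : M →+ J) (hj : Function.Injective j) (e : M →+ (Fin d → ZMod n))
    (A : Matrix (Fin d) (Fin d) (ZMod n)) (R : M → M) (R' : J → J)
    (hA : ∀ x, A *ᵥ e x = e (R x)) (hR : ∀ x, j (R x) = R' (j x)) (x : M)
    (h : R' (R' (j x) - j x) = R' (j x) - j x) :
    ((A - 1) * (A - 1)) *ᵥ e x = 0 := by
  have h0 : R (R x - x) = R x - x := hj (by rw [hR, map_sub, hR]; exact h)
  rw [← Matrix.mulVec_mulVec, Matrix.sub_mulVec A 1 (e x), Matrix.one_mulVec, hA, ← map_sub,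
    Matrix.sub_mulVec A 1, Matrix.one_mulVec, hA, h0, sub_self]

theorem torsRho_sub_one_sq {N q n : ℕ} [NeZero N] [NeZero n] (hq : q.Prime) (hqN : q ∣ N)
    (hq2 : ¬ q ^ 2 ∣ N) (hnq : ¬ q ∣ n) {A : ValuationSubring ℚbar} (hA : A.LiesOverPrime q)
    {τ : ℚbar ≃ₐ[ℚ] ℚbar} (hτ : τ ∈ A.inertiaSubgroupIn ℚ) :
    (GalRep.torsRho N n τ - 1) * (GalRep.torsRho N n τ - 1) = 0 := by
  refine GalRep.ext_of_mulVec_torsCoord N n fun x => ?_
  rw [Matrix.zero_mulVec]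
  exact sub_one_sq_mulVec_eq_zero (Tors N n).subtype Subtype.val_injective
    (GalRep.torsCoord N n).toLinearMap.toAddMonoidHom (GalRep.torsRho N n τ)
    (fun y => JZero.torsionGaloisRep N n τ y) (fun y => τ • y)
    (fun y => GalRep.torsRho_mulVec N n τ y) (fun y => JZero.coe_torsionGaloisRep_apply N τ y) x
    (inertia_smul_sub_smul_sub (N := N) hq hqN hq2 (NeZero.pos n) hnq hA hτ
      (GalRep.nsmul_eq_zero_of_mem N n x.2))

variable {p : ℕ} {N : ℕ} [NeZero N] {S : Finset ℕ}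
  {𝒪 : Type} [CommRing 𝒪] [IsDomain 𝒪] [IsDiscreteValuationRing 𝒪]
  [IsAdicComplete (IsLocalRing.maximalIdeal 𝒪) 𝒪]
  {θ : CuspForm.heckeAlgebra N 2 (↑S : Set ℕ) →+* IsLocalRing.ResidueField 𝒪}
  {T : Type} [CommRing T] [IsLocalRing T] [IsNoetherianRing T]
  [IsAdicComplete (IsLocalRing.maximalIdeal T) T] [Algebra 𝒪 T] [IsLocalHom (algebraMap 𝒪 T)]
  [Module.Finite 𝒪 T] [Module.Free 𝒪 T]

/-- Inertia at `q ∥ N`, `q ≠ p`, acts unipotently. -/
theorem isUnipotentOnInertiaAt_of_torsionReduction (hp : p.Prime)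
    (hp𝒪 : (p : 𝒪) ∈ IsLocalRing.maximalIdeal 𝒪) (h : GalRep.TorsionReduction N p)
    (H : CuspForm.HeckeGaloisRepDatum N (↑S : Set ℕ) 𝒪 θ T)
    (q : ℕ) (hq : q.Prime) (hqp : q ≠ p) (hqN : q ∣ N) (hq2 : ¬ q ^ 2 ∣ N) :
    H.ρ.IsUnipotentOnInertiaAt q := by
  have : NeZero p := ⟨hp.ne_zero⟩
  refine HeckeDatum.isUnipotentOnInertiaAt_of_tower hp S.finite_toSet hp𝒪 H q hq hqp fun n => ?_
  obtain ⟨m, hm⟩ := HeckeDatum.ofDatum_ker hp (GalRep.jZeroDatum N p h) (↑S : Set ℕ) n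
  refine ⟨HeckeDatum.ofDatum hp (GalRep.jZeroDatum N p h) _ m, fun P hP τ hτ => ?_, hm⟩
  have : NeZero (p ^ m) := ⟨pow_ne_zero _ hp.ne_zero⟩
  have hsq := torsRho_sub_one_sq (N := N) (n := p ^ m) hq hqN hq2
    (fun hd => hqp ((Nat.prime_dvd_prime_iff_eq hq hp).mp (hq.dvd_of_dvd_pow hd))) hP hτ
  show (HeckeDatum.matrixAct _ (p ^ m) (GalRep.torsRho N (p ^ m) τ) - 1) *
    (HeckeDatum.matrixAct _ (p ^ m) (GalRep.torsRho N (p ^ m) τ) - 1) = 0
  rw [← map_one (HeckeDatum.matrixAct (Cosets.homRank N) (p ^ m)), ← map_sub, ← map_mul]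
  exact (congrArg _ hsq).trans (map_zero _)

end Fermat.Agent.Semistable
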