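import Fermat.Agent.Kummer.Embed
import Fermat.Agent.FF.ModularField
import Fermat.Prelude.Def_ModularCurve_HeckeOperator

/-!
# The Atkin–Lehner involution `w_q` of `ℚ̄(X₀(N))`, `q ‖ N`

It exchanges the two degeneracy maps from level `N / q` and commutes with the Galois action on
`q`-expansions.
-/

set_option autoImplicit false

noncomputable section

open scoped MatrixGroups
open ModularCurve AlgebraicCurve

namespace Fermat.Agent.Semistable

open Fermat.Agent.Kummer Fermat.Agent.Kummer.MeroH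

local notation "ℚbar" => AlgebraicClosure ℚ

theorem intComp_scalar {n : ℤ} (hn : n ≠ 0) (h : 0 < (!![n, 0; 0, n]).det) (x : MeroH) :
    intComp !![n, 0; 0, n] h x = x := by
  obtain ⟨f, hf, rfl⟩ := exists_rep x
  rw [intComp_mk]
  refine mk_congr _ _ fun z hz => ?_
  simp only [Function.comp_apply]
  rw [moeb_intGL h hz]
  have : (n : ℂ) ≠ 0 := by exact_mod_cast hn
  congr 1
  simp [this]

/-- A matrix of the Atkin–Lehner involution `w_q`. -/
structure ALData (q M : ℕ) where
  a : ℤ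
  b : ℤ
  eq : (q : ℤ) * a - (M : ℤ) * b = 1

theorem ALData.exists_of_coprime {q M : ℕ} (hq : q.Prime) (hqM : ¬ q ∣ M) :
    Nonempty (ALData q M) := by
  obtain ⟨u, v, huv⟩ := (Nat.isCoprime_iff_coprime.mpr
    ((Nat.Prime.coprime_iff_not_dvd hq).mpr hqM) : IsCoprime (q : ℤ) (M : ℤ))
  exact ⟨⟨u, -v, by linear_combination huv⟩⟩

namespace ALData

variable {q M : ℕ} (w : ALData q M)

/-- The matrix. -/
def mat : Matrix (Fin 2) (Fin 2) ℤ := !![(q : ℤ) * w.a, w.b; ((q * M : ℕ) : ℤ), (q : ℤ)]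

theorem det_mat : w.mat.det = q := by
  rw [mat, Matrix.det_fin_two_of]
  push_cast
  linear_combination (q : ℤ) * w.eq

variable [NeZero q]

theorem det_mat_pos : 0 < w.mat.det := by
  rw [det_mat]; exact_mod_cast NeZero.pos q

/-- The action on meromorphic functions. -/
def act : MeroH →+* MeroH := intComp w.mat w.det_mat_pos

theorem det_mat_scale {n : ℕ} (hn : 0 < n) : 0 < ((!![(n : ℤ), 0; 0, 1]) * w.mat).det := by
  rw [Matrix.det_mul]; exact mul_pos (det_scale hn) w.det_mat_pos

theorem act_jScale {d : ℕ} (hd : 0 < d) (hdM : d ∣ M) :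
    w.act (jScale d hd) = jScale (q * d) (Nat.mul_pos (NeZero.pos q) hd) := by
  obtain ⟨e, he⟩ := hdM
  let γ : SL(2, ℤ) := ⟨!![w.a, (d : ℤ) * w.b; (e : ℤ), (q : ℤ)], by
    rw [Matrix.det_fin_two_of]
    have h := w.eq
    have h' : (M : ℤ) = (d : ℤ) * e := by rw [← Nat.cast_mul, ← he]
    linear_combination h + w.b * h'⟩
  have hmat : (!![(d : ℤ), 0; 0, 1]) * w.mat =
      (γ : Matrix (Fin 2) (Fin 2) ℤ) * !![((q * d : ℕ) : ℤ), 0; 0, 1] := by
    ext i j
    fin_cases i <;> fin_cases j <;>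
      simp [γ, mat, he, Matrix.mul_apply, Fin.sum_univ_two] <;> ring
  rw [jScale, jScale, act, intComp_intComp _ _ (w.det_mat_scale hd),
    intComp_congr _ (hmat ▸ w.det_mat_scale hd) hmat,
    ← intComp_intComp (by rw [γ.2]; exact one_pos) (det_scale (Nat.mul_pos (NeZero.pos q) hd)),
    intComp_coe, slComp_jMero]

theorem act_jScale_mul {d : ℕ} (hd : 0 < d) (hdM : d ∣ M) :
    w.act (jScale (q * d) (Nat.mul_pos (NeZero.pos q) hd)) = jScale d hd := by
  obtain ⟨e, he⟩ := hdM
  let γ : SL(2, ℤ) := ⟨!![(q : ℤ) * w.a, (d : ℤ) * w.b; (e : ℤ), 1], by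
    rw [Matrix.det_fin_two_of]
    have h := w.eq
    have h' : (M : ℤ) = (d : ℤ) * e := by rw [← Nat.cast_mul, ← he]
    linear_combination h + w.b * h'⟩
  have hs : 0 < (!![(q : ℤ), 0; 0, (q : ℤ)]).det := by
    rw [Matrix.det_fin_two_of]; simp [NeZero.ne q]
  have h1 : 0 < ((γ : Matrix (Fin 2) (Fin 2) ℤ) * !![(d : ℤ), 0; 0, 1]).det := by
    rw [Matrix.det_mul, γ.2, one_mul]; exact det_scale hd
  have h2 : 0 < (((γ : Matrix (Fin 2) (Fin 2) ℤ) * !![(d : ℤ), 0; 0, 1]) *
      !![(q : ℤ), 0; 0, (q : ℤ)]).det := by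
    rw [Matrix.det_mul]; exact mul_pos h1 hs
  have hmat : (!![((q * d : ℕ) : ℤ), 0; 0, 1]) * w.mat =
      ((γ : Matrix (Fin 2) (Fin 2) ℤ) * !![(d : ℤ), 0; 0, 1]) * !![(q : ℤ), 0; 0, (q : ℤ)] := by
    ext i j
    fin_cases i <;> fin_cases j <;>
      simp [γ, mat, he, Matrix.mul_apply, Fin.sum_univ_two] <;> ring
  rw [jScale, jScale, act, intComp_intComp _ _ (w.det_mat_scale (Nat.mul_pos (NeZero.pos q) hd)),
    intComp_congr _ h2 hmat, ← intComp_intComp h1 hs,
    intComp_scalar (by exact_mod_cast NeZero.ne q),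
    ← intComp_intComp (by rw [γ.2]; exact one_pos) (det_scale hd), intComp_coe, slComp_jMero]

end ALData

/-! ### On the function field -/

/-- An induction principle for `ℚ̄(X₀(N))`. -/
theorem modularBar_eq_top {N : ℕ} (S : Subfield (modularFunctionFieldBar N))
    (hc : ∀ c : ℚbar, algebraMap ℚbar (modularFunctionFieldBar N) c ∈ S)
    (hj : ∀ (d : ℕ) [NeZero d] (hd : d ∣ N),
      (⟨coeffEmb ℚbar (qExpand ℚ d jq), coeffEmb_mem_laurentBaseChange ℚbar (jqd_mem_full N hd)⟩ :
        modularFunctionFieldBar N) ∈ S) (x : modularFunctionFieldBar N) : x ∈ S := by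
  set T : Subfield (LaurentSeries ℚbar) :=
    S.map (SubringClass.subtype (modularFunctionFieldBar N))
  suffices hle : ∀ y : LaurentSeries ℚbar, y ∈ modularFunctionFieldBar N → y ∈ T by
    obtain ⟨z, hz, hzx⟩ := Subfield.mem_map.mp (hle x x.2)
    rwa [← Subtype.ext (show (z : LaurentSeries ℚbar) = x from hzx)]
  intro y hy
  rw [mem_laurentBaseChange_iff] at hy
  refine (Subfield.closure_le (t := T)).2 ?_ hy
  rintro _ (⟨c, rfl⟩ | ⟨z, hz, rfl⟩)
  · exact Subfield.mem_map.mpr ⟨_, hc c, rfl⟩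
  · change z ∈ modularFunctionFieldFull N at hz
    rw [modularFunctionFieldFull, ← IntermediateField.mem_toSubfield,
      IntermediateField.adjoin_toSubfield] at hz
    refine (Subfield.closure_le (t := T.comap (coeffEmb ℚbar))).2 ?_ hz
    rintro _ (⟨c, rfl⟩ | ⟨d, hd, hdN, rfl⟩)
    · refine Subfield.mem_map.mpr ⟨algebraMap ℚbar _ (algebraMap ℚ ℚbar c), hc _, ?_⟩
      show algebraMap ℚbar (LaurentSeries ℚbar) (algebraMap ℚ ℚbar c) =
        coeffEmb ℚbar (algebraMap ℚ (LaurentSeries ℚ) c)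
      rw [algebraMap_laurentSeries_eq_single, algebraMap_laurentSeries_eq_single, coeffEmb,
        coeffMap_single]
    · exact Subfield.mem_map.mpr ⟨_, hj d hdN, rfl⟩

/-- An embedding of `ℚ̄` into `ℂ`. -/
abbrev toC : ℚbar →+* ℂ := Fermat.Agent.FF.qbarToComplex

variable {q M : ℕ} [NeZero q] [NeZero M] (w : ALData q M)

omit [NeZero q] [NeZero M] in
theorem dvd_or_of_dvd_mul (hq : q.Prime) {d : ℕ} (hd : d ∣ M * q) :
    d ∣ M ∨ ∃ e, e ∣ M ∧ d = q * e := by
  rcases hq.eq_one_or_self_of_dvd _ (Nat.gcd_dvd_left q d) with h | h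
  · exact Or.inl ((Nat.Coprime.dvd_mul_right (Nat.Coprime.symm h)).mp hd)
  · obtain ⟨e, rfl⟩ : q ∣ d := h ▸ Nat.gcd_dvd_right q d
    exact Or.inr ⟨e, Nat.dvd_of_mul_dvd_mul_left hq.pos (by rwa [mul_comm M q] at hd), rfl⟩

theorem exists_wFun (hq : q.Prime) (x : modularFunctionFieldBar (M * q)) :
    ∃ y : modularFunctionFieldBar (M * q), embed toC (M * q) y = w.act (embed toC (M * q) x) := by
  suffices h : x ∈ (embed toC (M * q)).fieldRange.comap (w.act.comp (embed toC (M * q))) by
    obtain ⟨y, hy⟩ := Subfield.mem_comap.mp h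
    exact ⟨y, hy⟩
  refine modularBar_eq_top _ (fun c => ?_) (fun d _ hd => ?_) x
  · exact ⟨algebraMap ℚbar _ c, by
      simp only [RingHom.comp_apply, embed_algebraMap, ALData.act, intComp_const]⟩
  · rw [Subfield.mem_comap, RingHom.comp_apply, embed_jq toC d hd]
    rcases dvd_or_of_dvd_mul hq hd with h | ⟨e, he, rfl⟩
    · have : NeZero (q * d) := ⟨Nat.mul_ne_zero (NeZero.ne q) (NeZero.ne d)⟩
      rw [w.act_jScale (NeZero.pos d) h]
      exact ⟨_, embed_jq toC (q * d) (by rw [mul_comm M q]; exact mul_dvd_mul_left q h)⟩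
    · have : NeZero e := ⟨(ne_zero_of_dvd_ne_zero (NeZero.ne M) he)⟩
      rw [w.act_jScale_mul (NeZero.pos e) he]
      exact ⟨_, embed_jq toC e (he.trans (dvd_mul_right M q))⟩

/-- The involution as a ring endomorphism. -/
def wHom (hq : q.Prime) : modularFunctionFieldBar (M * q) →+* modularFunctionFieldBar (M * q) where
  toFun x := (exists_wFun w hq x).choose
  map_one' := embed_injective toC _ <| by
    rw [(exists_wFun w hq 1).choose_spec]; simp
  map_mul' x y := embed_injective toC _ <| by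
    rw [(exists_wFun w hq _).choose_spec, map_mul (embed toC (M * q)), map_mul w.act,
      map_mul (embed toC (M * q)), (exists_wFun w hq x).choose_spec,
      (exists_wFun w hq y).choose_spec]
  map_zero' := embed_injective toC _ <| by
    rw [(exists_wFun w hq 0).choose_spec]; simp
  map_add' x y := embed_injective toC _ <| by
    rw [(exists_wFun w hq _).choose_spec, map_add (embed toC (M * q)), map_add w.act,
      map_add (embed toC (M * q)), (exists_wFun w hq x).choose_spec,
      (exists_wFun w hq y).choose_spec]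

theorem embed_wHom (hq : q.Prime) (x : modularFunctionFieldBar (M * q)) :
    embed toC (M * q) (wHom w hq x) = w.act (embed toC (M * q) x) :=
  (exists_wFun w hq x).choose_spec

theorem wHom_algebraMap (hq : q.Prime) (c : ℚbar) :
    wHom w hq (algebraMap ℚbar _ c) = algebraMap ℚbar _ c :=
  embed_injective toC _ (by rw [embed_wHom, embed_algebraMap, ALData.act, intComp_const])

/-- The generator `j(d τ)`. -/
def jGenBar (N d : ℕ) [NeZero d] (hd : d ∣ N) : modularFunctionFieldBar N :=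
  ⟨coeffEmb ℚbar (qExpand ℚ d jq), coeffEmb_mem_laurentBaseChange ℚbar (jqd_mem_full N hd)⟩

theorem wHom_jGenBar (hq : q.Prime) {d : ℕ} [NeZero d] [NeZero (q * d)] (hd : d ∣ M) :
    wHom w hq (jGenBar (M * q) d (hd.trans (dvd_mul_right M q))) =
        jGenBar (M * q) (q * d) (by rw [mul_comm M q]; exact mul_dvd_mul_left q hd) ∧
      wHom w hq (jGenBar (M * q) (q * d) (by rw [mul_comm M q]; exact mul_dvd_mul_left q hd)) =
        jGenBar (M * q) d (hd.trans (dvd_mul_right M q)) := by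
  constructor <;> refine embed_injective toC _ ?_ <;> rw [embed_wHom]
  · exact (congrArg w.act (embed_jq toC d (hd.trans (dvd_mul_right M q)))).trans
      ((w.act_jScale (NeZero.pos d) hd).trans
        (embed_jq toC (q * d) (by rw [mul_comm M q]; exact mul_dvd_mul_left q hd)).symm)
  · exact (congrArg w.act
      (embed_jq toC (q * d) (by rw [mul_comm M q]; exact mul_dvd_mul_left q hd))).trans
      ((w.act_jScale_mul (NeZero.pos d) hd).trans
        (embed_jq toC d (hd.trans (dvd_mul_right M q))).symm)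

theorem wHom_wHom (hq : q.Prime) (x : modularFunctionFieldBar (M * q)) :
    wHom w hq (wHom w hq x) = x := by
  refine modularBar_eq_top (((wHom w hq).comp (wHom w hq)).eqLocusField (RingHom.id _))
    (fun c => ?_) (fun d _ hd => ?_) x
  · show wHom w hq (wHom w hq _) = _
    rw [wHom_algebraMap, wHom_algebraMap]
    rfl
  · show wHom w hq (wHom w hq (jGenBar (M * q) d hd)) = jGenBar (M * q) d hd
    rcases dvd_or_of_dvd_mul hq hd with h | ⟨e, he, rfl⟩
    · have : NeZero (q * d) := ⟨Nat.mul_ne_zero (NeZero.ne q) (NeZero.ne d)⟩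
      rw [(wHom_jGenBar w hq h).1, (wHom_jGenBar w hq h).2]
    · have : NeZero e := ⟨(ne_zero_of_dvd_ne_zero (NeZero.ne M) he)⟩
      rw [(wHom_jGenBar w hq he).2, (wHom_jGenBar w hq he).1]

/-- **The Atkin–Lehner involution.** -/
def wEquiv (hq : q.Prime) :
    modularFunctionFieldBar (M * q) ≃ₐ[ℚbar] modularFunctionFieldBar (M * q) where
  toFun := wHom w hq
  invFun := wHom w hq
  left_inv := wHom_wHom w hq
  right_inv := wHom_wHom w hq
  map_mul' := map_mul (wHom w hq)
  map_add' := map_add (wHom w hq)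
  commutes' := wHom_algebraMap w hq

theorem wEquiv_wEquiv (hq : q.Prime) (x : modularFunctionFieldBar (M * q)) :
    wEquiv w hq (wEquiv w hq x) = x := wHom_wHom w hq x

theorem coe_jGenBar_mul {d : ℕ} [NeZero d] [NeZero (q * d)] :
    qExpand ℚbar q (coeffEmb ℚbar (qExpand ℚ d jq)) = coeffEmb ℚbar (qExpand ℚ (q * d) jq) := by
  ext i
  by_cases hi : (q : ℤ) ∣ i
  · obtain ⟨j, rfl⟩ := hi
    rw [qExpand_coeff_mul, coeffEmb_coeff, coeffEmb_coeff, ← qExpand_qExpand, qExpand_coeff_mul]
  · rw [qExpand_coeff_of_not_dvd q _ hi, coeffEmb_coeff, ← qExpand_qExpand,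
      qExpand_coeff_of_not_dvd q _ hi, map_zero]

/-- `w` exchanges the degeneracy maps. -/
theorem wEquiv_heckeAlphaBar (hq : q.Prime) (x : modularFunctionFieldBar M) :
    wEquiv w hq (heckeAlphaBar ℚbar M q x) = heckeBetaBar ℚbar M q x := by
  refine modularBar_eq_top (RingHom.eqLocusField
    (((wEquiv w hq : modularFunctionFieldBar (M * q) →+* modularFunctionFieldBar (M * q))).comp
      (heckeAlphaBar ℚbar M q : modularFunctionFieldBar M →+* modularFunctionFieldBar (M * q)))
    (heckeBetaBar ℚbar M q : modularFunctionFieldBar M →+* modularFunctionFieldBar (M * q)))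
    (fun c => ?_) (fun d _ hd => ?_) x
  · show wEquiv w hq (heckeAlphaBar ℚbar M q _) = heckeBetaBar ℚbar M q _
    rw [AlgHom.commutes, AlgHom.commutes, AlgEquiv.commutes]
  · have : NeZero (q * d) := ⟨Nat.mul_ne_zero (NeZero.ne q) (NeZero.ne d)⟩
    show wHom w hq (heckeAlphaBar ℚbar M q (jGenBar M d hd)) =
      heckeBetaBar ℚbar M q (jGenBar M d hd)
    have h1 : heckeAlphaBar ℚbar M q (jGenBar M d hd) =
        jGenBar (M * q) d (hd.trans (dvd_mul_right M q)) := Subtype.ext (by simp [jGenBar])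
    rw [h1, (wHom_jGenBar w hq hd).1]
    exact Subtype.ext (by simp [jGenBar, coe_jGenBar_mul])

theorem wEquiv_heckeBetaBar (hq : q.Prime) (x : modularFunctionFieldBar M) :
    wEquiv w hq (heckeBetaBar ℚbar M q x) = heckeAlphaBar ℚbar M q x := by
  rw [← wEquiv_heckeAlphaBar w hq x, wEquiv_wEquiv]

omit [NeZero q] [NeZero M] in
theorem arithmeticRingAut_jGenBar (σ : ℚbar ≃ₐ[ℚ] ℚbar) {N d : ℕ} [NeZero d] (hd : d ∣ N) :
    arithmeticRingAut (modularFunctionFieldFull N) σ (jGenBar N d hd) = jGenBar N d hd :=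
  Subtype.ext (coeffMap_coeffEmb σ _)

/-- `w` commutes with Galois. -/
theorem wEquiv_arithmeticRingAut (hq : q.Prime) (σ : ℚbar ≃ₐ[ℚ] ℚbar)
    (x : modularFunctionFieldBar (M * q)) :
    wEquiv w hq (arithmeticRingAut (modularFunctionFieldFull (M * q)) σ x) =
      arithmeticRingAut (modularFunctionFieldFull (M * q)) σ (wEquiv w hq x) := by
  set g := arithmeticRingAut (modularFunctionFieldFull (M * q)) σ with hg
  refine modularBar_eq_top (RingHom.eqLocusField
    ((wHom w hq).comp g.toRingHom) (g.toRingHom.comp (wHom w hq)))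
    (fun c => ?_) (fun d _ hd => ?_) x
  · show wHom w hq (g _) = g (wHom w hq _)
    rw [hg, arithmeticRingAut_algebraMap, wHom_algebraMap, wHom_algebraMap,
      arithmeticRingAut_algebraMap]
  · show wHom w hq (g (jGenBar (M * q) d hd)) = g (wHom w hq (jGenBar (M * q) d hd))
    rw [hg, arithmeticRingAut_jGenBar]
    rcases dvd_or_of_dvd_mul hq hd with h | ⟨e, he, rfl⟩
    · have : NeZero (q * d) := ⟨Nat.mul_ne_zero (NeZero.ne q) (NeZero.ne d)⟩
      rw [(wHom_jGenBar w hq h).1, arithmeticRingAut_jGenBar]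
    · have : NeZero e := ⟨(ne_zero_of_dvd_ne_zero (NeZero.ne M) he)⟩
      rw [(wHom_jGenBar w hq he).2, arithmeticRingAut_jGenBar]

end Fermat.Agent.Semistable
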