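import Fermat.Agent.Reduction.Valued
import Fermat.Agent.Gal.Residue
import Fermat.Prelude.Def_ModularCurve_LaurentCoeff
import Fermat.Prelude.Def_FLTPrelim_Ramification
import Mathlib.FieldTheory.IntermediateField.Adjoin.Basic
import Mathlib.NumberTheory.Padics.PadicVal.Basic

/-!
# Bounded series over a number field can be normalised
-/

set_option autoImplicit false

noncomputable section

open ModularCurve Fermat.Agent.Reduction

namespace Fermat.Agent.Semistable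

local notation "ℚbar" => AlgebraicClosure ℚ

variable {A : ValuationSubring ℚbar} {q : ℕ}

theorem valuation_q_lt_one (hA : A.LiesOverPrime q) : A.valuation (q : ℚbar) < 1 :=
  A.mem_nonunits_iff.mp hA

theorem valuation_natCast_eq_one (hq : q.Prime) (hA : A.LiesOverPrime q) {n : ℕ} (hn : ¬ q ∣ n) :
    A.valuation (n : ℚbar) = 1 := by
  have hle : ∀ z : ℤ, A.valuation (z : ℚbar) ≤ 1 := fun z =>
    (A.valuation_le_one_iff _).mpr (intCast_mem A z)
  obtain ⟨u, v, huv⟩ := (Nat.isCoprime_iff_coprime.mpr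
    ((Nat.Prime.coprime_iff_not_dvd hq).mpr hn) : IsCoprime (q : ℤ) (n : ℤ))
  refine le_antisymm (hle n) (not_lt.mp fun hlt => ?_)
  have h1 : (u : ℚbar) * q + (v : ℚbar) * n = 1 := by exact_mod_cast huv
  have h2 : A.valuation ((u : ℚbar) * q + (v : ℚbar) * n) < 1 := by
    refine lt_of_le_of_lt (A.valuation.map_add _ _) (max_lt ?_ ?_) <;> rw [map_mul]
    · exact lt_of_le_of_lt (mul_le_of_le_one_left zero_le (hle u)) (valuation_q_lt_one hA)
    · exact lt_of_le_of_lt (mul_le_of_le_one_left zero_le (hle v)) hlt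
  rw [h1, map_one] at h2
  exact lt_irrefl _ h2

theorem valuation_natCast_eq_zpow (hq : q.Prime) (hA : A.LiesOverPrime q) {n : ℕ} (hn : n ≠ 0) :
    ∃ z : ℤ, A.valuation (n : ℚbar) = A.valuation (q : ℚbar) ^ z := by
  obtain ⟨e, m, hm, rfl⟩ := Nat.exists_eq_pow_mul_and_not_dvd hn q hq.ne_one
  refine ⟨e, ?_⟩
  rw [Nat.cast_mul, map_mul, valuation_natCast_eq_one hq hA hm, mul_one, Nat.cast_pow, map_pow,
    zpow_natCast]

theorem valuation_ratCast_eq_zpow (hq : q.Prime) (hA : A.LiesOverPrime q) {r : ℚ} (hr : r ≠ 0) :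
    ∃ z : ℤ, A.valuation (algebraMap ℚ ℚbar r) = A.valuation (q : ℚbar) ^ z := by
  obtain ⟨z₁, h₁⟩ := valuation_natCast_eq_zpow hq hA (n := r.num.natAbs)
    (by simpa using Rat.num_ne_zero.mpr hr)
  obtain ⟨z₂, h₂⟩ := valuation_natCast_eq_zpow hq hA (n := r.den) r.den_nz
  refine ⟨z₁ - z₂, ?_⟩
  have hv0 : A.valuation (q : ℚbar) ≠ 0 :=
    (A.valuation.ne_zero_iff).mpr (by exact_mod_cast hq.ne_zero)
  have habs : A.valuation ((r.num : ℚbar)) = A.valuation ((r.num.natAbs : ℕ) : ℚbar) := by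
    rcases Int.natAbs_eq r.num with h | h
    · rw [← Int.cast_natCast (R := ℚbar) r.num.natAbs, ← h]
    · rw [← Int.cast_natCast (R := ℚbar) r.num.natAbs,
        show ((r.num.natAbs : ℕ) : ℤ) = -r.num by omega, Int.cast_neg, Valuation.map_neg]
  rw [show algebraMap ℚ ℚbar r = (r.num : ℚbar) / (r.den : ℚbar) by
    rw [eq_ratCast]; exact Rat.cast_def r, map_div₀, habs, h₁, h₂, zpow_sub₀ hv0]

/-- A bounded power of an element of a number field has the valuation of a power of `q`. -/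
theorem valuation_pow_eq_zpow (hq : q.Prime) (hA : A.LiesOverPrime q)
    (L₀ : IntermediateField ℚ ℚbar) [FiniteDimensional ℚ L₀] {x : ℚbar} (hx : x ∈ L₀)
    (hx0 : x ≠ 0) :
    ∃ z : ℤ, A.valuation x ^ (Module.finrank ℚ L₀).factorial = A.valuation (q : ℚbar) ^ z := by
  classical
  set v := A.valuation
  set d := Module.finrank ℚ L₀
  obtain ⟨i, j, hij, hjd, r, hr, he⟩ : ∃ i j : ℕ, i < j ∧ j ≤ d ∧ ∃ r : ℚ, r ≠ 0 ∧
      v x ^ (j - i) = v (algebraMap ℚ ℚbar r) := by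
    have hint : IsIntegral ℚ (⟨x, hx⟩ : L₀) := IsIntegral.of_finite ℚ _
    set P := minpoly ℚ (⟨x, hx⟩ : L₀)
    have hPd : P.natDegree ≤ d := minpoly.natDegree_le _
    have hP0 : P ≠ 0 := minpoly.ne_zero hint
    have hev : Polynomial.aeval x P = 0 := by
      have := congrArg L₀.val (minpoly.aeval ℚ (⟨x, hx⟩ : L₀))
      rwa [← Polynomial.aeval_algHom_apply, map_zero] at this
    set t : ℕ → ℚbar := fun n => algebraMap ℚ ℚbar (P.coeff n) * x ^ n
    set s := P.support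
    have hsum : ∑ n ∈ s, t n = 0 := by
      rw [← hev, Polynomial.aeval_def, Polynomial.eval₂_eq_sum, Polynomial.sum_def]
    obtain ⟨a, ha, hmax⟩ := s.exists_max_image (fun n => v (t n))
      (Polynomial.support_nonempty.mpr hP0)
    have ht0 : ∀ n ∈ s, t n ≠ 0 := fun n hn => mul_ne_zero
      ((map_ne_zero _).mpr (Polynomial.mem_support_iff.mp hn)) (pow_ne_zero _ hx0)
    obtain ⟨b, hb, hba, hvb⟩ : ∃ b ∈ s, b ≠ a ∧ v (t b) = v (t a) := by
      by_contra hno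
      push Not at hno
      have := v.map_sum_eq_of_lt (f := t) ha fun n hn => by
        obtain ⟨hn1, hn2⟩ := Finset.mem_sdiff.mp hn
        rw [Finset.mem_singleton] at hn2
        exact lt_of_le_of_ne (hmax n hn1) (hno n hn1 hn2)
      rw [hsum, map_zero] at this
      exact ht0 a ha ((v.zero_iff).mp this.symm)
    have hle : ∀ n ∈ s, n ≤ d := fun n hn =>
      (Polynomial.le_natDegree_of_mem_supp n hn).trans hPd
    have solve : ∀ a b, a ∈ s → b ∈ s → a < b → v (t a) = v (t b) →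
        v x ^ (b - a) = v (algebraMap ℚ ℚbar (P.coeff a / P.coeff b)) := by
      intro a b ha hb hab he
      simp only [t, map_mul, map_pow] at he
      rw [map_div₀, map_div₀, eq_div_iff ((v.ne_zero_iff).mpr
        ((map_ne_zero _).mpr (Polynomial.mem_support_iff.mp hb)))]
      refine mul_right_cancel₀ (pow_ne_zero a ((v.ne_zero_iff).mpr hx0)) ?_
      rw [mul_right_comm, ← pow_add, Nat.sub_add_cancel hab.le, he, mul_comm]
    rcases lt_or_gt_of_ne hba with h | h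
    · exact ⟨b, a, h, hle a ha, _, div_ne_zero (Polynomial.mem_support_iff.mp hb)
        (Polynomial.mem_support_iff.mp ha), solve b a hb ha h hvb⟩
    · exact ⟨a, b, h, hle b hb, _, div_ne_zero (Polynomial.mem_support_iff.mp ha)
        (Polynomial.mem_support_iff.mp hb), solve a b ha hb h hvb.symm⟩
  obtain ⟨z, hz⟩ := valuation_ratCast_eq_zpow hq hA hr
  obtain ⟨c, hc⟩ := Nat.dvd_factorial (n := d) (m := j - i) (by omega) (by omega)
  refine ⟨z * c, ?_⟩
  rw [hc, pow_mul, he, hz, zpow_mul, zpow_natCast]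

/-- A bounded set of nonzero elements of a number field has an element of largest valuation. -/
theorem exists_max_valuation_of_bounded (hq : q.Prime) (hA : A.LiesOverPrime q)
    (L₀ : IntermediateField ℚ ℚbar) [FiniteDimensional ℚ L₀] (s : Set ℚbar)
    (hs : ∀ x ∈ s, x ∈ L₀ ∧ x ≠ 0) (hne : s.Nonempty) (b : ℚbar) (hb0 : b ≠ 0)
    (hb : ∀ x ∈ s, A.valuation x ≤ A.valuation b) :
    ∃ x ∈ s, ∀ y ∈ s, A.valuation y ≤ A.valuation x := by
  set v := A.valuation
  set E := (Module.finrank ℚ L₀).factorial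
  have hE : E ≠ 0 := Nat.factorial_ne_zero _
  have hvq1 : v (q : ℚbar) < 1 := valuation_q_lt_one hA
  have hvq0 : 0 < v (q : ℚbar) := (Valuation.pos_iff _).mpr (by exact_mod_cast hq.ne_zero)
  obtain ⟨n, hn⟩ := Fermat.Agent.Gal.exists_pow_div_mem_nonunits hq hA hA
    (y := (b ^ E)⁻¹) (inv_ne_zero (pow_ne_zero _ hb0))
  rw [A.mem_nonunits_iff, map_div₀, map_inv₀, div_inv_eq_mul, map_pow, map_pow] at hn
  have hbd : ∃ m : ℤ, ∀ z : ℤ, (∃ x ∈ s, v x ^ E = v (q : ℚbar) ^ z) → m ≤ z := by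
    refine ⟨-(n : ℤ), fun z ⟨x, hx, hz⟩ => ?_⟩
    by_contra hlt
    push Not at hlt
    have h1 : v (q : ℚbar) ^ (-(n : ℤ)) ≤ v (q : ℚbar) ^ z :=
      (zpow_le_zpow_iff_right_of_lt_one₀ hvq0 hvq1).mpr hlt.le
    rw [← hz] at h1
    have h2 : v (q : ℚbar) ^ (-(n : ℤ)) ≤ v b ^ E :=
      h1.trans (pow_le_pow_left₀ zero_le (hb x hx) E)
    rw [zpow_neg, zpow_natCast, inv_le_iff_one_le_mul₀ (pow_pos hvq0 n), mul_comm] at h2
    exact absurd hn (not_lt.mpr h2)
  obtain ⟨x₀, hx₀⟩ := hne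
  obtain ⟨z₀, hz₀⟩ := valuation_pow_eq_zpow hq hA L₀ (hs x₀ hx₀).1 (hs x₀ hx₀).2
  obtain ⟨z, ⟨x, hx, hxz⟩, hmin⟩ := Int.exists_least_of_bdd hbd ⟨z₀, x₀, hx₀, hz₀⟩
  refine ⟨x, hx, fun y hy => ?_⟩
  obtain ⟨z', hz'⟩ := valuation_pow_eq_zpow hq hA L₀ (hs y hy).1 (hs y hy).2
  refine le_of_pow_le_pow_left₀ hE zero_le ?_
  rw [hz', hxz]
  exact (zpow_le_zpow_iff_right_of_lt_one₀ hvq0 hvq1).mpr (hmin z' ⟨y, hy, hz'⟩)

/-- The coefficients of an element of `ℚ̄ ⊗ F₀` lie in a number field. -/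
theorem exists_finiteDimensional_coeff_mem {F₀ : IntermediateField ℚ (LaurentSeries ℚ)}
    {x : LaurentSeries ℚbar} (hx : x ∈ laurentBaseChange ℚbar F₀) :
    ∃ L₀ : IntermediateField ℚ ℚbar, FiniteDimensional ℚ L₀ ∧ ∀ i, x.coeff i ∈ L₀ := by
  suffices h : ∃ L₀ : IntermediateField ℚ ℚbar, FiniteDimensional ℚ L₀ ∧
      x ∈ (coeffMap (L₀.val : L₀ →+* ℚbar)).fieldRange by
    obtain ⟨L₀, hfin, y, rfl⟩ := h
    exact ⟨L₀, hfin, fun i => (coeffMap_coeff (L₀.val : L₀ →+* ℚbar) y i).symm ▸ (y.coeff i).2⟩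
  have hmono : ∀ {L L' : IntermediateField ℚ ℚbar}, L ≤ L' →
      (coeffMap (L.val : L →+* ℚbar)).fieldRange ≤
        (coeffMap (L'.val : L' →+* ℚbar)).fieldRange := by
    rintro L L' h _ ⟨y, rfl⟩
    refine ⟨coeffMap (IntermediateField.inclusion h : L →+* L') y, ?_⟩
    rw [coeffMap_coeffMap]
    rfl
  rw [mem_laurentBaseChange_iff] at hx
  induction hx using Subfield.closure_induction with
  | mem y hy =>
    rcases hy with ⟨a, rfl⟩ | ⟨z, _, rfl⟩
    · have ha : IsIntegral ℚ a := (Algebra.IsAlgebraic.isAlgebraic (R := ℚ) a).isIntegral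
      refine ⟨IntermediateField.adjoin ℚ {a}, IntermediateField.adjoin.finiteDimensional ha,
        HahnSeries.single 0 ⟨a, IntermediateField.mem_adjoin_simple_self ℚ a⟩, ?_⟩
      rw [coeffMap_single, algebraMap_laurentSeries_eq_single]
      rfl
    · exact ⟨⊥, inferInstance, coeffMap (algebraMap ℚ (⊥ : IntermediateField ℚ ℚbar)) z, by
        rw [coeffMap_coeffMap]; rfl⟩
  | one => exact ⟨⊥, inferInstance, one_mem _⟩
  | add x y _ _ hx hy =>
    obtain ⟨L, _, h⟩ := hx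
    obtain ⟨L', _, h'⟩ := hy
    exact ⟨L ⊔ L', inferInstance, add_mem (hmono le_sup_left h) (hmono le_sup_right h')⟩
  | neg x _ hx =>
    obtain ⟨L, hL, h⟩ := hx
    exact ⟨L, hL, neg_mem h⟩
  | inv x _ hx =>
    obtain ⟨L, hL, h⟩ := hx
    exact ⟨L, hL, inv_mem h⟩
  | mul x y _ _ hx hy =>
    obtain ⟨L, _, h⟩ := hx
    obtain ⟨L', _, h'⟩ := hy
    exact ⟨L ⊔ L', inferInstance, mul_mem (hmono le_sup_left h) (hmono le_sup_right h')⟩

variable {k : Type*} [Field k]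

/-- A bounded nonzero series of the function field can be normalised. -/
theorem normalizable_of_bounded (hq : q.Prime) (hA : A.LiesOverPrime q) (π : A →+* k)
    {F₀ : IntermediateField ℚ (LaurentSeries ℚ)} {x : LaurentSeries ℚbar}
    (hx : x ∈ laurentBaseChange ℚbar F₀) (hx0 : x ≠ 0) {c : ℚbar} (hc : c ≠ 0)
    (hb : ∀ i, c * x.coeff i ∈ A) : Normalizable A π x := by
  obtain ⟨L₀, hfin, hL⟩ := exists_finiteDimensional_coeff_mem hx
  set s : Set ℚbar := {a | a ≠ 0 ∧ ∃ i, x.coeff i = a}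
  have hne : s.Nonempty := ⟨x.coeff x.order, fun h => hx0 (HahnSeries.coeff_order_eq_zero.mp h),
    x.order, rfl⟩
  obtain ⟨m, ⟨hm0, i₀, hi₀⟩, hmax⟩ := exists_max_valuation_of_bounded hq hA L₀ s
    (fun a ⟨ha, i, hi⟩ => ⟨hi ▸ hL i, ha⟩) hne c⁻¹ (inv_ne_zero hc) (fun a ⟨_, i, hi⟩ => by
      rw [map_inv₀, ← one_div, le_div_iff₀ ((Valuation.pos_iff _).mpr hc), mul_comm, ← map_mul,
        A.valuation_le_one_iff, ← hi]
      exact hb i)
  have hmem : ∀ i, (m⁻¹ • x).coeff i ∈ A := fun i => by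
    rw [coeff_smulC, ← A.valuation_le_one_iff, map_mul, map_inv₀]
    rcases eq_or_ne (x.coeff i) 0 with h | h
    · simp [h]
    rw [inv_mul_le_iff₀ ((Valuation.pos_iff _).mpr hm0), mul_one]
    exact hmax _ ⟨h, i, rfl⟩
  obtain ⟨y, hy⟩ := exists_red_of_coeff_mem π hmem
  refine ⟨m⁻¹, inv_ne_zero hm0, y, fun h => ?_, hy⟩
  obtain ⟨hA', hπ⟩ := hy i₀
  have h1 : (⟨(m⁻¹ • x).coeff i₀, hA'⟩ : A) = 1 :=
    Subtype.ext (by simp [hi₀, inv_mul_cancel₀ hm0])
  rw [h1, map_one, h] at hπ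
  simp at hπ

end Fermat.Agent.Semistable
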