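import Fermat.Agent.Semistable.Branches
import Fermat.Agent.Semistable.Discrete
import Fermat.Agent.Reduction.Roots
import Fermat.Agent.Reduction.Torsion
import Fermat.Prelude.Thm_ModularCurve_coeffMap_qExpand

/-!
# Functions on `X₀(qM)` regular outside the two cusps: normalisation and reduction
-/

set_option autoImplicit false

noncomputable section

open ModularCurve AlgebraicCurve Fermat.Agent.Reduction
open Fermat.Agent.Igusa (twist twist_coeff coeffMap_twist twist_one_apply)

namespace Fermat.Agent.Semistable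

local notation "ℚbar" => AlgebraicClosure ℚ

variable {k : Type*} [Field k] {A : ValuationSubring ℚbar}

/-- The reduction of level `M` at a place: regular functions, their reductions and lifts. -/
structure LevelData (A : ValuationSubring ℚbar) (π : A →+* k) (M : ℕ) [NeZero M] where
  /-- the regular functions of the reduced curve -/
  C : Subalgebra k (LaurentSeries k)
  /-- the genus -/
  gM : ℤ
  /-- the gap bound -/
  n₀ : ℕ
  finite_C : ∀ n : ℤ, FiniteDimensional k ↥(poleLESubmodule k n ⊓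
    { C.toSubsemiring.toAddSubmonoid with
      smul_mem' := fun c x hx => by
        rw [smul_eq_algebraMap_mul]; exact C.mul_mem (C.algebraMap_mem c) hx })
  finrank_C : ∀ n : ℤ, (n₀ : ℤ) ≤ n → (Module.finrank k ↥(poleLESubmodule k n ⊓
    { C.toSubsemiring.toAddSubmonoid with
      smul_mem' := fun c x hx => by
        rw [smul_eq_algebraMap_mul]; exact C.mul_mem (C.algebraMap_mem c) hx }) : ℤ) = n + 1 - gM
  normal : ∀ a y : LaurentSeries k, y ∈ C → y ≠ 0 → a * y ∈ C → ∀ m : ℕ, 0 < m → a ^ m ∈ C → a ∈ C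
  normalizable : ∀ y : modularFunctionFieldBar M, RegM y → y ≠ 0 →
    Normalizable A π (y : LaurentSeries ℚbar)
  red_mem : ∀ y : modularFunctionFieldBar M, RegM y → ∀ x,
    Red A π (y : LaurentSeries ℚbar) x → x ∈ C
  exists_lift : ∀ n : ℕ, n₀ ≤ n → ∀ x ∈ C, PoleLE n x → ∃ y : modularFunctionFieldBar M,
    RegM y ∧ Red A π (y : LaurentSeries ℚbar) x ∧ PoleLE n (y : LaurentSeries ℚbar)

variable {π : A →+* k} {q M : ℕ} [NeZero q] [NeZero M] (L : LevelData A π M)
  (w : ALData q M) (hq : q.Prime) (hA : A.LiesOverPrime q) (hπ : Function.Surjective π)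
  [CharP k q] (hqM : ¬ q ∣ M)

namespace LevelData

include hq in
omit [NeZero q] in
theorem exists_prime_to (n₀ : ℕ) : ∃ n : ℕ, n₀ < n ∧ ¬ q ∣ n := by
  by_cases h : q ∣ n₀ + 1
  · refine ⟨n₀ + 2, by omega, fun h2 => ?_⟩
    have := Nat.dvd_sub h2 h
    rw [show n₀ + 2 - (n₀ + 1) = 1 by omega] at this
    exact hq.ne_one (Nat.dvd_one.mp this)
  · exact ⟨n₀ + 1, by omega, h⟩

/-- `C` as a submodule. -/
def Csub : Submodule k (LaurentSeries k) :=
  { L.C.toSubsemiring.toAddSubmonoid with
    smul_mem' := fun c x hx => by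
      rw [smul_eq_algebraMap_mul]; exact L.C.mul_mem (L.C.algebraMap_mem c) hx }

theorem exists_order_eq {n : ℤ} (hn : (L.n₀ : ℤ) < n) :
    ∃ x ∈ L.C, x ≠ 0 ∧ x.order = -n ∧ PoleLE n x := by
  have : FiniteDimensional k ↥(poleLESubmodule k (n - 1) ⊓ L.Csub) := L.finite_C (n - 1)
  by_contra hne
  push Not at hne
  have hle : poleLESubmodule k n ⊓ L.Csub ≤ poleLESubmodule k (n - 1) ⊓ L.Csub := by
    intro x hx
    refine ⟨?_, hx.2⟩
    rcases eq_or_ne x 0 with rfl | hx0
    · exact fun _ _ => rfl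
    show PoleLE (n - 1) x
    rw [poleLE_iff_order hx0]
    have h1 := (poleLE_iff_order hx0).mp hx.1
    by_contra hlt
    exact hne x hx.2 hx0 (by omega) hx.1
  have h1 := Submodule.finrank_mono hle
  have h2 : (Module.finrank k ↥(poleLESubmodule k n ⊓ L.Csub) : ℤ) = n + 1 - L.gM :=
    L.finrank_C n hn.le
  have h3 : (Module.finrank k ↥(poleLESubmodule k (n - 1) ⊓ L.Csub) : ℤ) = n - 1 + 1 - L.gM :=
    L.finrank_C (n - 1) (by omega)
  omega

include L hq hπ in
omit [CharP k q] [NeZero q] in
/-- A level `M` function with exact reduced pole order prime to `q`. -/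
theorem exists_gen : ∃ (g : modularFunctionFieldBar M) (x : LaurentSeries k) (n : ℕ),
    0 < n ∧ RegM g ∧ Red A π (g : LaurentSeries ℚbar) x ∧ x ≠ 0 ∧ x.order = -(n : ℤ) ∧
      PoleLE n (g : LaurentSeries ℚbar) ∧ ¬ (q : ℤ) ∣ (g : LaurentSeries ℚbar).order := by
  obtain ⟨n, hn, hnq⟩ := exists_prime_to hq L.n₀
  obtain ⟨x, hx, hx0, hxo, hxp⟩ := L.exists_order_eq (n := (n : ℤ)) (by exact_mod_cast hn)
  obtain ⟨g, hg, hgx, hgp⟩ := L.exists_lift n hn.le x hx hxp
  have hc : (g : LaurentSeries ℚbar).coeff (-(n : ℤ)) ≠ 0 := fun h => by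
    have h1 := hgx.coeff_valuation_eq_one hπ (i := -(n : ℤ))
      (by rw [← hxo]; exact fun h' => hx0 (HahnSeries.coeff_order_eq_zero.mp h'))
    rw [h, map_zero] at h1
    exact zero_ne_one h1
  have hne : (g : LaurentSeries ℚbar) ≠ 0 := fun h => hc (by rw [h]; rfl)
  have ho : (g : LaurentSeries ℚbar).order = -(n : ℤ) :=
    le_antisymm (HahnSeries.order_le_of_coeff_ne_zero hc) ((poleLE_iff_order hne).mp hgp)
  refine ⟨g, x, n, by omega, hg, hgx, hx0, hxo, hgp, ?_⟩
  rw [ho, dvd_neg]
  exact fun h => hnq (by exact_mod_cast h)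

include L in
/-- A common scale for finitely many level `M` functions. -/
theorem exists_common_scale {ι : Type*} (s : Finset ι) (h : ι → modularFunctionFieldBar M)
    (hh : ∀ i ∈ s, RegM (h i)) :
    ∃ c : ℚbar, c ≠ 0 ∧ ∀ i ∈ s, ∀ n, c * (h i : LaurentSeries ℚbar).coeff n ∈ A := by
  classical
  induction s using Finset.induction_on with
  | empty => exact ⟨1, one_ne_zero, by simp⟩
  | @insert a s ha ih =>
    obtain ⟨c, hc, hcs⟩ := ih fun i hi => hh i (Finset.mem_insert_of_mem hi)
    obtain ⟨d, hd, hds⟩ : ∃ d : ℚbar, d ≠ 0 ∧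
        ∀ n, d * (h a : LaurentSeries ℚbar).coeff n ∈ A := by
      rcases eq_or_ne (h a) 0 with h0 | h0
      · exact ⟨1, one_ne_zero, fun n => by simp [h0]⟩
      · obtain ⟨d, hd, x, -, hx⟩ := L.normalizable _ (hh a (Finset.mem_insert_self a s)) h0
        exact ⟨d, hd, fun n => by rw [← coeff_smulC]; exact hx.coeff_mem n⟩
    rcases A.mem_or_inv_mem (c / d) with hr | hr
    · refine ⟨c, hc, fun i hi n => ?_⟩
      rcases Finset.mem_insert.mp hi with rfl | hi
      · rw [show c * (h i : LaurentSeries ℚbar).coeff n =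
          (c / d) * (d * (h i : LaurentSeries ℚbar).coeff n) by field_simp]
        exact mul_mem hr (hds n)
      · exact hcs i hi n
    · rw [inv_div] at hr
      refine ⟨d, hd, fun i hi n => ?_⟩
      rcases Finset.mem_insert.mp hi with rfl | hi
      · exact hds n
      · rw [show d * (h i : LaurentSeries ℚbar).coeff n =
          (d / c) * (c * (h i : LaurentSeries ℚbar).coeff n) by field_simp]
        exact mul_mem hr (hcs i hi n)

omit [NeZero q] [NeZero M] in
include hq in
theorem exists_zeta : ∃ (ζ : ℚbar) (u : Aˣ), IsPrimitiveRoot ζ q ∧ ((u : A) : ℚbar) = ζ ∧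
    Units.map (π : A →* k) u = 1 := by
  have : Fact q.Prime := ⟨hq⟩
  obtain ⟨ζ, hζ⟩ := HasEnoughRootsOfUnity.exists_primitiveRoot ℚbar q
  have hmem : ζ ∈ A := by
    rw [← ValuationSubring.valuation_le_one_iff]
    refine le_of_eq (pow_eq_one_iff_left hq.ne_zero |>.mp ?_)
    rw [← map_pow, hζ.pow_eq_one, map_one]
  have hpow : (⟨ζ, hmem⟩ : A) ^ q = 1 := Subtype.ext hζ.pow_eq_one
  refine ⟨ζ, Units.ofPowEqOne _ q hpow hq.ne_zero, hζ, rfl, Units.ext ?_⟩
  show π ⟨ζ, hmem⟩ = 1
  apply frobenius_inj k q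
  rw [frobenius_def, frobenius_def, one_pow, ← map_pow, hpow, map_one]

omit [NeZero M] in
theorem red_twist_one {z : LaurentSeries A} {u : Aˣ} (hu : Units.map (π : A →* k) u = 1) (i : ℕ) :
    coeffMap π (twist (u ^ i) z) = coeffMap π z := by
  rw [coeffMap_twist, map_pow, hu, one_pow, twist_one_apply]

include L w hq hπ hqM in
/-- Boundedness of the expansion at `∞`. -/
theorem exists_bound {f : modularFunctionFieldBar (M * q)}
    (hf : RegOff (cuspInf (M * q)) (cuspZero w hq) f) :
    ∃ c : ℚbar, c ≠ 0 ∧ ∀ n, c * (f : LaurentSeries ℚbar).coeff n ∈ A := by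
  classical
  obtain ⟨ζ, u, hζ, huζ, hu1⟩ := exists_zeta (π := π) hq
  obtain ⟨g, x, n, hn, hgR, hgx, hx0, hxo, hgp, hga⟩ := L.exists_gen hq hπ
  obtain ⟨gA, hgA, hgAx⟩ := red_iff_exists.mp hgx
  set y := heckeBetaBar ℚbar M q g
  have hy : RegOff (cuspInf (M * q)) (cuspZero w hq) y := by
    have := regOff_wEquiv w hq (regOff_alpha w hq hqM hgR)
    rwa [wEquiv_heckeAlphaBar] at this
  set PA : Polynomial (LaurentSeries A) :=
    ∏ i : Fin q, (Polynomial.X - Polynomial.C (twist (u ^ (i : ℕ)) gA)) with hPA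
  set P := PA.map (coeffMap A.subtype) with hP
  set Y := qExpand A q (qExpand A q gA) with hY
  have hbr : ∀ i : Fin q, coeffMap A.subtype (twist (u ^ (i : ℕ)) gA) =
      br w hq (zu hζ ^ (i : ℕ)) y := by
    intro i
    rw [br_beta, coeffMap_twist, hgA, map_pow]
    congr 2
    refine congrArg (· ^ (i : ℕ)) (Units.ext ?_)
    show ((u : A) : ℚbar) = ζ
    exact huζ
  have hProot : ∀ i : Fin q, P.eval (br w hq (zu hζ ^ (i : ℕ)) y) = 0 := by
    intro i
    rw [hP, Polynomial.eval_map, ← hbr, Polynomial.eval₂_at_apply, hPA, Polynomial.eval_prod,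
      Finset.prod_eq_zero (Finset.mem_univ i) (by simp), map_zero]
  have hYy : coeffMap A.subtype Y = brInf y := by
    rw [brInf_beta, hY, coeffMap_qExpand, coeffMap_qExpand, hgA]
  have hD : Red A π (P.eval (brInf y)) ((qExpand k q (qExpand k q x) - x) ^ q) := by
    refine red_iff_exists.mpr ⟨PA.eval Y, ?_, ?_⟩
    · rw [hP, Polynomial.eval_map, ← hYy, Polynomial.eval₂_at_apply]
    · rw [hPA, Polynomial.eval_prod, map_prod]
      simp only [Polynomial.eval_sub, Polynomial.eval_X, Polynomial.eval_C, map_sub,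
        red_twist_one hu1, hY, coeffMap_qExpand, hgAx]
      rw [Finset.prod_const, Finset.card_univ, Fintype.card_fin]
  have hord2 : (qExpand k q (qExpand k q x)).order = (q : ℤ) * (q : ℤ) * x.order := by
    rw [Igusa.order_qExpand, Igusa.order_qExpand, mul_assoc]
  have hq1 : (1 : ℤ) < q := by exact_mod_cast hq.one_lt
  have hxo' : x.order < 0 := by omega
  have hlt : (qExpand k q (qExpand k q x)).order < x.order := by
    rw [hord2]
    nlinarith [mul_neg_of_pos_of_neg (show (0 : ℤ) < q * q - 1 by nlinarith) hxo']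
  have hd0 : qExpand k q (qExpand k q x) - x ≠ 0 := by
    intro h
    rw [sub_eq_zero] at h
    rw [h] at hlt
    exact lt_irrefl _ hlt
  have hcoef : (qExpand k q (qExpand k q x) - x).coeff (qExpand k q (qExpand k q x)).order ≠ 0 := by
    rw [HahnSeries.coeff_sub, HahnSeries.coeff_eq_zero_of_lt_order hlt, sub_zero]
    exact fun h => hd0 (by
      have h0 : qExpand k q (qExpand k q x) = 0 := HahnSeries.coeff_order_eq_zero.mp h
      rw [h0, zero_sub, neg_eq_zero]
      exact qExpand_injective q (qExpand_injective q (by rw [h0, map_zero, map_zero])))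
  have hdo : (qExpand k q (qExpand k q x) - x).order = (q : ℤ) * (q : ℤ) * x.order := by
    rw [← hord2]
    refine le_antisymm (HahnSeries.order_le_of_coeff_ne_zero hcoef) ?_
    by_contra h
    push Not at h
    refine absurd (HahnSeries.coeff_order_eq_zero.not.mpr hd0) (not_not.mpr ?_)
    rw [HahnSeries.coeff_sub, HahnSeries.coeff_eq_zero_of_lt_order h,
      HahnSeries.coeff_eq_zero_of_lt_order (h.trans hlt), sub_zero]
  -- pole bound of `P(y)`
  have hpole : PoleLE ((q : ℤ) * ((q : ℤ) * q * n)) (P.eval (brInf y)) := by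
    have hY1 : PoleLE ((q : ℤ) * q * n) (brInf y) := by
      rw [brInf_beta]
      intro i hi
      by_cases hdiv : (q : ℤ) ∣ i
      · obtain ⟨j, rfl⟩ := hdiv
        rw [qExpand_coeff_mul]
        by_cases hdiv' : (q : ℤ) ∣ j
        · obtain ⟨l, rfl⟩ := hdiv'
          rw [qExpand_coeff_mul]
          exact hgp l (by nlinarith)
        · exact qExpand_coeff_of_not_dvd q _ hdiv'
      · exact qExpand_coeff_of_not_dvd q _ hdiv
    have hi1 : ∀ i : Fin q, PoleLE ((q : ℤ) * q * n) (br w hq (zu hζ ^ (i : ℕ)) y) := by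
      intro i j hj
      rw [br_beta, twist_coeff, hgp j (by nlinarith), mul_zero]
    rw [hP, hPA, Polynomial.map_prod, Polynomial.eval_prod]
    have key : ∀ s : Finset (Fin q), PoleLE ((s.card : ℤ) * ((q : ℤ) * q * n))
        (∏ i ∈ s, (((Polynomial.X - Polynomial.C (twist (u ^ (i : ℕ)) gA)).map
          (coeffMap A.subtype)).eval (brInf y))) := by
      intro s
      induction s using Finset.induction_on with
      | empty =>
        intro i hi
        rw [Finset.prod_empty, HahnSeries.coeff_one, if_neg]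
        simp at hi
        omega
      | @insert a s ha ih =>
        rw [Finset.prod_insert ha, Finset.card_insert_of_notMem ha, Nat.cast_add, Nat.cast_one,
          add_mul, one_mul, add_comm]
        refine PoleLE.mul ?_ ih
        simp only [Polynomial.map_sub, Polynomial.map_X, Polynomial.map_C, Polynomial.eval_sub,
          Polynomial.eval_X, Polynomial.eval_C, hbr]
        exact (poleLESubmodule ℚbar _).sub_mem hY1 (hi1 a)
    simpa using key Finset.univ
  obtain ⟨G, hG, -, -, -, hinv⟩ := exists_pow_eq_of_red hπ (m := 1) (by simp)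
    (x := (qExpand k q (qExpand k q x) - x) ^ q) (pow_ne_zero _ hd0)
    (by rwa [pow_one]) (fun i hi => by
      refine hpole i (hi.trans_eq ?_)
      rw [Nat.cast_one, one_mul, order_pow' hd0, hdo, hxo]
      ring)
  rw [pow_one] at hG
  subst hG
  -- the traces
  set h : ℕ → modularFunctionFieldBar M := fun j => trAlpha (f * y ^ j)
  obtain ⟨c, hc, hcs⟩ := L.exists_common_scale (Finset.range (P.natDegree + 1)) h fun j _ =>
    regM_trAlpha w hq fun v h1 h2 => by
      simpa using FF.mul_mem_ordGE v (hf v h1 h2)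
        (by simpa using FF.pow_mem_ordGE v (hy v h1 h2) j)
  refine ⟨c, hc, fun j => ?_⟩
  have hid := brInf_mul_eval w hq hζ hqM hga f y hProot
  have hsum : ∃ z, Red A π (c • (brInf f * P.eval (brInf y))) z := by
    refine exists_red_of_coeff_mem π fun m => ?_
    rw [hid, Finset.smul_sum, HahnSeries.coeff_sum]
    refine sum_mem fun l hl => ?_
    obtain ⟨z, hz⟩ : ∃ z, Red A π (c • qExpand ℚbar q (h l : LaurentSeries ℚbar)) z := by
      refine exists_red_of_coeff_mem π fun m => ?_
      rw [coeff_smulC]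
      by_cases hm : (q : ℤ) ∣ m
      · obtain ⟨m', rfl⟩ := hm
        rw [qExpand_coeff_mul]
        exact hcs l hl m'
      · rw [qExpand_coeff_of_not_dvd q _ hm, mul_zero]
        exact zero_mem A
    have hPc : Red A π (P.coeff l) (coeffMap π (PA.coeff l)) :=
      red_iff_exists.mpr ⟨PA.coeff l, by rw [hP, Polynomial.coeff_map], rfl⟩
    have := (hPc.mul hz).coeff_mem m
    rwa [smul_eq_algebraMap_mul, mul_left_comm, ← smul_eq_algebraMap_mul] at this
  obtain ⟨z, hz⟩ := hsum
  have h1 := (hz.mul hinv).coeff_mem ((q : ℤ) * j)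
  have hne : P.eval (brInf y) ≠ 0 := fun h0 => by
    have hd' := hD
    rw [h0] at hd'
    exact pow_ne_zero _ hd0 (hd'.unique red_zero)
  rw [smul_eq_algebraMap_mul, ← mul_assoc, mul_inv_cancel_right₀ hne,
    ← smul_eq_algebraMap_mul, coeff_smulC, brInf_apply, qExpand_coeff_mul] at h1
  exact h1

include L w hq hA hπ hqM in
/-- A function regular outside the two cusps can be normalised. -/
theorem normalizable_cusp {f : modularFunctionFieldBar (M * q)}
    (hf : RegOff (cuspInf (M * q)) (cuspZero w hq) f) (hf0 : f ≠ 0) :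
    Normalizable A π (f : LaurentSeries ℚbar) := by
  obtain ⟨c, hc, hb⟩ := L.exists_bound w hq hπ hqM hf
  exact normalizable_of_bounded hq hA π f.2 (fun h => hf0 (Subtype.ext h)) hc hb

include w hq hπ hqM in
/-- The reduction of such a function is regular on the reduced curve of level `M`. -/
theorem red_mem_cusp {f : modularFunctionFieldBar (M * q)}
    (hf : RegOff (cuspInf (M * q)) (cuspZero w hq) f) {x : LaurentSeries k}
    (hx : Red A π (f : LaurentSeries ℚbar) x)
    (hw : ∀ i, (wEquiv w hq f : LaurentSeries ℚbar).coeff i ∈ A) : x ∈ L.C := by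
  classical
  obtain ⟨ζ, u, hζ, huζ, hu1⟩ := exists_zeta (π := π) hq
  obtain ⟨g, xg, n, -, -, -, -, -, -, hga⟩ := L.exists_gen hq hπ
  refine L.red_mem (trAlpha f) (regM_trAlpha w hq hf) x ?_
  obtain ⟨fA, hfA, hfAx⟩ := red_iff_exists.mp hx
  obtain ⟨x', hx'⟩ := exists_red_of_coeff_mem π hw
  obtain ⟨wA, hwA, hwAx⟩ := red_iff_exists.mp hx'
  have hred : Red A π (qExpand ℚbar q (trAlpha f : LaurentSeries ℚbar)) (qExpand k q x) := by
    rw [qExpand_trAlpha w hq hζ hqM hga]
    refine red_iff_exists.mpr ⟨qExpand A q fA + ∑ i : Fin q, twist (u ^ (i : ℕ)) wA, ?_, ?_⟩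
    · rw [map_add, map_sum, coeffMap_qExpand, hfA, brInf_apply]
      refine congrArg _ (Finset.sum_congr rfl fun i _ => ?_)
      rw [br_apply, coeffMap_twist, hwA, map_pow]
      congr 2
      exact congrArg (· ^ (i : ℕ)) (Units.ext huζ)
    · rw [map_add, map_sum, coeffMap_qExpand, hfAx]
      simp only [red_twist_one hu1, Finset.sum_const, Finset.card_univ, Fintype.card_fin]
      rw [nsmul_eq_mul, ← map_natCast (algebraMap k (LaurentSeries k)), CharP.cast_eq_zero,
        map_zero, zero_mul, add_zero]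
  intro i
  obtain ⟨hi, hπi⟩ := hred ((q : ℤ) * i)
  simp only [qExpand_coeff_mul] at hi hπi
  exact ⟨hi, hπi⟩

end LevelData

end Fermat.Agent.Semistable
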