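import Fermat.Agent.Semistable.Cusps
import Fermat.Agent.Igusa.QSeries
import Mathlib.FieldTheory.PrimitiveElement
import Mathlib.RingTheory.Trace.Basic

/-!
# The `q + 1` expansions of `ℚ̄(X₀(qM))` over `ℚ̄(X₀(M))` and the trace
-/

set_option autoImplicit false

noncomputable section

open ModularCurve AlgebraicCurve Fermat.Agent.Reduction
open Fermat.Agent.Igusa (twist twist_coeff)

namespace Fermat.Agent.Semistable

local notation "ℚbar" => AlgebraicClosure ℚ

variable {q M : ℕ} [NeZero q] [NeZero M] (w : ALData q M) (hq : q.Prime)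

/-- The expansion at `∞` in `t`, `t ^ q` the parameter of level `M`. -/
def brInf : modularFunctionFieldBar (M * q) →+* LaurentSeries ℚbar :=
  (qExpand ℚbar q).comp (expInf (M * q)).toRingHom

/-- The expansion at `0` in `u t`. -/
def br (u : ℚbarˣ) : modularFunctionFieldBar (M * q) →+* LaurentSeries ℚbar :=
  (twist u).comp (expZero w hq).toRingHom

omit [NeZero M] in
theorem brInf_apply (f : modularFunctionFieldBar (M * q)) :
    brInf (q := q) (M := M) f = qExpand ℚbar q (f : LaurentSeries ℚbar) := rfl

theorem br_apply (u : ℚbarˣ) (f : modularFunctionFieldBar (M * q)) :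
    br w hq u f = twist u (wEquiv w hq f : LaurentSeries ℚbar) := rfl

theorem brInf_alpha (x : modularFunctionFieldBar M) :
    brInf (heckeAlphaBar ℚbar M q x) = qExpand ℚbar q (x : LaurentSeries ℚbar) := by
  rw [brInf_apply, coe_heckeAlphaBar]

theorem twist_qExpand_of_pow_eq_one {u : ℚbarˣ} (hu : u ^ q = 1) (s : LaurentSeries ℚbar) :
    twist u (qExpand ℚbar q s) = qExpand ℚbar q s := by
  ext n
  rw [twist_coeff]
  by_cases hn : (q : ℤ) ∣ n
  · obtain ⟨m, rfl⟩ := hn
    rw [zpow_mul, zpow_natCast, hu, one_zpow, Units.val_one, one_mul]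
  · rw [qExpand_coeff_of_not_dvd q _ hn, mul_zero]

theorem br_alpha {u : ℚbarˣ} (hu : u ^ q = 1) (x : modularFunctionFieldBar M) :
    br w hq u (heckeAlphaBar ℚbar M q x) = qExpand ℚbar q (x : LaurentSeries ℚbar) := by
  rw [br_apply, wEquiv_heckeAlphaBar, coe_heckeBetaBar, twist_qExpand_of_pow_eq_one hu]

omit [NeZero M] in
theorem brInf_beta (x : modularFunctionFieldBar M) :
    brInf (heckeBetaBar ℚbar M q x) =
      qExpand ℚbar q (qExpand ℚbar q (x : LaurentSeries ℚbar)) := by
  rw [brInf_apply, coe_heckeBetaBar]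

theorem br_beta (u : ℚbarˣ) (x : modularFunctionFieldBar M) :
    br w hq u (heckeBetaBar ℚbar M q x) = twist u (x : LaurentSeries ℚbar) := by
  rw [br_apply, wEquiv_heckeBetaBar, coe_heckeAlphaBar]

variable {ζ : ℚbar} (hζ : IsPrimitiveRoot ζ q)

/-- A primitive root as a unit. -/
def zu : ℚbarˣ := (hζ.isUnit (NeZero.ne q)).unit

theorem zu_pow (i : Fin q) : (zu hζ ^ (i : ℕ)) ^ q = 1 := by
  have h1 : zu hζ ^ q = 1 := Units.ext (by simpa [zu] using hζ.pow_eq_one)
  rw [← pow_mul, mul_comm, pow_mul, h1, one_pow]

/-- All the branches. -/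
def branch : Option (Fin q) → (modularFunctionFieldBar (M * q) →+* LaurentSeries ℚbar)
  | none => brInf
  | some i => br w hq (zu hζ ^ (i : ℕ))

theorem branch_alpha (o : Option (Fin q)) (x : modularFunctionFieldBar M) :
    branch w hq hζ o (heckeAlphaBar ℚbar M q x) = qExpand ℚbar q (x : LaurentSeries ℚbar) := by
  cases o with
  | none => exact brInf_alpha x
  | some i => exact br_alpha w hq (zu_pow hζ i) x

theorem branch_injective {g : modularFunctionFieldBar M}
    (hga : ¬ (q : ℤ) ∣ (g : LaurentSeries ℚbar).order) :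
    Function.Injective fun o => branch w hq hζ o (heckeBetaBar ℚbar M q g) := by
  set s := (g : LaurentSeries ℚbar)
  have hs0 : s ≠ 0 := fun h => hga (by rw [h, HahnSeries.order_zero]; exact dvd_zero _)
  have hsc : s.coeff s.order ≠ 0 := fun h => hs0 (HahnSeries.coeff_order_eq_zero.mp h)
  have hne : ∀ i : Fin q, qExpand ℚbar q (qExpand ℚbar q s) ≠ twist (zu hζ ^ (i : ℕ)) s := by
    intro i h
    have h1 := congrArg (fun t : LaurentSeries ℚbar => t.coeff s.order) h
    simp only [twist_coeff, qExpand_coeff_of_not_dvd q _ hga] at h1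
    exact mul_ne_zero (Units.ne_zero _) hsc h1.symm
  intro o o' h
  cases o with
  | none =>
    cases o' with
    | none => rfl
    | some i => simp only [branch, brInf_beta, br_beta] at h; exact absurd h (hne i)
  | some i =>
    cases o' with
    | none => simp only [branch, brInf_beta, br_beta] at h; exact absurd h.symm (hne i)
    | some j =>
      simp only [branch, br_beta] at h
      have h1 := congrArg (fun t : LaurentSeries ℚbar => t.coeff s.order) h
      simp only [twist_coeff] at h1
      have h2 : (zu hζ ^ (i : ℕ)) ^ s.order = (zu hζ ^ (j : ℕ)) ^ s.order :=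
        Units.ext (mul_right_cancel₀ hsc h1)
      have hzu : IsPrimitiveRoot (zu hζ) q := hζ.isUnit_unit (NeZero.ne q)
      rw [← zpow_natCast, ← zpow_natCast, ← zpow_mul, ← zpow_mul,
        ← mul_inv_eq_one, ← zpow_sub, hzu.zpow_eq_one_iff_dvd, ← sub_mul] at h2
      have hcop : IsCoprime (q : ℤ) s.order :=
        (Prime.coprime_iff_not_dvd (Nat.prime_iff_prime_int.mp hq)).mpr hga
      have hdvd := hcop.dvd_of_dvd_mul_right h2
      congr 1
      ext
      have hi := i.2
      have hj := j.2
      rcases hdvd with ⟨c, hc⟩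
      have : c = 0 := by nlinarith
      subst this
      omega

/-- The trace to level `M`. -/
def trAlpha (f : modularFunctionFieldBar (M * q)) : modularFunctionFieldBar M :=
  letI := algebraAlong (heckeAlphaBar ℚbar M q)
  Algebra.trace (modularFunctionFieldBar M) (modularFunctionFieldBar (M * q)) f

include w hq hζ in
theorem qExpand_trAlpha (hqM : ¬ q ∣ M) {g : modularFunctionFieldBar M}
    (hga : ¬ (q : ℤ) ∣ (g : LaurentSeries ℚbar).order) (f : modularFunctionFieldBar (M * q)) :
    qExpand ℚbar q (trAlpha f : LaurentSeries ℚbar) =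
      brInf f + ∑ i : Fin q, br w hq (zu hζ ^ (i : ℕ)) f := by
  classical
  let _ := algebraAlong (heckeAlphaBar ℚbar M q)
  have : FiniteDimensional (modularFunctionFieldBar M) (modularFunctionFieldBar (M * q)) :=
    FF.finiteAlong (heckeAlphaBar ℚbar M q)
  have : CharZero (modularFunctionFieldBar M) :=
    charZero_of_injective_algebraMap (algebraMap ℚbar (modularFunctionFieldBar M)).injective
  let a : LaurentSeries ℚbar →+* AlgebraicClosure (LaurentSeries ℚbar) :=
    algebraMap (LaurentSeries ℚbar) (AlgebraicClosure (LaurentSeries ℚbar))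
  let _ : Algebra (modularFunctionFieldBar M) (AlgebraicClosure (LaurentSeries ℚbar)) :=
    (a.comp ((qExpand ℚbar q).comp (expInf M).toRingHom)).toAlgebra
  let Φ : Option (Fin q) → (modularFunctionFieldBar (M * q) →ₐ[modularFunctionFieldBar M]
      AlgebraicClosure (LaurentSeries ℚbar)) := fun o =>
    { a.comp (branch w hq hζ o) with
      commutes' := fun x => congrArg a (branch_alpha w hq hζ o x) }
  have hΦ : Function.Injective Φ := fun o o' h => by
    have h1 := AlgHom.congr_fun h (heckeBetaBar ℚbar M q g)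
    exact branch_injective w hq hζ hga (a.injective h1)
  have hcard : Fintype.card (modularFunctionFieldBar (M * q) →ₐ[modularFunctionFieldBar M]
      AlgebraicClosure (LaurentSeries ℚbar)) = Fintype.card (Option (Fin q)) := by
    rw [AlgHom.card, Fintype.card_option, Fintype.card_fin]
    have h := finrankAlong_alpha (q := q) (M := M) hq hqM
    unfold finrankAlong at h
    exact_mod_cast h
  have hbij : Function.Bijective Φ :=
    (Fintype.bijective_iff_injective_and_card Φ).mpr ⟨hΦ, hcard.symm⟩
  apply a.injective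
  have htr := trace_eq_sum_embeddings (K := modularFunctionFieldBar M)
    (E := AlgebraicClosure (LaurentSeries ℚbar)) (x := f)
  rw [← hbij.sum_comp (fun σ => σ f), Fintype.sum_option] at htr
  rw [map_add, map_sum]
  exact htr

include w hq hζ in
/-- Lagrange's identity. -/
theorem brInf_mul_eval (hqM : ¬ q ∣ M) {g : modularFunctionFieldBar M}
    (hga : ¬ (q : ℤ) ∣ (g : LaurentSeries ℚbar).order) (f y : modularFunctionFieldBar (M * q))
    {P : Polynomial (LaurentSeries ℚbar)}
    (hP : ∀ i : Fin q, P.eval (br w hq (zu hζ ^ (i : ℕ)) y) = 0) :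
    brInf f * P.eval (brInf y) = ∑ k ∈ Finset.range (P.natDegree + 1),
      P.coeff k * qExpand ℚbar q (trAlpha (f * y ^ k) : LaurentSeries ℚbar) := by
  simp only [qExpand_trAlpha w hq hζ hqM hga, map_mul, map_pow, mul_add, Finset.sum_add_distrib,
    Finset.mul_sum]
  rw [Finset.sum_comm, Finset.sum_eq_zero (s := (Finset.univ : Finset (Fin q))), add_zero]
  · rw [Polynomial.eval_eq_sum_range, Finset.mul_sum]
    exact Finset.sum_congr rfl fun k _ => by ring
  · intro i _
    calc _ = br w hq (zu hζ ^ (i : ℕ)) f * P.eval (br w hq (zu hζ ^ (i : ℕ)) y) := by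
          rw [Polynomial.eval_eq_sum_range, Finset.mul_sum]
          exact Finset.sum_congr rfl fun k _ => by ring
      _ = 0 := by rw [hP, mul_zero]

include w hq in
theorem restrict_cusp (hα : (heckeAlphaBar ℚbar M q).toRingHom.IsIntegral)
    {v : Place ℚbar (modularFunctionFieldBar (M * q))}
    (hv : v = cuspInf (M * q) ∨ v = cuspZero w hq) :
    v.restrictAlong (heckeAlphaBar ℚbar M q) hα = cuspInf M := by
  by_contra hne
  obtain ⟨x, hx, hxu⟩ := FF.exists_ord_neg_unique (cuspInf M)
  have h := Place.ord_restrictAlong (heckeAlphaBar ℚbar M q) hα v x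
  have h0 : 0 ≤ v.ord (heckeAlphaBar ℚbar M q x) := by
    rw [h]; exact mul_nonneg (Int.natCast_nonneg _) (hxu _ hne)
  rw [ord_cuspInf] at hx
  rcases hv with rfl | rfl
  · rw [ord_cuspInf_alpha] at h0
    omega
  · rw [ord_cuspZero_alpha] at h0
    have : (0 : ℤ) < q := by exact_mod_cast hq.pos
    nlinarith

include w hq in
/-- Traces of functions regular outside the two cusps are regular outside `∞`. -/
theorem regM_trAlpha {f : modularFunctionFieldBar (M * q)}
    (hf : RegOff (cuspInf (M * q)) (cuspZero w hq) f) : RegM (trAlpha f) := by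
  intro v hv
  classical
  let _ := algebraAlong (heckeAlphaBar ℚbar M q)
  have := isScalarTower_along (heckeAlphaBar ℚbar M q)
  have : Module.Finite (modularFunctionFieldBar M) (modularFunctionFieldBar (M * q)) :=
    FF.finiteAlong (heckeAlphaBar ℚbar M q)
  have hα := FF.isIntegralAlong (heckeAlphaBar ℚbar M q)
  obtain ⟨b, hb, hrepr⟩ := FF.exists_semiLocal_basis (F' := modularFunctionFieldBar (M * q)) v
  have hfs : f ∈ FF.semiLocal (modularFunctionFieldBar (M * q)) v := fun u hu => by
    have hu' : u.restrictAlong (heckeAlphaBar ℚbar M q) hα = v := Place.mem_fiber.mp hu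
    refine hf u (fun h => hv ?_) (fun h => hv ?_) <;> rw [← hu']
    exacts [restrict_cusp w hq hα (Or.inl h), restrict_cusp w hq hα (Or.inr h)]
  refine FF.ord_nonneg_of_mem v ?_
  rw [show trAlpha f = Algebra.trace (modularFunctionFieldBar M)
    (modularFunctionFieldBar (M * q)) f from rfl, Algebra.trace_eq_matrix_trace b, Matrix.trace]
  refine sum_mem fun i _ => ?_
  rw [Matrix.diag_apply, Algebra.leftMulMatrix_eq_repr_mul]
  exact hrepr _ (Subalgebra.mul_mem _ hfs (hb i)) i

end Fermat.Agent.Semistable
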