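import Fermat.Agent.Semistable.Lifting

/-!
# Torsion classes on a two-sheeted reduction

A torsion class is a degree zero divisor `E`, non-positive outside the cusps, with `m • E = -div G`
and `G` reducing to `ū • η ^ m`. The functions of `L(E + n (∞) + n (0))` then reduce to `η` times
pairs whose values at each node lie on one line.
-/

set_option autoImplicit false

noncomputable section

namespace Fermat.Agent.Semistable

open HahnSeries AlgebraicCurve ModularCurve Fermat.Agent.Reduction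

variable {K F k : Type*} [Field K] [Field F] [Algebra K F] [Field k] {A : ValuationSubring K}
  {π : A →+* k} {q : ℕ} [NeZero q] (S : Sheets A π q F)

/-- Scaling the two components. -/
def scale2 (c : k × k) (x : Ser2 k) : Ser2 k := (c.1 • x.1, c.2 • x.2)

theorem scale2_mul (c d : k × k) (x y : Ser2 k) :
    scale2 c x * scale2 d y = scale2 (c * d) (x * y) := by
  refine Prod.ext ?_ ?_ <;>
    simp only [scale2, Prod.fst_mul, Prod.snd_mul, smul_eq_algebraMap_mul, map_mul] <;> ring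

theorem scale2_one (x : Ser2 k) : scale2 1 x = x := Prod.ext (one_smul k x.1) (one_smul k x.2)

/-- Multiplication by a pair. -/
def mulPair {R : Type*} [Field R] (η : Ser2 R) : Ser2 R →ₗ[R] Ser2 R where
  toFun x := η * x
  map_add' a b := mul_add η a b
  map_smul' c x := by
    refine Prod.ext ?_ ?_ <;>
      simp only [RingHom.id_apply, Prod.fst_mul, Prod.snd_mul, Prod.smul_fst, Prod.smul_snd,
        smul_eq_algebraMap_mul] <;> ring

@[simp]
theorem mulPair_apply {R : Type*} [Field R] (η x : Ser2 R) : mulPair η x = η * x := rfl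

theorem order_pow_eq {R : Type*} [Field R] {y : LaurentSeries R} (hy : y ≠ 0) (n : ℕ) :
    (y ^ n).order = (n : ℤ) * y.order := by
  induction n with
  | zero => simp
  | succ j ih => rw [pow_succ, HahnSeries.order_mul (pow_ne_zero j hy) hy, ih]; push_cast; ring

namespace Sheets

/-- A torsion class with the reduction of its Kummer function. -/
structure Datum (m : ℕ) where
  E : Divisor K F
  G : F
  η : Ser2 k
  ū : k × k
  neg : S.Neg E
  deg : Divisor.degree E = 0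
  G_ne : G ≠ 0
  ord_G : ∀ v, v.ord G = -((m : ℤ) * E v)
  red_G : Red2 A π (S.T G) (scale2 ū (η ^ m))
  η₁_mem : η.1 ∈ S.C
  η₂_mem : η.2 ∈ S.C
  η₁_ne : η.1 ≠ 0
  η₂_ne : η.2 ≠ 0
  u₁_ne : ū.1 ≠ 0
  u₂_ne : ū.2 ≠ 0

variable {S} {m : ℕ}

theorem div_mem_L {E E' : Divisor K F} {n : ℤ} {f h : F} (hf : f ∈ S.L E n) (_hh : h ≠ 0)
    (hd : ∀ v, v.ord h = E' v) : f / h ∈ S.L (E + E') n := by
  rw [mem_L] at hf ⊢
  intro v
  have h2 : h⁻¹ ∈ FF.ordGE v (-E' v) := FF.mem_ordGE_of_le_ord v (by rw [v.ord_inv, hd])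
  have := FF.mul_mem_ordGE v (hf v) h2
  rw [div_eq_mul_inv]
  convert this using 2
  simp only [Finsupp.add_apply]
  ring

variable (d : S.Datum m)

theorem Datum.mul_ne (c : k × k) (h1 : c.1 ≠ 0) (h2 : c.2 ≠ 0) {x : Ser2 k} (hx1 : x.1 ≠ 0)
    (hx2 : x.2 ≠ 0) : (scale2 c x).1 ≠ 0 ∧ (scale2 c x).2 ≠ 0 := by
  constructor <;> simp only [scale2, smul_eq_algebraMap_mul] <;>
    exact mul_ne_zero ((map_ne_zero _).mpr ‹_›) ‹_›

theorem Datum.red_G_ne : (scale2 d.ū (d.η ^ m)).1 ≠ 0 ∧ (scale2 d.ū (d.η ^ m)).2 ≠ 0 :=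
  Datum.mul_ne _ d.u₁_ne d.u₂_ne (pow_ne_zero m d.η₁_ne) (pow_ne_zero m d.η₂_ne)

/-- The quotient of `m` functions by `G`. -/
theorem Datum.exists_red_quot {n : ℤ} {P : F} (hP : P ∈ S.L ((m : ℤ) • d.E) n) {x : Ser2 k}
    (hx : Red2 A π (S.T P) x) :
    ∃ z, z ∈ redPair S.surj S.T (S.L 0 n) ∧ scale2 d.ū (d.η ^ m) * z = x := by
  have hr : P / d.G ∈ S.L 0 n := by
    have h1 : P / d.G ∈ S.L ((m : ℤ) • d.E + -((m : ℤ) • d.E)) n :=
      div_mem_L hP d.G_ne fun v => by simp [d.ord_G]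
    rwa [add_neg_cancel] at h1
  have hGr : d.G * (P / d.G) = P := mul_div_cancel₀ P d.G_ne
  obtain ⟨z, hz, he⟩ := exists_red2_of_mul (reg_of_mem_L S.neg_zero' hr) d.red_G d.red_G_ne.1
    d.red_G_ne.2 (hGr.symm ▸ hx)
  exact ⟨z, ⟨_, hr, hz⟩, he⟩

theorem mem_of_scale {c : k} {z : LaurentSeries k} (hz : z ∈ S.C) : c • z ∈ S.C := by
  rw [smul_eq_algebraMap_mul]
  exact S.C.mul_mem (S.C.algebraMap_mem c) hz

theorem eq_scale_of_mul_eq {c : k} {e y a z : LaurentSeries k} (he : e ≠ 0)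
    (h : c • e * z = y) (hy : y = e * a) : a = c • z := by
  subst hy
  rw [smul_eq_algebraMap_mul] at h ⊢
  refine mul_left_cancel₀ he ?_
  rw [← h]
  ring

/-- **Reductions are `η` times pairs of level `M` functions of the same pole order.** -/
theorem Datum.exists_eq_mul (hm : 0 < m) {n : ℤ} {f : F} (hf : f ∈ S.L d.E n) {x : Ser2 k}
    (hx : Red2 A π (S.T f) x) : ∃ a ∈ S.Ole n, x = d.η * a := by
  obtain ⟨z, hz, he⟩ := d.exists_red_quot (pow_mem_L hf m)
    (x := x ^ m) (by rw [S.T_pow]; exact hx.pow m)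
  obtain ⟨hzO, -⟩ := redPair_L_le _ hz
  obtain ⟨hx1, hx2⟩ := (reg_of_mem_L d.neg hf).red_mem hx
  set a : Ser2 k := (x.1 / d.η.1, x.2 / d.η.2) with ha
  have hxa : x = d.η * a :=
    Prod.ext (by simp [ha, mul_div_cancel₀ _ d.η₁_ne]) (by simp [ha, mul_div_cancel₀ _ d.η₂_ne])
  have key : ∀ {c : k} {e y w : LaurentSeries k}, e ∈ S.C → e ≠ 0 → y ∈ S.C → w ∈ S.C →
      PoleLE (m * n) w → c • e ^ m * w = y ^ m → y / e ∈ S.Cle n := by
    intro c e y w heC he0 hy hw hwp hrel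
    have hpow : (y / e) ^ m = c • w := by
      rw [div_pow]
      refine eq_scale_of_mul_eq (pow_ne_zero m he0) hrel ?_
      rw [mul_div_cancel₀ _ (pow_ne_zero m he0)]
    have hC : y / e ∈ S.C := S.normal _ e heC he0 (by rwa [div_mul_cancel₀ _ he0]) m hm
      (hpow ▸ mem_of_scale hw)
    refine ⟨?_, hC⟩
    show PoleLE n (y / e)
    rcases eq_or_ne (y / e) 0 with h0 | h0
    · rw [h0]; exact fun _ _ => rfl
    rw [poleLE_iff_order h0]
    have h1 : PoleLE (m * n) ((y / e) ^ m) := hpow ▸ (poleLESubmodule k _).smul_mem c hwp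
    rw [poleLE_iff_order (pow_ne_zero m h0)] at h1
    have hord : ((y / e) ^ m).order = (m : ℤ) * (y / e).order := order_pow_eq h0 m
    rw [hord] at h1
    nlinarith
  refine ⟨a, ⟨key (c := d.ū.1) d.η₁_mem d.η₁_ne hx1 hzO.1.2 hzO.1.1 ?_,
    key (c := d.ū.2) d.η₂_mem d.η₂_ne hx2 hzO.2.2
    hzO.2.1 ?_⟩, hxa⟩
  · exact congrArg Prod.fst he
  · exact congrArg Prod.snd he

/-- The pairs `a` with `η * a` a reduction from `L(E + n (∞) + n (0))`. -/
def Datum.V (d : S.Datum m) (n : ℤ) : Submodule k (Ser2 k) :=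
  S.Ole n ⊓ (redPair S.surj S.T (S.L d.E n)).comap (mulPair d.η)

theorem Datum.V_mono {n n' : ℤ} (h : n ≤ n') : d.V n ≤ d.V n' := fun _ ha =>
  ⟨⟨S.Cle_mono h ha.1.1, S.Cle_mono h ha.1.2⟩, redPair_mono S.surj S.T (S.L_mono _ h) ha.2⟩

theorem Datum.mulPair_injective : Function.Injective (mulPair d.η) := fun _ _ h =>
  Prod.ext (mul_left_cancel₀ d.η₁_ne (congrArg Prod.fst h))
    (mul_left_cancel₀ d.η₂_ne (congrArg Prod.snd h))

theorem Datum.mem_V_of_red (hm : 0 < m) {n : ℤ} {f : F} (hf : f ∈ S.L d.E n) {a : Ser2 k}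
    (hx : Red2 A π (S.T f) (d.η * a)) : a ∈ d.V n := by
  obtain ⟨a', ha', he⟩ := d.exists_eq_mul hm hf hx
  obtain rfl := d.mulPair_injective he
  exact ⟨ha', f, hf, hx⟩

theorem Datum.map_V (hm : 0 < m) (n : ℤ) :
    (d.V n).map (mulPair d.η) = redPair S.surj S.T (S.L d.E n) := by
  refine le_antisymm ?_ fun x hx => ?_
  · rintro _ ⟨a, ha, rfl⟩
    exact ha.2
  · obtain ⟨f, hf, hfx⟩ := hx
    obtain ⟨a, ha, rfl⟩ := d.exists_eq_mul hm hf hfx
    exact ⟨a, ⟨ha, f, hf, hfx⟩, rfl⟩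

theorem Datum.finrank_V [IsAlgClosed K] [FF.IsFunctionField K F] (hm : 0 < m) (n : ℤ) :
    Module.finrank k (d.V n) = FF.ell (d.E + S.bd n) := by
  rw [(Submodule.equivMapOfInjective _ d.mulPair_injective (d.V n)).finrank_eq, d.map_V hm,
    finrank_redPair S.surj _ _ fun f hf hf0 => (reg_of_mem_L d.neg hf).normalizable2 hf0]
  rfl

theorem Datum.exists_finrank_V [IsAlgClosed K] [FF.IsFunctionField K F] [IsAlgClosed k]
    (hm : 0 < m) : ∃ N : ℤ, ∀ n, N ≤ n →
      Module.finrank k (d.V n) + Nat.card S.Node = Module.finrank k (S.Ole n) := by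
  obtain ⟨N₁, hN₁⟩ := S.exists_ell_eq d.deg
  obtain ⟨N₂, hN₂⟩ := S.exists_ell_bd
  exact ⟨max N₁ N₂, fun n hn => by
    rw [d.finrank_V hm, hN₁ n ((le_max_left _ _).trans hn)]
    exact (hN₂ n ((le_max_right _ _).trans hn)).1⟩

/-- **The values of two elements at a node are related.** -/
theorem Datum.node_rel [IsAlgClosed k] (hm : 0 < m) {n : ℤ} {a a' : S.Ole n}
    (ha : (a : Ser2 k) ∈ d.V n)
    (ha' : (a' : Ser2 k) ∈ d.V n) (u : S.Node) :
    d.ū.2 * ((S.evNode n a u).1 ^ (m - 1) * (S.evNode n a' u).1) =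
      d.ū.1 * ((S.evNode n a u).2 ^ (m - 1) * (S.evNode n a' u).2) := by
  obtain ⟨-, f, hf, hfx⟩ := ha
  obtain ⟨-, f', hf', hfx'⟩ := ha'
  have hP : f ^ (m - 1) * f' ∈ S.L ((m : ℤ) • d.E) ((m : ℤ) * n) := by
    have := mul_mem_L (pow_mem_L hf (m - 1)) hf'
    rwa [show ((m - 1 : ℕ) : ℤ) • d.E + d.E = (m : ℤ) • d.E by
        conv_lhs => rw [← one_smul ℤ d.E, smul_smul, mul_one, ← add_smul]
        congr 1
        omega,
      show ((m - 1 : ℕ) : ℤ) * n + n = (m : ℤ) * n by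
        rw [show ((m : ℤ)) = ((m - 1 : ℕ) : ℤ) + 1 by omega]; ring] at this
  have hred : Red2 A π (S.T (f ^ (m - 1) * f'))
      (d.η ^ m * ((a : Ser2 k) ^ (m - 1) * (a' : Ser2 k))) := by
    rw [S.T_mul, S.T_pow]
    have := (hfx.pow (m - 1)).mul hfx'
    rwa [mulPair_apply, mulPair_apply, mul_pow, mul_mul_mul_comm, ← pow_succ,
      Nat.sub_add_cancel hm] at this
  obtain ⟨z, hz, he⟩ := d.exists_red_quot hP hred
  obtain ⟨⟨⟨-, hz1⟩, ⟨-, hz2⟩⟩, hzC⟩ := redPair_L_le _ hz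
  have e1 := eq_scale_of_mul_eq (pow_ne_zero m d.η₁_ne) (congrArg Prod.fst he) rfl
  have e2 := eq_scale_of_mul_eq (pow_ne_zero m d.η₂_ne) (congrArg Prod.snd he) rfl
  set Z : S.C × S.C := (⟨z.1, hz1⟩, ⟨z.2, hz2⟩)
  have hu : u.1 Z.1 = S.flip u.1 Z.2 := (isCbar_iff Z).mp (show S.IsCbar (pr Z) from hzC) u
  have g1 : (S.elt a).1 ^ (m - 1) * (S.elt a').1 = algebraMap k S.C d.ū.1 * Z.1 :=
    Subtype.ext (e1.trans (smul_eq_algebraMap_mul _ _))
  have g2 : (S.elt a).2 ^ (m - 1) * (S.elt a').2 = algebraMap k S.C d.ū.2 * Z.2 :=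
    Subtype.ext (e2.trans (smul_eq_algebraMap_mul _ _))
  have h1 := congrArg (u.1 : S.Pt) g1
  have h2 := congrArg (S.flip u.1) g2
  rw [Pt.map_mul, Pt.map_mul, Pt.map_algebraMap,
    show (u.1 : S.Pt) ((S.elt a).1 ^ (m - 1)) = (u.1 : S.Pt) (S.elt a).1 ^ (m - 1) from
      _root_.map_pow u.1.1 _ _] at h1
  rw [Pt.map_mul, Pt.map_mul, Pt.map_algebraMap,
    show S.flip u.1 ((S.elt a).2 ^ (m - 1)) = S.flip u.1 (S.elt a).2 ^ (m - 1) from
      _root_.map_pow (S.flip u.1).1 _ _] at h2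
  show d.ū.2 * ((u.1 : S.Pt) (S.elt a).1 ^ (m - 1) * (u.1 : S.Pt) (S.elt a').1) =
    d.ū.1 * (S.flip u.1 (S.elt a).2 ^ (m - 1) * S.flip u.1 (S.elt a').2)
  rw [h1, h2, hu]
  ring

theorem Datum.ne_zero_of_value [IsAlgClosed k] (hm : 0 < m) {n : ℤ} {a : S.Ole n}
    (ha : (a : Ser2 k) ∈ d.V n) {u : S.Node} (h : S.evNode n a u ≠ 0) :
    (S.evNode n a u).1 ≠ 0 ∧ (S.evNode n a u).2 ≠ 0 := by
  have hr := d.node_rel hm ha ha u
  rw [← pow_succ, ← pow_succ, Nat.sub_add_cancel hm] at hr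
  constructor <;> intro h0 <;> apply h <;> rw [h0, zero_pow hm.ne', mul_zero] at hr
  · exact Prod.ext h0 (eq_zero_of_pow_eq_zero
      ((mul_eq_zero.mp hr.symm).resolve_left d.u₁_ne))
  · exact Prod.ext (eq_zero_of_pow_eq_zero ((mul_eq_zero.mp hr).resolve_left d.u₂_ne)) h0

/-- **Every node sees a nonzero value.** -/
theorem Datum.exists_value_ne_zero [IsAlgClosed K] [FF.IsFunctionField K F] [IsAlgClosed k]
    (hm : 0 < m) : ∃ N : ℤ, ∀ n, N ≤ n → ∀ u : S.Node, ∃ a : S.Ole n,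
      (a : Ser2 k) ∈ d.V n ∧ (S.evNode n a u).1 ≠ 0 ∧ (S.evNode n a u).2 ≠ 0 := by
  classical
  obtain ⟨N₁, hN₁⟩ := d.exists_finrank_V hm
  obtain ⟨N₂, hN₂⟩ := S.exists_evNode_surjective
  refine ⟨max N₁ N₂, fun n hn u₀ => ?_⟩
  by_contra hne
  push Not at hne
  have : Fintype S.Node := Fintype.ofFinite _
  have := S.finiteDimensional_Ole n
  set W : Submodule k (S.Ole n) := (d.V n).comap (S.Ole n).subtype
  have hWdim : Module.finrank k W = Module.finrank k (d.V n) :=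
    (Submodule.comapSubtypeEquivOfLe inf_le_left).finrank_eq
  set e : W →ₗ[k] (S.Node → k × k) := (S.evNode n).comp W.subtype
  -- the values are determined by the first component away from `u₀`
  have hzero : ∀ a : W, S.evNode n a u₀ = 0 := fun a => by
    by_contra h
    exact absurd (d.ne_zero_of_value hm a.2 h).2 (by
      simpa using hne a a.2 (d.ne_zero_of_value hm a.2 h).1)
  have hfst : ∀ a : W, (∀ u, u ≠ u₀ → (S.evNode n a u).1 = 0) → e a = 0 := fun a ha => by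
    funext u
    by_contra h
    rcases eq_or_ne u u₀ with rfl | hu
    · exact h (hzero a)
    · exact (d.ne_zero_of_value hm a.2 h).1 (ha u hu)
  let p : W →ₗ[k] ({u : S.Node // u ≠ u₀} → k) :=
    { toFun := fun a u => (S.evNode n a u.1).1
      map_add' := fun a b => by funext u; simp
      map_smul' := fun c a => by funext u; simp }
  have hker : LinearMap.ker p = LinearMap.ker e := by
    ext a
    simp only [LinearMap.mem_ker]
    constructor
    · exact fun h => hfst a fun u hu => congrFun h ⟨u, hu⟩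
    · exact fun h => funext fun u => congrArg Prod.fst (congrFun h u.1)
  have h1 := LinearMap.finrank_range_add_finrank_ker (V := W) p
  have h2 : Module.finrank k (LinearMap.range p) ≤ Nat.card S.Node - 1 := by
    refine (Submodule.finrank_le _).trans ?_
    rw [Module.finrank_pi, Fintype.card_subtype_compl, Fintype.card_subtype_eq,
      Nat.card_eq_fintype_card]
  have h3 : Module.finrank k (LinearMap.ker e) ≤ Module.finrank k (LinearMap.ker (S.evNode n)) := by
    refine LinearMap.finrank_le_finrank_of_injective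
      (f := (W.subtype.comp (LinearMap.ker e).subtype).codRestrict (LinearMap.ker (S.evNode n))
        fun a => LinearMap.mem_ker.mpr (LinearMap.mem_ker.mp a.2)) ?_
    intro a b h
    exact Subtype.ext (W.injective_subtype (congrArg Subtype.val h :))
  have h4 := (S.evNode n).finrank_range_add_finrank_ker
  rw [LinearMap.range_eq_top.mpr (hN₂ n ((le_max_right _ _).trans hn)), finrank_top,
    Module.finrank_pi_fintype, Finset.sum_const, Module.finrank_prod, Module.finrank_self,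
    Finset.card_univ, smul_eq_mul, ← Nat.card_eq_fintype_card] at h4
  have h5 := hN₁ n ((le_max_left _ _).trans hn)
  have h6 : 0 < Nat.card S.Node := Nat.card_pos_iff.mpr ⟨⟨u₀⟩, inferInstance⟩
  rw [hker] at h1
  omega

/-- Trivial classes: all values agree at all nodes. -/
def Datum.IsTrivial (d : S.Datum m) : Prop := ∀ n, ∀ a ∈ d.V n, S.IsCbar a

theorem Datum.IsTrivial.exists_V_eq [IsAlgClosed K] [FF.IsFunctionField K F] [IsAlgClosed k]
    (hd : d.IsTrivial) (hm : 0 < m) : ∃ N : ℤ, ∀ n, N ≤ n → d.V n = S.CbarLe n := by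
  obtain ⟨N₁, hN₁⟩ := d.exists_finrank_V hm
  obtain ⟨N₂, hN₂⟩ := S.exists_finrank_CbarLe
  refine ⟨max N₁ N₂, fun n hn => ?_⟩
  have := S.finiteDimensional_Ole n
  have : FiniteDimensional k (S.CbarLe n) :=
    Submodule.finiteDimensional_of_le (S.CbarLe_le_Ole n)
  refine Submodule.eq_of_le_of_finrank_le (fun a ha => ⟨ha.1, hd n a ha⟩) ?_
  have := hN₁ n ((le_max_left _ _).trans hn)
  have := hN₂ n ((le_max_right _ _).trans hn)
  omega

/-- A subspace of pairs bigger than one sheet contains a pair with both components nonzero. -/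
theorem exists_both_ne_zero {n : ℤ} {V : Submodule k (Ser2 k)} (hV : V ≤ S.Ole n)
    (hdim : Module.finrank k (S.Cle n) < Module.finrank k V) :
    ∃ a ∈ V, a.1 ≠ 0 ∧ a.2 ≠ 0 := by
  have := S.finiteDimensional_Cle n
  have key : ∀ (p : Ser2 k →ₗ[k] LaurentSeries k) (p' : Ser2 k →ₗ[k] LaurentSeries k),
      (∀ x ∈ S.Ole n, p x ∈ S.Cle n) → (∀ x, p x = 0 → p' x = 0 → x = 0) →
      ∃ a ∈ V, p' a ≠ 0 := by
    intro p p' hp hinj
    by_contra hne
    push Not at hne
    have : Module.finrank k V ≤ Module.finrank k (S.Cle n) :=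
      LinearMap.finrank_le_finrank_of_injective
        (f := (p.comp V.subtype).codRestrict (S.Cle n) fun a => hp _ (hV a.2))
        fun a b h => by
          have h' : p a = p b := congrArg Subtype.val h
          refine sub_eq_zero.mp (Subtype.ext (hinj _ ?_ ?_))
          · rw [AddSubgroupClass.coe_sub, map_sub, h', sub_self]
          · exact hne _ (a - b).2
    omega
  obtain ⟨a, ha, ha2⟩ := key (LinearMap.fst k _ _) (LinearMap.snd k _ _) (fun x hx => hx.1)
    (fun x h1 h2 => Prod.ext h1 h2)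
  obtain ⟨b, hb, hb1⟩ := key (LinearMap.snd k _ _) (LinearMap.fst k _ _) (fun x hx => hx.2)
    (fun x h1 h2 => Prod.ext h2 h1)
  simp only [LinearMap.fst_apply, LinearMap.snd_apply] at ha2 hb1
  by_cases ha1 : a.1 = 0
  · by_cases hb2 : b.2 = 0
    · exact ⟨a + b, V.add_mem ha hb, by simp [ha1, hb1], by simp [hb2, ha2]⟩
    · exact ⟨b, hb, hb1, hb2⟩
  · exact ⟨a, ha, ha1, ha2⟩

variable (S) in
theorem exists_card_lt : ∃ N : ℤ, ∀ n, N ≤ n →
    Module.finrank k (S.Cle n) + Nat.card S.Node < Module.finrank k (S.Ole n) := by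
  refine ⟨max (S.n₀ : ℤ) (S.gM + Nat.card S.Node), fun n hn => ?_⟩
  have h1 := S.finrank_Cle ((le_max_left _ _).trans hn)
  have h2 := S.finrank_Ole ((le_max_left _ _).trans hn)
  omega

theorem Datum.exists_both [IsAlgClosed K] [FF.IsFunctionField K F] [IsAlgClosed k]
    (hm : 0 < m) : ∃ n, ∃ a ∈ d.V n, a.1 ≠ 0 ∧ a.2 ≠ 0 := by
  obtain ⟨N₁, hN₁⟩ := d.exists_finrank_V hm
  obtain ⟨N₂, hN₂⟩ := S.exists_card_lt
  refine ⟨max N₁ N₂, exists_both_ne_zero (fun a ha => ha.1) ?_⟩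
  have := hN₁ _ (le_max_left N₁ N₂)
  have := hN₂ _ (le_max_right N₁ N₂)
  omega

end Sheets

end Fermat.Agent.Semistable
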