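import Fermat.Agent.Semistable.NormPow
import Fermat.Agent.Semistable.Level
import Fermat.Agent.Carayol.Endgame.Lattice

/-!
# The square of Frobenius at `q ∥ N` on vectors of the Tate lattice killed by the push-forwards
-/

set_option autoImplicit false

noncomputable section

open ModularCurve AlgebraicCurve Matrix IsLocalRing
open Fermat.Agent.GalRep Fermat.Agent.Cosets Fermat.Agent.Kummer
open Fermat.Agent.Carayol.Endgame

namespace Fermat.Agent.Semistable

local notation "ℚbar" => AlgebraicClosure ℚ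
local notation "Γℚbar" => (AlgebraicClosure ℚ ≃ₐ[ℚ] AlgebraicClosure ℚ)

variable {q M : ℕ} [NeZero q] [NeZero M]

/-- **`(φ² - q²)(φ² - 1)` kills the torsion killed by the push-forwards to level `M`.** -/
theorem smul_smul_sub_eq_of_push (hq : q.Prime) (hqM : ¬ q ∣ M) {A : ValuationSubring ℚbar}
    (hA : A.LiesOverPrime q) {φ : Γℚbar} (hφ : A.IsFrobeniusAt φ q) {n : ℕ} (hn : 0 < n)
    (hnq : ¬ q ∣ n) {x : JZero (M * q)} (hx : n • x = 0) (ha : pushA q M x = 0)
    (hb : pushB q M x = 0) : (φ * φ) • ((φ * φ) • x - x) = (q * q) • ((φ * φ) • x - x) := by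
  have : Fact q.Prime := ⟨hq⟩
  have := Gal.isAlgClosed_residueField A
  have := Gal.charP_residueField A hq hA
  obtain ⟨L⟩ := LevelData.nonempty_residue A hA M hqM
  obtain ⟨w⟩ := ALData.exists_of_coprime hq hqM
  exact L.smul_smul_sub_eq hA IsLocalRing.residue_surjective hqM w hq hφ hn hnq hx ha hb

theorem pushA_smul (σ : Γℚbar) (x : JZero (M * q)) :
    pushA q M (σ • x) = σ • pushA q M x :=
  Carayol.pushClass_smul _ (Kummer.heckeAlphaBar_galois M q σ) x

theorem pushB_smul (σ : Γℚbar) (x : JZero (M * q)) :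
    pushB q M (σ • x) = σ • pushB q M x :=
  Carayol.pushClass_smul _ (Kummer.heckeBetaBar_galois M q σ) x

theorem mulVec_eq_of_relation {T J : Type*} [AddCommGroup T] [AddCommGroup J] {d n : ℕ}
    (j : T →+ J) (hj : Function.Injective j) (e : T →+ (Fin d → ZMod n))
    (B : Matrix (Fin d) (Fin d) (ZMod n)) (R : T → T) (R' : J → J)
    (hB : ∀ x, B *ᵥ e x = e (R x)) (hR : ∀ x, j (R x) = R' (j x)) (c : ℕ) (x : T)
    (h : R' (R' (j x) - j x) = c • (R' (j x) - j x)) :
    ((B - (c : Matrix (Fin d) (Fin d) (ZMod n))) * (B - 1)) *ᵥ e x = 0 := by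
  have h0 : R (R x - x) = c • (R x - x) := hj (by rw [hR, map_nsmul, map_sub, hR]; exact h)
  rw [← Matrix.mulVec_mulVec, Matrix.sub_mulVec B 1 (e x), Matrix.one_mulVec, hB, ← map_sub,
    Matrix.sub_mulVec B, hB, Matrix.natCast_mulVec, Nat.cast_smul_eq_nsmul, h0, map_nsmul,
    sub_self]

variable (p : ℕ) [Fact p.Prime] {O : Type} [CommRing O] [IsLocalRing O]
  [IsAdicComplete (maximalIdeal O) O] (hpO : (p : O) ∈ maximalIdeal O)

/-- On vectors killed by all equivariant maps to level `M`. -/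
theorem latticeRepO_sq_sub_mul_sub (hq : q.Prime) (hqp : q ≠ p) (hqM : ¬ q ∣ M)
    {A : ValuationSubring ℚbar} (hA : A.LiesOverPrime q) {φ : Γℚbar} (hφ : A.IsFrobeniusAt φ q)
    {w : Fin (homRank (M * q)) → O}
    (hw : ∀ P : Matrix (Fin (homRank M)) (Fin (homRank (M * q))) ℤ_[p],
      (∀ σ, P * latticeRep (M * q) p σ = latticeRep M p σ * P) →
        P.map (padicHom p O hpO) *ᵥ w = 0) :
    ((latticeRepO (M * q) p O hpO (φ * φ) -
        ((q * q : ℕ) : Matrix (Fin (homRank (M * q))) (Fin (homRank (M * q))) O)) *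
      (latticeRepO (M * q) p O hpO (φ * φ) - 1)) *ᵥ w = 0 := by
  obtain ⟨Pa, hPaR, hPan⟩ := exists_push_matrix p (N := M) (M * q) (pushA q M) pushA_smul
  obtain ⟨Pb, hPbR, hPbn⟩ := exists_push_matrix p (N := M) (M * q) (pushB q M) pushB_smul
  set Tp : Matrix (Fin (homRank (M * q))) (Fin (homRank (M * q))) ℤ_[p] :=
    (latticeRep (M * q) p (φ * φ) -
      ((q * q : ℕ) : Matrix (Fin (homRank (M * q))) (Fin (homRank (M * q))) ℤ_[p])) *
      (latticeRep (M * q) p (φ * φ) - 1) with hTp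
  have hT : Tp.map (padicHom p O hpO) = (latticeRepO (M * q) p O hpO (φ * φ) -
        ((q * q : ℕ) : Matrix (Fin (homRank (M * q))) (Fin (homRank (M * q))) O)) *
      (latticeRepO (M * q) p O hpO (φ * φ) - 1) := by
    rw [hTp, ← RingHom.mapMatrix_apply, map_mul, map_sub, map_sub, map_natCast, map_one,
      RingHom.mapMatrix_apply, ← latticeRepO_apply]
  rw [← hT]
  funext c
  refine eq_zero_of_functionals hpO _ fun n f => ?_
  have h1 := congrFun (functional_mulVec (padicHom p O hpO) f Tp w) c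
  rw [h1]
  obtain ⟨x, hx⟩ := (torsCoord (M * q) (p ^ n)).surjective fun j => f (w j)
  have hzero : ∀ (g : JZero (M * q) →+ JZero M)
      (P : Matrix (Fin (homRank M)) (Fin (homRank (M * q))) ℤ_[p]),
      (∀ σ, P * latticeRep (M * q) p σ = latticeRep M p σ * P) →
      (P.map (PadicInt.toZModPow n) = torsMatrix (M * q) g (p ^ n)) → g x = 0 := by
    intro g P hPR hPn
    have hy := map_mem_tors (N := M) (M * q) g x.2
    have h2 := torsMatrix_mulVec (M * q) g (p ^ n) x ⟨_, hy⟩ rfl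
    rw [hx, ← hPn, ← functional_mulVec (padicHom p O hpO) f, hw P hPR] at h2
    have h3 : (⟨_, hy⟩ : Tors M (p ^ n)) = 0 :=
      (torsCoord M (p ^ n)).injective (by
        rw [← h2, map_zero]
        funext j
        simp)
    exact congrArg Subtype.val h3
  have hrel := smul_smul_sub_eq_of_push (M := M) hq hqM hA hφ
    (pow_pos (Fact.out : p.Prime).pos n)
    (fun hd => hqp ((Nat.prime_dvd_prime_iff_eq hq Fact.out).mp (hq.dvd_of_dvd_pow hd)))
    (x := (x : JZero (M * q))) (nsmul_eq_zero_of_mem _ _ x.2) (hzero _ Pa hPaR (hPan n))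
    (hzero _ Pb hPbR (hPbn n))
  have h4 := mulVec_eq_of_relation (Tors (M * q) (p ^ n)).subtype Subtype.val_injective
    (torsCoord (M * q) (p ^ n)).toLinearMap.toAddMonoidHom (torsRho (M * q) (p ^ n) (φ * φ))
    (fun y => JZero.torsionGaloisRep (M * q) (p ^ n) (φ * φ) y) (fun y => (φ * φ) • y)
    (fun y => torsRho_mulVec (M * q) (p ^ n) (φ * φ) y)
    (fun y => JZero.coe_torsionGaloisRep_apply (M * q) (φ * φ) y) (q * q) x hrel
  have h5 : Tp.map (PadicInt.toZModPow n) = (torsRho (M * q) (p ^ n) (φ * φ) -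
      ((q * q : ℕ) : Matrix (Fin (homRank (M * q))) (Fin (homRank (M * q))) (ZMod (p ^ n)))) *
      (torsRho (M * q) (p ^ n) (φ * φ) - 1) := by
    rw [hTp, ← RingHom.mapMatrix_apply, map_mul, map_sub, map_sub, map_natCast, map_one,
      RingHom.mapMatrix_apply, latticeRep_toZModPow]
  rw [h5, ← hx]
  exact congrFun h4 c

end Fermat.Agent.Semistable
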