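import Fermat.Agent.Semistable.Bounded
import Fermat.Agent.EC.Reduction.Galois

/-!
# The coefficientwise action of the decomposition group on `ℚ̄(X₀(qM))`
-/

set_option autoImplicit false

noncomputable section

open ModularCurve AlgebraicCurve Fermat.Agent.Reduction

namespace Fermat.Agent.Semistable

local notation "ℚbar" => AlgebraicClosure ℚ
local notation "Γℚbar" => (AlgebraicClosure ℚ ≃ₐ[ℚ] AlgebraicClosure ℚ)

section Cusps

variable (σ : Γℚbar)

omit σ in
theorem order_coeffMap_of_injective {R S : Type*} [CommRing R] [CommRing S] (f : R →+* S)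
    (hf : Function.Injective f) (x : LaurentSeries R) : (coeffMap f x).order = x.order := by
  rcases eq_or_ne x 0 with rfl | hx
  · simp
  have h0 : (coeffMap f x).coeff x.order ≠ 0 := by
    rw [coeffMap_coeff]
    exact (map_ne_zero_iff f hf).mpr fun h => hx (HahnSeries.coeff_order_eq_zero.mp h)
  refine le_antisymm (HahnSeries.order_le_of_coeff_ne_zero h0) ?_
  have hne : coeffMap f x ≠ 0 := fun h => h0 (by rw [h]; rfl)
  refine not_lt.mp fun h => ?_
  refine absurd (HahnSeries.coeff_order_eq_zero.not.mpr hne) (not_not.mpr ?_)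
  rw [coeffMap_coeff, HahnSeries.coeff_eq_zero_of_lt_order h, map_zero]

/-- The coefficientwise action on places. -/
def galPlace (N : ℕ) : Place ℚbar (modularFunctionFieldBar N) ≃
    Place ℚbar (modularFunctionFieldBar N) :=
  MulAction.toPerm (arithmeticGalois (modularFunctionFieldFull N) σ)

theorem ord_galPlace {N : ℕ} (v : Place ℚbar (modularFunctionFieldBar N))
    (f : modularFunctionFieldBar N) :
    (galPlace σ N v).ord (arithmeticRingAut (modularFunctionFieldFull N) σ f) = v.ord f :=
  SemilinearAut.ord_smul (arithmeticGalois (modularFunctionFieldFull N) σ) v f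

theorem order_galois {N : ℕ} (f : modularFunctionFieldBar N) :
    (arithmeticRingAut (modularFunctionFieldFull N) σ f : LaurentSeries ℚbar).order =
      (f : LaurentSeries ℚbar).order := by
  rw [coe_arithmeticRingAut_apply]
  exact order_coeffMap_of_injective _ (σ : ℚbar →+* ℚbar).injective _

theorem galPlace_cuspInf (N : ℕ) [NeZero N] : galPlace σ N (cuspInf N) = cuspInf N := by
  refine place_eq_of_ord fun u => ?_
  obtain ⟨f, rfl⟩ := (arithmeticRingAut (modularFunctionFieldFull N) σ).surjective u
  rw [ord_galPlace, ord_cuspInf, ord_cuspInf, order_galois]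

/-- The decomposition group preserves the functions regular outside `∞`. -/
theorem regM_galois {M : ℕ} [NeZero M] {y : modularFunctionFieldBar M} (hy : RegM y) :
    RegM (arithmeticRingAut (modularFunctionFieldFull M) σ y) := by
  intro v hv
  obtain ⟨u, rfl⟩ := (galPlace σ M).surjective v
  rw [ord_galPlace]
  exact hy u fun h => hv (by rw [h, galPlace_cuspInf])

variable {q M : ℕ} [NeZero q] [NeZero M] (w : ALData q M) (hq : q.Prime)

theorem galPlace_cuspZero : galPlace σ (M * q) (cuspZero w hq) = cuspZero w hq := by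
  refine place_eq_of_ord fun u => ?_
  obtain ⟨f, rfl⟩ := (arithmeticRingAut (modularFunctionFieldFull (M * q)) σ).surjective u
  rw [ord_galPlace, ord_cuspZero, ord_cuspZero, wEquiv_arithmeticRingAut, order_galois]

end Cusps

variable {k : Type*} [Field k] {A : ValuationSubring ℚbar} {π : A →+* k} {q : ℕ}

theorem valuation_apply_of_mem_decomposition (hq : q.Prime) (hA : A.LiesOverPrime q) {σ : Γℚbar}
    (hσ : σ ∈ A.decompositionSubgroup ℚ) (c : ℚbar) : A.valuation (σ c) = A.valuation c := by
  rcases eq_or_ne c 0 with rfl | hc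
  · simp
  have hint : IsIntegral ℚ c := (Algebra.IsAlgebraic.isAlgebraic (R := ℚ) c).isIntegral
  have := IntermediateField.adjoin.finiteDimensional hint
  obtain ⟨z, hz⟩ := valuation_pow_eq_zpow hq hA (IntermediateField.adjoin ℚ {c})
    (IntermediateField.mem_adjoin_simple_self ℚ c) hc
  set E := (Module.finrank ℚ (IntermediateField.adjoin ℚ {c})).factorial
  have hq0 : (q : ℚbar) ≠ 0 := by exact_mod_cast hq.ne_zero
  set u := c ^ E / (q : ℚbar) ^ z with hu
  have hvq : A.valuation (q : ℚbar) ^ z ≠ 0 := zpow_ne_zero _ ((A.valuation.ne_zero_iff).mpr hq0)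
  have h1 : A.valuation u = 1 := by rw [hu, map_div₀, map_pow, map_zpow₀, hz, div_self hvq]
  have h2 : A.valuation (σ u) = 1 := by
    have hu0 : u ≠ 0 := fun h => by rw [h, map_zero] at h1; exact zero_ne_one h1
    refine le_antisymm ((A.valuation_le_one_iff _).mpr
      (EC.Reduction.apply_mem_of_mem_decomposition hσ ((A.valuation_le_one_iff _).mp h1.le))) ?_
    have h3 : A.valuation (σ u⁻¹) ≤ 1 := (A.valuation_le_one_iff _).mpr
      (EC.Reduction.apply_mem_of_mem_decomposition hσ ((A.valuation_le_one_iff _).mp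
        (by rw [map_inv₀, h1, inv_one])))
    rw [map_inv₀, map_inv₀] at h3
    exact (inv_le_one₀ ((Valuation.pos_iff _).mpr ((map_ne_zero σ).mpr hu0))).mp h3
  rw [hu, map_div₀, map_div₀, map_pow, map_pow, map_zpow₀ σ, map_natCast, map_zpow₀,
    div_eq_one_iff_eq hvq, ← hz] at h2
  exact (pow_left_inj₀ zero_le zero_le (Nat.factorial_ne_zero _)).mp h2

variable [IsLocalHom π]

variable [CharP k q] [Fact q.Prime]

/-- A Frobenius element acts on reduced expansions through the Frobenius of the residue field. -/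
theorem red_coeffMap_frobenius {σ : Γℚbar} (hσ : A.IsFrobeniusAt σ q)
    {y : LaurentSeries ℚbar} {x : LaurentSeries k} (h : Red A π y x) :
    Red A π (coeffMap (σ : ℚbar →+* ℚbar) y) (coeffMap (frobenius k q) x) := fun i => by
  have := EC.Reduction.res_frobenius hσ (h i)
  simp only [coeffMap_coeff, frobenius_def]
  exact this

theorem red_coeffMap_frobenius_symm [PerfectRing k q] {σ : Γℚbar} (hσ : A.IsFrobeniusAt σ q)
    {y : LaurentSeries ℚbar} {x : LaurentSeries k} (h : Red A π y x) :
    Red A π (coeffMap ((σ⁻¹ : Γℚbar) : ℚbar →+* ℚbar) y)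
      (coeffMap ((frobeniusEquiv k q).symm : k →+* k) x) := fun i => by
  obtain ⟨hi, hπi⟩ := h i
  have hmem : (σ⁻¹ : Γℚbar) (y.coeff i) ∈ A :=
    EC.Reduction.apply_mem_of_mem_decomposition (inv_mem hσ.mem_decompositionSubgroup) hi
  have hf := EC.Reduction.res_frobenius (π := π) hσ
    (EC.Reduction.Res.of_mem π hmem)
  rw [show σ ((σ⁻¹ : Γℚbar) (y.coeff i)) = y.coeff i from σ.apply_symm_apply _] at hf
  have h2 := hf.unique ⟨hi, hπi⟩
  show ∃ h : (σ⁻¹ : Γℚbar) (y.coeff i) ∈ A,
    π ⟨(σ⁻¹ : Γℚbar) (y.coeff i), h⟩ = (frobeniusEquiv k q).symm (x.coeff i)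
  refine ⟨hmem, (frobeniusEquiv k q).injective ?_⟩
  rw [RingEquiv.apply_symm_apply, frobeniusEquiv_apply, frobenius_def]
  exact h2

end Fermat.Agent.Semistable
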