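import Fermat.Agent.Semistable.Nodes

/-!
# Lifting reduced pairs with the same pole orders

Functions with unit leading coefficient at one cusp and small leading coefficient at the other
exist for every large pole order; they allow pole orders to be lowered one at a time, so reduced
pairs of pole order `≤ n` lift to functions of pole order `≤ n` for large `n`.
-/

set_option autoImplicit false

noncomputable section

namespace Fermat.Agent.Semistable

open HahnSeries AlgebraicCurve ModularCurve Fermat.Agent.Reduction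

variable {K F k : Type*} [Field K] [Field F] [Algebra K F] [Field k] {A : ValuationSubring K}
  {π : A →+* k} {q : ℕ} [NeZero q]

section Descent

variable {M : Type*} [AddCommGroup M] [Module K M] (T : M →ₗ[K] Ser2 K) (W : ℤ → Submodule K M)
  {N₁ : ℤ}

/-- Lowering of pole orders with a uniform error. -/
theorem descend (hpole : ∀ N f, f ∈ W N → PoleLE N (T f).1 ∧ PoleLE N (T f).2)
    (hdown : ∀ N, N₁ < N → ∀ f ∈ W N, PoleLE (N - 1) (T f).1 → PoleLE (N - 1) (T f).2 →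
      f ∈ W (N - 1))
    (hlead : ∀ N, N₁ < N → ∃ u ∈ W N, ∃ v ∈ W N, (∀ i, (T u).1.coeff i ∈ A) ∧
      (∀ i, (T u).2.coeff i ∈ A) ∧ (∀ i, (T v).1.coeff i ∈ A) ∧ (∀ i, (T v).2.coeff i ∈ A) ∧
        A.valuation ((T u).1.coeff (-N)) = 1 ∧ A.valuation ((T u).2.coeff (-N)) < 1 ∧
        A.valuation ((T v).2.coeff (-N)) = 1 ∧ A.valuation ((T v).1.coeff (-N)) < 1)
    (j : ℕ) {f : M} (hf : f ∈ W (N₁ + j)) {r : A.ValueGroup}
    (hr : ∀ i < -N₁, A.valuation ((T f).1.coeff i) ≤ r ∧ A.valuation ((T f).2.coeff i) ≤ r) :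
    ∃ g ∈ W N₁, BoundedBy A (T (g - f)).1 r ∧ BoundedBy A (T (g - f)).2 r := by
  induction j generalizing f with
  | zero => exact ⟨f, by simpa using hf, by simp [BoundedBy], by simp [BoundedBy]⟩
  | succ j ih =>
    set N : ℤ := N₁ + (j + 1 : ℕ) with hN
    obtain ⟨u, hu, v, hv, hu1, hu2, hv1, hv2, huN, huN', hvN, hvN'⟩ := hlead N (by omega)
    obtain ⟨hy1, hy2⟩ := hr (-N) (by omega)
    set a₁ := (T u).1.coeff (-N) with ha₁
    set a₂ := (T u).2.coeff (-N) with ha₂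
    set b₁ := (T v).1.coeff (-N) with hb₁
    set b₂ := (T v).2.coeff (-N) with hb₂
    set y₁ := (T f).1.coeff (-N) with hy₁
    set y₂ := (T f).2.coeff (-N) with hy₂
    set Δ := a₁ * b₂ - a₂ * b₁ with hΔ
    have hsmall : A.valuation (a₂ * b₁) < 1 := by
      rw [map_mul]
      exact lt_of_le_of_lt (mul_le_of_le_one_right' hvN'.le) huN'
    have hΔ1 : A.valuation Δ = 1 := by
      rw [hΔ, A.valuation.map_sub_eq_of_lt_left] <;>
        rw [map_mul A.valuation a₁, huN, hvN, mul_one]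
      exact hsmall
    have hΔ0 : Δ ≠ 0 := fun h => by simp [h] at hΔ1
    set α := (b₂ * y₁ - b₁ * y₂) / Δ with hα
    set β := (a₁ * y₂ - a₂ * y₁) / Δ with hβ
    have hαr : A.valuation α ≤ r := by
      rw [hα, map_div₀, hΔ1, div_one]
      refine (A.valuation.map_sub _ _).trans (max_le ?_ ?_) <;> rw [map_mul]
      · exact (mul_le_mul' hvN.le hy1).trans (one_mul r).le
      · exact (mul_le_mul' hvN'.le hy2).trans (one_mul r).le
    have hβr : A.valuation β ≤ r := by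
      rw [hβ, map_div₀, hΔ1, div_one]
      refine (A.valuation.map_sub _ _).trans (max_le ?_ ?_) <;> rw [map_mul]
      · exact (mul_le_mul' huN.le hy2).trans (one_mul r).le
      · exact (mul_le_mul' huN'.le hy1).trans (one_mul r).le
    have e1 : α * a₁ + β * b₁ = y₁ := by
      rw [hα, hβ]; field_simp; rw [hΔ]; ring
    have e2 : α * a₂ + β * b₂ = y₂ := by
      rw [hα, hβ]; field_simp; rw [hΔ]; ring
    set f' := f - (α • u + β • v) with hf'
    have hf'W : f' ∈ W N :=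
      Submodule.sub_mem _ hf
        (Submodule.add_mem _ (Submodule.smul_mem _ _ hu) (Submodule.smul_mem _ _ hv))
    have hc1 : ∀ i, (T f').1.coeff i =
        (T f).1.coeff i - (α * (T u).1.coeff i + β * (T v).1.coeff i) := fun i => by
      simp only [hf', map_sub, map_add, map_smul, Prod.fst_sub, Prod.fst_add, Prod.smul_fst,
        HahnSeries.coeff_sub, HahnSeries.coeff_add, coeff_smulC]
    have hc2 : ∀ i, (T f').2.coeff i =
        (T f).2.coeff i - (α * (T u).2.coeff i + β * (T v).2.coeff i) := fun i => by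
      simp only [hf', map_sub, map_add, map_smul, Prod.snd_sub, Prod.snd_add, Prod.smul_snd,
        HahnSeries.coeff_sub, HahnSeries.coeff_add, coeff_smulC]
    have hp1 : PoleLE (N - 1) (T f').1 := by
      intro i hi
      rcases eq_or_lt_of_le (show i ≤ -N by omega) with rfl | hlt
      · rw [hc1, ← hy₁, ← ha₁, ← hb₁, e1, sub_self]
      · exact (hpole N f' hf'W).1 i hlt
    have hp2 : PoleLE (N - 1) (T f').2 := by
      intro i hi
      rcases eq_or_lt_of_le (show i ≤ -N by omega) with rfl | hlt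
      · rw [hc2, ← hy₂, ← ha₂, ← hb₂, e2, sub_self]
      · exact (hpole N f' hf'W).2 i hlt
    have hmem := hdown N (by omega) f' hf'W hp1 hp2
    have hb : ∀ (w z : LaurentSeries K), (∀ i, w.coeff i ∈ A) → (∀ i, z.coeff i ∈ A) →
        ∀ i, A.valuation (α * w.coeff i + β * z.coeff i) ≤ r := fun w z hw hz i => by
      refine (A.valuation.map_add _ _).trans (max_le ?_ ?_) <;> rw [map_mul]
      · exact (mul_le_mul' hαr ((ValuationSubring.valuation_le_one_iff _ _).mpr (hw i))).trans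
          (mul_one r).le
      · exact (mul_le_mul' hβr ((ValuationSubring.valuation_le_one_iff _ _).mpr (hz i))).trans
          (mul_one r).le
    obtain ⟨g, hg, hg1, hg2⟩ := ih (f := f') (by
        rwa [show N₁ + (j : ℤ) = N - 1 by push_cast [hN]; ring]) fun i hi => by
      rw [hc1, hc2]
      exact ⟨(A.valuation.map_sub _ _).trans (max_le (hr i hi).1 (hb _ _ hu1 hv1 i)),
        (A.valuation.map_sub _ _).trans (max_le (hr i hi).2 (hb _ _ hu2 hv2 i))⟩
    have hd1 : ∀ i, (T (g - f)).1.coeff i =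
        (T (g - f')).1.coeff i - (α * (T u).1.coeff i + β * (T v).1.coeff i) := fun i => by
      rw [map_sub, map_sub, Prod.fst_sub, Prod.fst_sub, HahnSeries.coeff_sub, HahnSeries.coeff_sub,
        hc1]
      ring
    have hd2 : ∀ i, (T (g - f)).2.coeff i =
        (T (g - f')).2.coeff i - (α * (T u).2.coeff i + β * (T v).2.coeff i) := fun i => by
      rw [map_sub, map_sub, Prod.snd_sub, Prod.snd_sub, HahnSeries.coeff_sub, HahnSeries.coeff_sub,
        hc2]
      ring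
    refine ⟨g, hg, fun i => ?_, fun i => ?_⟩
    · rw [hd1]
      exact (A.valuation.map_sub _ _).trans (max_le (hg1 i) (hb _ _ hu1 hv1 i))
    · rw [hd2]
      exact (A.valuation.map_sub _ _).trans (max_le (hg2 i) (hb _ _ hu2 hv2 i))

/-- Reductions with pole order `≤ N₁` lift to `W N₁`. -/
theorem exists_lift_of_descend (hπ : Function.Surjective π)
    (hpole : ∀ N f, f ∈ W N → PoleLE N (T f).1 ∧ PoleLE N (T f).2)
    (hdown : ∀ N, N₁ < N → ∀ f ∈ W N, PoleLE (N - 1) (T f).1 → PoleLE (N - 1) (T f).2 →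
      f ∈ W (N - 1))
    (hlead : ∀ N, N₁ < N → ∃ u ∈ W N, ∃ v ∈ W N, (∀ i, (T u).1.coeff i ∈ A) ∧
      (∀ i, (T u).2.coeff i ∈ A) ∧ (∀ i, (T v).1.coeff i ∈ A) ∧ (∀ i, (T v).2.coeff i ∈ A) ∧
        A.valuation ((T u).1.coeff (-N)) = 1 ∧ A.valuation ((T u).2.coeff (-N)) < 1 ∧
        A.valuation ((T v).2.coeff (-N)) = 1 ∧ A.valuation ((T v).1.coeff (-N)) < 1)
    (j : ℕ) {f : M} (hf : f ∈ W (N₁ + j)) {x : Ser2 k} (hx : Red2 A π (T f) x)
    (hx1 : PoleLE N₁ x.1) (hx2 : PoleLE N₁ x.2) :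
    ∃ g ∈ W N₁, Red2 A π (T g) x := by
  obtain ⟨hpf1, hpf2⟩ := hpole _ f hf
  set s : Finset ℤ := Finset.Ico (-(N₁ + j)) (-N₁) with hs
  set r : A.ValueGroup := s.sup fun i =>
    max (A.valuation ((T f).1.coeff i)) (A.valuation ((T f).2.coeff i))
  have hsmall : ∀ (y : LaurentSeries K) (z : LaurentSeries k), Red A π y z → ∀ i, z.coeff i = 0 →
      A.valuation (y.coeff i) < 1 := fun y z hyz i hzi => by
    obtain ⟨hi, hv⟩ := hyz i
    exact (residue_eq_zero_iff hπ ⟨y.coeff i, hi⟩).mp (hv.trans hzi)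
  have hr1 : r < 1 := by
    refine (Finset.sup_lt_iff (a := (1 : A.ValueGroup)) zero_lt_one).mpr fun i hi => ?_
    rw [hs, Finset.mem_Ico] at hi
    exact max_lt (hsmall _ _ hx.1 i (hx1 i hi.2)) (hsmall _ _ hx.2 i (hx2 i hi.2))
  have hrb : ∀ i < -N₁,
      A.valuation ((T f).1.coeff i) ≤ r ∧ A.valuation ((T f).2.coeff i) ≤ r := by
    intro i hi
    rcases lt_or_ge i (-(N₁ + j)) with hlt | hge
    · rw [hpf1 i hlt, hpf2 i hlt, map_zero]
      exact ⟨zero_le, zero_le⟩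
    · have := Finset.le_sup (f := fun i => max (A.valuation ((T f).1.coeff i))
        (A.valuation ((T f).2.coeff i))) (show i ∈ s by rw [hs, Finset.mem_Ico]; exact ⟨hge, hi⟩)
      exact ⟨(le_max_left _ _).trans this, (le_max_right _ _).trans this⟩
  obtain ⟨g, hg, hg1, hg2⟩ := descend T W hpole hdown hlead j hf hrb
  refine ⟨g, hg, ?_⟩
  have hz : ∀ y : LaurentSeries K, BoundedBy A y r → Red A π y 0 := fun y hy => by
    obtain ⟨z, hz⟩ := exists_red_of_coeff_mem π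
      (fun i => (ValuationSubring.valuation_le_one_iff _ _).mp ((hy i).trans hr1.le))
    rwa [(hz.eq_zero_iff hπ).mpr fun i => (hy i).trans_lt hr1] at hz
  have h0 : Red2 A π (T (g - f)) 0 := ⟨hz _ hg1, hz _ hg2⟩
  have := hx.add h0
  rwa [← map_add, add_zero, add_sub_cancel] at this

end Descent

namespace Sheets

variable (S : Sheets A π q F)

/-- Reduced pairs with pole orders `≤ n`. -/
def CbarLe (n : ℤ) : Submodule k (Ser2 k) where
  carrier := {x | x ∈ S.Ole n ∧ S.IsCbar x}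
  zero_mem' := ⟨zero_mem _, isCbar_zero⟩
  add_mem' := fun ha hb => ⟨add_mem ha.1 hb.1, ha.2.add hb.2⟩
  smul_mem' := fun c _ hx => ⟨Submodule.smul_mem _ c hx.1, hx.2.smul c⟩

theorem CbarLe_le_Ole (n : ℤ) : S.CbarLe n ≤ S.Ole n := fun _ hx => hx.1

theorem CbarLe_mono {m n : ℤ} (h : m ≤ n) : S.CbarLe m ≤ S.CbarLe n := fun _ hx =>
  ⟨⟨S.Cle_mono h hx.1.1, S.Cle_mono h hx.1.2⟩, hx.2⟩

variable {S}

theorem redPair_L_le (n : ℤ) : redPair S.surj S.T (S.L 0 n) ≤ S.CbarLe n := by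
  rintro x ⟨f, hf, hx⟩
  obtain ⟨hreg, hp1, hp2⟩ := mem_L_zero.mp hf
  obtain ⟨hc1, hc2⟩ := hreg.red_mem hx
  exact ⟨⟨⟨hx.1.poleLE hp1, hc1⟩, ⟨hx.2.poleLE hp2, hc2⟩⟩, f, hreg, hx⟩

variable (S) in
/-- For large `m` there is a function of pole order `≤ m` whose reduced pole order is `m` at `∞`
and `< m` at `0`. -/
theorem exists_lead : ∃ m₀ : ℤ, ∀ m, m₀ ≤ m → ∃ f, S.Reg f ∧ ∃ x : Ser2 k,
    Red2 A π (S.T f) x ∧ PoleLE m (S.ι f) ∧ PoleLE m (S.ι (S.w f)) ∧
      x.1.coeff (-m) ≠ 0 ∧ x.2.coeff (-m) = 0 := by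
  have hq : (2 : ℤ) ≤ q := by exact_mod_cast S.one_lt
  refine ⟨((S.n₀ : ℤ) + q + 2) * (q + 1), fun m hm => ?_⟩
  -- `m = a + q b` with `n₀ < a < b`
  set a : ℤ := (S.n₀ : ℤ) + 1 + (m - (S.n₀ + 1)) % q
  set b : ℤ := (m - a) / q with hb
  have hmod0 := Int.emod_nonneg (m - (S.n₀ + 1)) (show (q : ℤ) ≠ 0 by omega)
  have hmod1 := Int.emod_lt_of_pos (m - (S.n₀ + 1)) (show (0 : ℤ) < q by omega)
  have hab : a + q * b = m := by
    have h1 : (q : ℤ) ∣ m - a := by
      refine ⟨(m - (S.n₀ + 1)) / q, ?_⟩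
      have := Int.mul_ediv_add_emod (m - (S.n₀ + 1)) q
      omega
    rw [hb, Int.mul_ediv_cancel' h1]
    ring
  have hablt : a < b := by
    by_contra hle
    push Not at hle
    have : (q : ℤ) * b ≤ q * a := mul_le_mul_of_nonneg_left hle (by omega)
    have : a * (q + 1) < ((S.n₀ : ℤ) + q + 2) * (q + 1) :=
      mul_lt_mul_of_pos_right (by omega) (by omega)
    linarith
  obtain ⟨a', ha'⟩ : ∃ a' : ℕ, (a' : ℤ) = a := ⟨a.toNat, by omega⟩
  obtain ⟨b', hb'⟩ : ∃ b' : ℕ, (b' : ℤ) = b := ⟨b.toNat, by omega⟩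
  obtain ⟨x, hxC, hx0, hxo, hxp⟩ := S.exists_order_eq (n := a) (by omega)
  obtain ⟨y, hyC, hy0, hyo, hyp⟩ := S.exists_order_eq (n := b) (by omega)
  obtain ⟨f, hf, hfx, hfx', hfp, hfp'⟩ := S.exists_lift a' (by omega) x hxC (ha' ▸ hxp)
  obtain ⟨g, hg, hgy, hgy', hgp, hgp'⟩ := S.exists_lift b' (by omega) y hyC (hb' ▸ hyp)
  push_cast at hfp' hgp'
  rw [ha'] at hfp hfp'
  rw [hb'] at hgp hgp'
  have hqa : PoleLE (q * a + b) (S.ι (S.w (f * S.w g))) := by
    rw [map_mul, map_mul, S.w_w]; exact hfp'.mul hgp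
  have hlt : (q : ℤ) * a + b < m := by nlinarith
  refine ⟨f * S.w g, Reg.mul hf (Reg.apply_w hg), (x * qExpand k q y, qExpand k q x * y),
    ⟨?_, ?_⟩, ?_, hqa.mono hlt.le, ?_, ?_⟩
  · show Red A π (S.ι (f * S.w g)) _
    rw [map_mul]; exact hfx.mul hgy'
  · show Red A π (S.ι (S.w (f * S.w g))) _
    rw [map_mul, map_mul, S.w_w]; exact hfx'.mul hgy
  · rw [map_mul, ← hab]; exact hfp.mul hgp'
  · have hne : qExpand k q y ≠ 0 := fun h => hy0 (qExpand_injective q (h.trans (map_zero _).symm))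
    have ho : (x * qExpand k q y).order = -m := by
      rw [HahnSeries.order_mul hx0 hne, order_qExpand q hy0, hxo, hyo, ← hab]; ring
    show (x * qExpand k q y).coeff (-m) ≠ 0
    rw [← ho]
    exact fun h => mul_ne_zero hx0 hne (HahnSeries.coeff_order_eq_zero.mp h)
  · exact (PoleLE.mul (poleLE_qExpand q hxp) hyp) _ (by linarith)

variable (S) in
/-- Both kinds of unit leading elements in `L(0, m)`. -/
theorem exists_lead_pair : ∃ m₀ : ℤ, ∀ m, m₀ ≤ m → ∃ u ∈ S.L 0 m, ∃ v ∈ S.L 0 m,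
    ∃ x y : Ser2 k, Red2 A π (S.T u) x ∧ Red2 A π (S.T v) y ∧
      x.1.coeff (-m) ≠ 0 ∧ x.2.coeff (-m) = 0 ∧ y.2.coeff (-m) ≠ 0 ∧ y.1.coeff (-m) = 0 := by
  obtain ⟨m₀, hm₀⟩ := S.exists_lead
  refine ⟨m₀, fun m hm => ?_⟩
  obtain ⟨f, hf, x, hx, hp1, hp2, h1, h2⟩ := hm₀ m hm
  refine ⟨f, mem_L_zero.mpr ⟨hf, hp1, hp2⟩, S.w f,
    mem_L_zero.mpr ⟨hf.apply_w, hp2, by rwa [S.w_w]⟩, x, x.swap, hx, ?_, h1, h2, h1, h2⟩
  rw [S.T_w]
  exact hx.swap

theorem valuation_coeff_of_red {y : LaurentSeries K} {x : LaurentSeries k}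
    (hπ : Function.Surjective π) (h : Red A π y x) (i : ℤ) :
    (x.coeff i ≠ 0 → A.valuation (y.coeff i) = 1) ∧
      (x.coeff i = 0 → A.valuation (y.coeff i) < 1) := by
  refine ⟨fun hx => h.coeff_valuation_eq_one hπ hx, fun hx => ?_⟩
  obtain ⟨hi, hv⟩ := h i
  exact (residue_eq_zero_iff hπ ⟨y.coeff i, hi⟩).mp (hv.trans hx)

variable (S) in
/-- **Reduced pairs lift with the same pole orders.** -/
theorem exists_redPair_L_eq :
    ∃ N₀ : ℤ, ∀ n, N₀ ≤ n → redPair S.surj S.T (S.L 0 n) = S.CbarLe n := by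
  obtain ⟨m₀, hm₀⟩ := S.exists_lead_pair
  refine ⟨m₀, fun n hn => le_antisymm (redPair_L_le n) ?_⟩
  rintro x ⟨⟨⟨hp1, -⟩, ⟨hp2, -⟩⟩, f, hf, hx⟩
  obtain ⟨j₁, hj₁, hj₁p⟩ := exists_poleLE (-n).toNat (S.ι f)
  obtain ⟨j₂, hj₂, hj₂p⟩ := exists_poleLE (-n).toNat (S.ι (S.w f))
  set j : ℕ := ((max j₁ j₂ : ℕ) - n).toNat
  refine exists_lift_of_descend S.T (fun N => S.L 0 N) S.surj
    (fun N g hg => ⟨(mem_L_zero.mp hg).2.1, (mem_L_zero.mp hg).2.2⟩)
    (fun N _ g hg h1 h2 => mem_L_zero.mpr ⟨(mem_L_zero.mp hg).1, h1, h2⟩) (fun N hN => ?_) j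
    (mem_L_zero.mpr ⟨hf, hj₁p.mono (by omega), hj₂p.mono (by omega)⟩) hx hp1 hp2
  obtain ⟨u, hu, v, hv, x, y, hx, hy, h1, h2, h3, h4⟩ := hm₀ N (by omega)
  exact ⟨u, hu, v, hv, hx.1.coeff_mem, hx.2.coeff_mem, hy.1.coeff_mem, hy.2.coeff_mem,
    (valuation_coeff_of_red S.surj hx.1 _).1 h1, (valuation_coeff_of_red S.surj hx.2 _).2 h2,
    (valuation_coeff_of_red S.surj hy.2 _).1 h3, (valuation_coeff_of_red S.surj hy.1 _).2 h4⟩

/-! ### Evaluation at the nodes -/

variable (S) in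
/-- A member of `Ole n` as a pair of level `M` functions. -/
def elt {n : ℤ} (x : S.Ole n) : S.C × S.C := (⟨x.1.1, x.2.1.2⟩, ⟨x.1.2, x.2.2.2⟩)

variable (S) in
/-- The values at a node. -/
def evNode (n : ℤ) : S.Ole n →ₗ[k] (S.Node → k × k) where
  toFun x u := ((u.1 : S.Pt) (S.elt x).1, S.flip u.1 (S.elt x).2)
  map_add' a b := funext fun u =>
    Prod.ext (_root_.map_add u.1.1 (S.elt a).1 (S.elt b).1)
      (_root_.map_add (S.flip u.1).1 (S.elt a).2 (S.elt b).2)
  map_smul' c a := funext fun u => by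
    have h : ∀ (v : S.Pt) (x y : S.C), (y : LaurentSeries k) = c • (x : LaurentSeries k) →
        v y = c * v x := fun v x y hy => by
      rw [show y = algebraMap k S.C c * x from Subtype.ext (hy.trans (smul_eq_algebraMap_mul _ _)),
        Pt.map_mul, Pt.map_algebraMap]
    exact Prod.ext (h _ _ _ rfl) (h _ _ _ rfl)

variable [IsAlgClosed k]

theorem isCbar_iff_evNode {n : ℤ} (x : S.Ole n) :
    S.IsCbar x.1 ↔ ∀ u, (S.evNode n x u).1 = (S.evNode n x u).2 :=
  isCbar_iff (S.elt x)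

variable (S) in
omit [IsAlgClosed k] in
theorem exists_evNode_surjective :
    ∃ N : ℤ, ∀ n, N ≤ n → Function.Surjective (S.evNode n) := by
  classical
  have : Fintype S.Pt := Fintype.ofFinite _
  choose δ hδ using fun u : S.Pt => evPt_surjective (S := S) (Pi.single u 1)
  choose d hd0 hd using fun u : S.Pt => exists_poleLE 0 ((δ u : S.C) : LaurentSeries k)
  refine ⟨(Finset.univ.sup d : ℕ), fun n hn => ?_⟩
  have hmem : ∀ u, ((δ u : S.C) : LaurentSeries k) ∈ S.Cle n := fun u =>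
    ⟨(hd u).mono ((Int.ofNat_le.mpr (Finset.le_sup (Finset.mem_univ u))).trans hn), (δ u).2⟩
  intro c
  have hsum : ∀ (e : S.Pt → k), ∃ x : S.C, (x : LaurentSeries k) ∈ S.Cle n ∧ ∀ u, u x = e u := by
    intro e
    refine ⟨∑ u, algebraMap k S.C (e u) * δ u, ?_, fun v => ?_⟩
    · rw [AddSubmonoidClass.coe_finsetSum]
      refine Submodule.sum_mem _ fun u _ => ?_
      have := Submodule.smul_mem _ (e u) (hmem u)
      rwa [smul_eq_algebraMap_mul] at this
    · show v.1 _ = _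
      rw [map_sum, Finset.sum_eq_single v]
      · rw [map_mul, AlgHom.commutes]
        show e v * v (δ v) = e v
        rw [show v (δ v) = 1 from (congrFun (hδ v) v).trans (Pi.single_eq_same v 1), mul_one]
      · intro u _ hu
        rw [map_mul, show v.1 (δ u) = 0 from
          (congrFun (hδ u) v).trans (Pi.single_eq_of_ne (Ne.symm hu) 1), mul_zero]
      · exact fun h => absurd (Finset.mem_univ v) h
  obtain ⟨x, hx, hxv⟩ := hsum fun u =>
    if h : ∀ b : S.C × S.C, S.IsCbar (pr b) → u b.1 = S.flip u b.2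
    then (c ⟨u, h⟩).1 else 0
  obtain ⟨y, hy, hyv⟩ := hsum fun u =>
    if h : ∀ b : S.C × S.C, S.IsCbar (pr b) → S.flip.symm u b.1 = S.flip (S.flip.symm u) b.2
    then (c ⟨S.flip.symm u, h⟩).2 else 0
  refine ⟨⟨((x : LaurentSeries k), (y : LaurentSeries k)), hx, hy⟩, funext fun u => Prod.ext ?_ ?_⟩
  · show u.1 x = _
    rw [hxv, dif_pos u.2]
    rfl
  · show S.flip u.1 y = _
    rw [hyv]
    have : S.flip.symm (S.flip u.1) = u.1 := Equiv.symm_apply_apply _ _
    rw [dif_pos (by rw [this]; exact u.2)]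
    congr 2
    exact Subtype.ext this

variable (S) in
/-- The dimension count: reduced pairs have codimension the number of nodes. -/
theorem exists_finrank_CbarLe :
    ∃ N : ℤ, ∀ n, N ≤ n → Module.finrank k (S.CbarLe n) + Nat.card S.Node =
      Module.finrank k (S.Ole n) := by
  obtain ⟨N, hN⟩ := S.exists_evNode_surjective
  refine ⟨N, fun n hn => ?_⟩
  have : Fintype S.Node := Fintype.ofFinite _
  have := S.finiteDimensional_Ole n
  set δ : S.Ole n →ₗ[k] (S.Node → k) :=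
    (LinearMap.pi fun u => (LinearMap.fst k k k - LinearMap.snd k k k).comp (LinearMap.proj u)).comp
      (S.evNode n) with hδ
  have hsurj : Function.Surjective δ := fun c => by
    obtain ⟨x, hx⟩ := hN n hn fun u => (c u, 0)
    exact ⟨x, funext fun u => by simp [hδ, hx]⟩
  have hker : (LinearMap.ker δ).map (S.Ole n).subtype = S.CbarLe n := by
    ext x
    simp only [Submodule.mem_map, LinearMap.mem_ker, Submodule.coe_subtype]
    constructor
    · rintro ⟨y, hy, rfl⟩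
      refine ⟨y.2, (isCbar_iff_evNode y).mpr fun u => ?_⟩
      exact sub_eq_zero.mp (congrFun hy u)
    · rintro ⟨hx, hC⟩
      refine ⟨⟨x, hx⟩, funext fun u => ?_, rfl⟩
      exact sub_eq_zero.mpr ((isCbar_iff_evNode ⟨x, hx⟩).mp hC u)
  rw [← hker, Submodule.finrank_map_subtype_eq, ← δ.finrank_range_add_finrank_ker,
    LinearMap.range_eq_top.mpr hsurj, finrank_top, Module.finrank_pi, Nat.card_eq_fintype_card]
  omega

variable (S) in
/-- `l(n (∞) + n (0))` for large `n`. -/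
theorem exists_ell_bd [IsAlgClosed K] [FF.IsFunctionField K F] :
    ∃ N : ℤ, ∀ n, N ≤ n → FF.ell (S.bd n) + Nat.card S.Node = Module.finrank k (S.Ole n) ∧
      redPair S.surj S.T (S.L 0 n) = S.CbarLe n := by
  obtain ⟨N₁, hN₁⟩ := S.exists_redPair_L_eq
  obtain ⟨N₂, hN₂⟩ := S.exists_finrank_CbarLe
  refine ⟨max N₁ N₂, fun n hn => ?_⟩
  have h1 := hN₁ n ((le_max_left _ _).trans hn)
  refine ⟨?_, h1⟩
  rw [← hN₂ n ((le_max_right _ _).trans hn), ← h1, finrank_redPair S.surj S.T (S.L 0 n)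
    fun f hf hf0 => (mem_L_zero.mp hf).1.normalizable2 hf0]
  show FF.ell (S.bd n) + _ = FF.ell (0 + S.bd n) + _
  rw [zero_add]

end Sheets

end Fermat.Agent.Semistable
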