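import Fermat.Agent.Semistable.Setup
import Fermat.Prelude.Thm_ModularCurve_coeffMap_qExpand

/-!
# The nodes of a two-sheeted reduction

The ring of reductions of pairs of expansions consists of the pairs of level `M` reduced functions
which agree at finitely many nodes: a node glues a point `u` of the first sheet to the point
`u ∘ Fr` of the second, where `Fr` is `q ↦ q^q` on expansions and `u ∘ Fr ∘ Fr = u`.
-/

set_option autoImplicit false

noncomputable section

namespace Fermat.Agent.Semistable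

open HahnSeries AlgebraicCurve ModularCurve Fermat.Agent.Reduction

variable {K F k : Type*} [Field K] [Field F] [Algebra K F] [Field k] {A : ValuationSubring K}
  {π : A →+* k} {q : ℕ} [NeZero q] (S : Sheets A π q F)

/-- A non-nilpotent element of a finite algebra over an algebraically closed field is nonzero at
some point. -/
theorem exists_algHom_ne_zero {k Q : Type*} [Field k] [IsAlgClosed k] [CommRing Q] [Algebra k Q]
    [Module.Finite k Q] {x : Q} (hx : ¬ IsNilpotent x) : ∃ φ : Q →ₐ[k] k, φ x ≠ 0 := by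
  rw [← mem_nilradical, nilradical_eq_sInf, Submodule.mem_sInf] at hx
  push Not at hx
  obtain ⟨m, hm, hxm⟩ := hx
  have : Ideal.IsPrime (m : Ideal Q) := hm
  have : Algebra.IsIntegral k (Q ⧸ m) := Algebra.IsIntegral.of_finite k _
  have hbij := IsAlgClosed.algebraMap_bijective_of_isIntegral (k := k) (K := Q ⧸ m)
  let e : k ≃ₐ[k] Q ⧸ m := AlgEquiv.ofBijective (Algebra.ofId k _) hbij
  refine ⟨e.symm.toAlgHom.comp (Ideal.Quotient.mkₐ k m), fun h => hxm ?_⟩
  rw [← Ideal.Quotient.eq_zero_iff_mem]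
  exact e.symm.injective (h.trans (map_zero e.symm).symm)

namespace Sheets

/-- `x` is a reduced pair. -/
def IsCbar (x : Ser2 k) : Prop := ∃ f, S.Reg f ∧ Red2 A π (S.T f) x

variable {S}

theorem IsCbar.add {x y : Ser2 k} : S.IsCbar x → S.IsCbar y → S.IsCbar (x + y)
  | ⟨f, hf, hx⟩, ⟨g, hg, hy⟩ => ⟨f + g, hf.add hg, by rw [map_add]; exact hx.add hy⟩

theorem IsCbar.sub {x y : Ser2 k} : S.IsCbar x → S.IsCbar y → S.IsCbar (x - y)
  | ⟨f, hf, hx⟩, ⟨g, hg, hy⟩ => ⟨f - g, hf.sub hg, by rw [map_sub]; exact hx.sub hy⟩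

theorem IsCbar.mul {x y : Ser2 k} : S.IsCbar x → S.IsCbar y → S.IsCbar (x * y)
  | ⟨f, hf, hx⟩, ⟨g, hg, hy⟩ => ⟨f * g, hf.mul hg, by rw [S.T_mul]; exact hx.mul hy⟩

theorem IsCbar.swap {x : Ser2 k} : S.IsCbar x → S.IsCbar x.swap
  | ⟨f, hf, hx⟩ => ⟨S.w f, hf.apply_w, by rw [S.T_w]; exact hx.swap⟩

theorem isCbar_zero : S.IsCbar 0 :=
  ⟨0, fun _ _ _ => Submodule.zero_mem _, by rw [map_zero]; exact red2_zero⟩

theorem isCbar_one : S.IsCbar 1 := ⟨1, reg_one, by rw [S.T_one]; exact red2_one⟩

theorem IsCbar.smul {x : Ser2 k} (hx : S.IsCbar x) (c : k) : S.IsCbar (c • x) := by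
  obtain ⟨f, hf, hfx⟩ := hx
  obtain ⟨a, rfl⟩ := S.surj c
  exact ⟨(a : K) • f, hf.smul _, by rw [map_smul]; exact hfx.smul a⟩

theorem IsCbar.mem {x : Ser2 k} : S.IsCbar x → x.1 ∈ S.C ∧ x.2 ∈ S.C
  | ⟨_, hf, hx⟩ => hf.red_mem hx

theorem exists_poleLE {R : Type*} [Field R] (m : ℕ) (x : LaurentSeries R) :
    ∃ n : ℕ, m ≤ n ∧ PoleLE n x :=
  ⟨max m (-x.order).toNat, le_max_left _ _, (poleLE_neg_order x).mono (by omega)⟩

theorem qExpand_mem {x : LaurentSeries k} (hx : x ∈ S.C) : qExpand k q x ∈ S.C := by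
  obtain ⟨n, hn, hpole⟩ := exists_poleLE S.n₀ x
  obtain ⟨f, hf, h1, h2, -⟩ := S.exists_lift n hn x hx hpole
  exact S.red_mem _ (S.reg_w f hf) _ h2 fun i => by rw [S.w_w]; exact h1.coeff_mem i

theorem isCbar_graph {x : LaurentSeries k} (hx : x ∈ S.C) : S.IsCbar (x, qExpand k q x) := by
  obtain ⟨n, hn, hpole⟩ := exists_poleLE S.n₀ x
  obtain ⟨f, hf, h1, h2, -⟩ := S.exists_lift n hn x hx hpole
  exact ⟨f, hf, h1, h2⟩

variable (S) in
/-- `q ↦ q^q` on level `M` reduced functions. -/
def frC : S.C →ₐ[k] S.C where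
  toFun x := ⟨qExpand k q x, S.qExpand_mem x.2⟩
  map_one' := Subtype.ext (map_one (qExpand k q))
  map_mul' a b := Subtype.ext (map_mul (qExpand k q) _ _)
  map_zero' := Subtype.ext (map_zero (qExpand k q))
  map_add' a b := Subtype.ext (map_add (qExpand k q) _ _)
  commutes' c := Subtype.ext (by
    show qExpand k q (algebraMap k (LaurentSeries k) c) = algebraMap k (LaurentSeries k) c
    rw [algebraMap_laurentSeries_eq_single, qExpand_single, mul_zero])

@[simp] theorem coe_frC (x : S.C) : (S.frC x : LaurentSeries k) = qExpand k q x := rfl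

variable (S) in
/-- The coefficientwise Frobenius of `k`. -/
def sigC : S.C →+* S.C where
  toFun x := ⟨coeffMap (S.σ : k →+* k) x, S.σ_mem x x.2⟩
  map_one' := Subtype.ext (map_one (coeffMap (S.σ : k →+* k)))
  map_mul' _ _ := Subtype.ext (map_mul (coeffMap (S.σ : k →+* k)) _ _)
  map_zero' := Subtype.ext (map_zero (coeffMap (S.σ : k →+* k)))
  map_add' _ _ := Subtype.ext (map_add (coeffMap (S.σ : k →+* k)) _ _)

variable (S) in
/-- The inverse of `sigC`. -/
def sigInvC : S.C →+* S.C where
  toFun x := ⟨coeffMap (S.σ.symm : k →+* k) x, S.σ_symm_mem x x.2⟩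
  map_one' := Subtype.ext (map_one (coeffMap (S.σ.symm : k →+* k)))
  map_mul' _ _ := Subtype.ext (map_mul (coeffMap (S.σ.symm : k →+* k)) _ _)
  map_zero' := Subtype.ext (map_zero (coeffMap (S.σ.symm : k →+* k)))
  map_add' _ _ := Subtype.ext (map_add (coeffMap (S.σ.symm : k →+* k)) _ _)

theorem frC_sigC (x : S.C) : S.frC (S.sigC x) = x ^ q :=
  Subtype.ext (by simp [sigC, S.frob_eq])

theorem sigInvC_sigC (x : S.C) : S.sigInvC (S.sigC x) = x := by
  refine Subtype.ext (HahnSeries.ext (funext fun i => ?_))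
  simp [sigC, sigInvC]

theorem sigInvC_frC (x : S.C) : S.sigInvC (S.frC x) = S.frC (S.sigInvC x) :=
  Subtype.ext (ModularCurve.coeffMap_qExpand _ q _)

variable (S) in
/-- The ideal generated by the `x - Fr² x`. -/
def nodeIdeal : Ideal S.C := Ideal.span (Set.range fun x : S.C => x - S.frC (S.frC x))

theorem sub_frC_frC_mem (x : S.C) : x - S.frC (S.frC x) ∈ S.nodeIdeal :=
  Ideal.subset_span ⟨x, rfl⟩

theorem sigInvC_mem {z : S.C} (hz : z ∈ S.nodeIdeal) : S.sigInvC z ∈ S.nodeIdeal := by
  refine Submodule.span_induction ?_ ?_ ?_ ?_ hz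
  · rintro _ ⟨x, rfl⟩
    rw [map_sub, sigInvC_frC, sigInvC_frC]
    exact sub_frC_frC_mem _
  · rw [map_zero]; exact zero_mem _
  · exact fun a b _ _ ha hb => by rw [map_add]; exact add_mem ha hb
  · exact fun a b _ hb => by rw [smul_eq_mul, map_mul]; exact Ideal.mul_mem_left _ _ hb

/-- The node ideal is radical. -/
theorem mem_nodeIdeal_of_pow_mem {z : S.C} {e : ℕ} (hz : z ^ e ∈ S.nodeIdeal) :
    z ∈ S.nodeIdeal := by
  have step : ∀ w : S.C, w ^ (q * q) ∈ S.nodeIdeal → w ∈ S.nodeIdeal := fun w hw => by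
    have h1 : S.frC (S.frC (S.sigC (S.sigC w))) = w ^ (q * q) := by
      rw [frC_sigC, map_pow, frC_sigC, ← pow_mul]
    have h2 := add_mem (sub_frC_frC_mem (S.sigC (S.sigC w))) (h1 ▸ hw)
    rw [sub_add_cancel] at h2
    have := sigInvC_mem (sigInvC_mem h2)
    rwa [sigInvC_sigC, sigInvC_sigC] at this
  have key : ∀ j : ℕ, z ^ (q * q) ^ j ∈ S.nodeIdeal → z ∈ S.nodeIdeal := by
    intro j
    induction j with
    | zero => simp
    | succ j ih => exact fun h => ih (step _ (by rw [← pow_mul, ← pow_succ]; exact h))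
  refine key e ?_
  obtain ⟨d, hd⟩ := Nat.exists_eq_add_of_le
    (Nat.lt_pow_self (n := e) (a := q * q) (by nlinarith [S.one_lt])).le
  rw [hd, _root_.pow_add]
  exact Ideal.mul_mem_right _ _ hz

theorem order_qExpand {R : Type*} [Field R] (n : ℕ) [NeZero n] {x : LaurentSeries R} (hx : x ≠ 0) :
    (qExpand R n x).order = n * x.order := by
  have hne : qExpand R n x ≠ 0 := fun h => hx (qExpand_injective n (h.trans (map_zero _).symm))
  refine le_antisymm (HahnSeries.order_le_of_coeff_ne_zero ?_) ?_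
  · rw [qExpand_coeff_mul]
    exact fun h => hx (HahnSeries.coeff_order_eq_zero.mp h)
  · have h := (poleLE_iff_order hne).mp (poleLE_qExpand n (poleLE_neg_order x))
    linarith

variable (S) in
theorem finite_quotient : FiniteDimensional k (S.C ⧸ S.nodeIdeal) := by
  obtain ⟨x, hxC, hx0, hxo, -⟩ := S.exists_order_eq (n := (S.n₀ : ℤ) + 1) (by omega)
  set a : ℤ := (S.n₀ : ℤ) + 1
  set d : S.C := ⟨x, hxC⟩ - S.frC (S.frC ⟨x, hxC⟩) with hd
  set D : ℤ := (q : ℤ) * q * a with hD
  have hq1 : (2 : ℤ) ≤ q := by exact_mod_cast S.one_lt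
  have hq4 : (4 : ℤ) ≤ (q : ℤ) * q := by nlinarith
  have hDa : a < D := by
    have : 4 * a ≤ D := mul_le_mul_of_nonneg_right hq4 (by omega)
    omega
  -- the pole order of `d` is exactly `D`
  have hne : qExpand k q x ≠ 0 := fun h => hx0 (qExpand_injective q (h.trans (map_zero _).symm))
  have hne2 : qExpand k q (qExpand k q x) ≠ 0 := fun h =>
    hne (qExpand_injective q (h.trans (map_zero _).symm))
  have ho2 : (qExpand k q (qExpand k q x)).order = -D := by
    rw [order_qExpand q hne, order_qExpand q hx0, hxo, hD]; ring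
  have hdlow : ∀ i < -D, (d : LaurentSeries k).coeff i = 0 := fun i hi => by
    simp only [hd, AddSubgroupClass.coe_sub, coe_frC, HahnSeries.coeff_sub]
    rw [HahnSeries.coeff_eq_zero_of_lt_order (by rw [hxo]; omega),
      HahnSeries.coeff_eq_zero_of_lt_order (by rw [ho2]; omega), sub_zero]
  have hdlead : (d : LaurentSeries k).coeff (-D) ≠ 0 := by
    simp only [hd, AddSubgroupClass.coe_sub, coe_frC, HahnSeries.coeff_sub]
    rw [HahnSeries.coeff_eq_zero_of_lt_order (by rw [hxo]; omega), zero_sub, neg_ne_zero, ← ho2]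
    exact fun h => hne2 (HahnSeries.coeff_order_eq_zero.mp h)
  -- everything is congruent to a function of bounded pole
  set n₁ : ℤ := D + S.n₀
  have main : ∀ (j : ℕ) (y : S.C), PoleLE (n₁ + j) (y : LaurentSeries k) →
      ∃ z : S.C, PoleLE n₁ (z : LaurentSeries k) ∧ y - z ∈ S.nodeIdeal := by
    intro j
    induction j with
    | zero => exact fun y hy => ⟨y, by simpa using hy, by simp⟩
    | succ j ih =>
      intro y hy
      obtain ⟨e, heC, he0, heo, hep⟩ := S.exists_order_eq (n := n₁ + (j + 1 : ℕ) - D) (by omega)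
      set n : ℤ := n₁ + (j + 1 : ℕ) with hn
      have hde : PoleLE n ((d * ⟨e, heC⟩ : S.C) : LaurentSeries k) := by
        have := PoleLE.mul (n := D) (fun i hi => hdlow i hi) hep
        rwa [show D + (n - D) = n by ring] at this
      have hdeo : ((d * ⟨e, heC⟩ : S.C) : LaurentSeries k).coeff (-n) ≠ 0 := by
        have hd0 : (d : LaurentSeries k) ≠ 0 := fun h => hdlead (by rw [h]; rfl)
        have hdo : (d : LaurentSeries k).order = -D := le_antisymm
          (HahnSeries.order_le_of_coeff_ne_zero hdlead)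
          ((poleLE_iff_order hd0).mp fun i hi => hdlow i hi)
        have : ((d * ⟨e, heC⟩ : S.C) : LaurentSeries k).order = -n := by
          show ((d : LaurentSeries k) * e).order = -n
          rw [HahnSeries.order_mul hd0 he0, hdo, heo]; ring
        rw [← this]
        exact fun h => mul_ne_zero hd0 he0 (HahnSeries.coeff_order_eq_zero.mp h)
      set c : k := (y : LaurentSeries k).coeff (-n) /
        ((d * ⟨e, heC⟩ : S.C) : LaurentSeries k).coeff (-n) with hc
      obtain ⟨z, hz, hyz⟩ := ih (y - algebraMap k S.C c * (d * ⟨e, heC⟩)) (by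
        intro i hi
        have hco : ((y - algebraMap k S.C c * (d * ⟨e, heC⟩) : S.C) : LaurentSeries k).coeff i =
            (y : LaurentSeries k).coeff i -
              c * ((d * ⟨e, heC⟩ : S.C) : LaurentSeries k).coeff i := by
          rw [← coeff_algebraMap_mul]; rfl
        rw [hco]
        rcases lt_or_ge i (-n) with hlt | hge
        · rw [hy i hlt, hde i hlt, mul_zero, sub_zero]
        · obtain rfl : i = -n := by push_cast at hn; omega
          rw [hc, div_mul_cancel₀ _ hdeo, sub_self])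
      refine ⟨z, hz, ?_⟩
      have := add_mem hyz (Ideal.mul_mem_left _ (algebraMap k S.C c)
        (Ideal.mul_mem_right (⟨e, heC⟩ : S.C) _ (sub_frC_frC_mem (⟨x, hxC⟩ : S.C))))
      rwa [← hd, sub_right_comm, sub_add_cancel] at this
  have := S.finiteDimensional_Cle n₁
  let Φ : S.Cle n₁ →ₗ[k] S.C ⧸ S.nodeIdeal :=
    { toFun := fun y => Ideal.Quotient.mk _ ⟨y, y.2.2⟩
      map_add' := fun a b => (Ideal.Quotient.mk S.nodeIdeal).map_add ⟨a, a.2.2⟩ ⟨b, b.2.2⟩
      map_smul' := fun c a => by
        show Ideal.Quotient.mkₐ k S.nodeIdeal ⟨_, _⟩ =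
          c • Ideal.Quotient.mkₐ k S.nodeIdeal ⟨_, a.2.2⟩
        rw [← map_smul]
        refine congrArg _ (Subtype.ext ?_)
        rw [Algebra.smul_def]
        exact smul_eq_algebraMap_mul _ _ }
  refine Module.Finite.of_surjective Φ fun z => ?_
  obtain ⟨y, rfl⟩ := Ideal.Quotient.mk_surjective z
  obtain ⟨m, hm, hy⟩ := exists_poleLE n₁.toNat (y : LaurentSeries k)
  obtain ⟨z, hz, hyz⟩ := main m y (hy.mono (by omega))
  exact ⟨⟨z, hz, z.2⟩, (Ideal.Quotient.mk_eq_mk_iff_sub_mem y z).mpr hyz |>.symm⟩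

variable (S) in
/-- Points fixed by the square of `Fr`. -/
def Pt : Type _ := {u : S.C →ₐ[k] k // ∀ x, u (S.frC (S.frC x)) = u x}

instance : FunLike S.Pt S.C k where
  coe u := u.1
  coe_injective _ _ h := Subtype.ext (DFunLike.coe_injective h)

theorem Pt.map_mul (u : S.Pt) (a b : S.C) : u (a * b) = u a * u b := _root_.map_mul u.1 a b

theorem Pt.map_sub (u : S.Pt) (a b : S.C) : u (a - b) = u a - u b := _root_.map_sub u.1 a b

theorem Pt.map_algebraMap (u : S.Pt) (c : k) : u (algebraMap k S.C c) = c := u.1.commutes c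

theorem Pt.le_ker (u : S.Pt) : S.nodeIdeal ≤ RingHom.ker u.1.toRingHom :=
  Ideal.span_le.mpr (by
    rintro _ ⟨x, rfl⟩
    show u.1 (x - S.frC (S.frC x)) = 0
    rw [_root_.map_sub, u.2, sub_self])

variable (S) in
/-- The partner of a point: `u ↦ u ∘ Fr`. -/
def flip : S.Pt ≃ S.Pt where
  toFun u := ⟨u.1.comp S.frC, fun x => u.2 (S.frC x)⟩
  invFun u := ⟨u.1.comp S.frC, fun x => u.2 (S.frC x)⟩
  left_inv u := Subtype.ext (AlgHom.ext u.2)
  right_inv u := Subtype.ext (AlgHom.ext u.2)

theorem flip_apply (u : S.Pt) (x : S.C) : S.flip u x = u (S.frC x) := rfl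

theorem flip_apply_frC (u : S.Pt) (x : S.C) : S.flip u (S.frC x) = u x := u.2 x

theorem linearIndependent_pt :
    LinearIndependent k (fun u : S.Pt => (u : S.C → k)) := by
  exact (linearIndependent_monoidHom S.C k).comp
    (fun u : S.Pt => (u.1 : S.C →* k)) fun u v h =>
      Subtype.ext (AlgHom.ext fun x => DFunLike.congr_fun h x)

variable (S) in
instance finite_pt : Finite S.Pt := by
  have := finite_quotient S
  let Φ : S.Pt → Module.Dual k (S.C ⧸ S.nodeIdeal) := fun u =>
    (Ideal.Quotient.liftₐ S.nodeIdeal u.1 fun a ha => u.le_ker ha).toLinearMap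
  let res : Module.Dual k (S.C ⧸ S.nodeIdeal) →ₗ[k] (S.C → k) :=
    { toFun := fun f x => f (Ideal.Quotient.mk _ x)
      map_add' := fun _ _ => rfl
      map_smul' := fun _ _ => rfl }
  have hli : LinearIndependent k Φ := LinearIndependent.of_comp res linearIndependent_pt
  exact hli.finite

variable [IsAlgClosed k]

theorem mem_nodeIdeal_iff {z : S.C} : z ∈ S.nodeIdeal ↔ ∀ u : S.Pt, u z = 0 := by
  refine ⟨fun hz u => u.le_ker hz, fun hz => mem_nodeIdeal_of_pow_mem (e := 1) ?_⟩
  rw [pow_one]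
  by_contra hne
  have := finite_quotient S
  have hred : ¬ IsNilpotent (Ideal.Quotient.mk S.nodeIdeal z) := by
    rintro ⟨e, he⟩
    rw [← map_pow, Ideal.Quotient.eq_zero_iff_mem] at he
    exact hne (mem_nodeIdeal_of_pow_mem he)
  obtain ⟨φ, hφ⟩ := exists_algHom_ne_zero (k := k) (Q := S.C ⧸ S.nodeIdeal) hred
  let v : S.C →ₐ[k] k := φ.comp (Ideal.Quotient.mkₐ k S.nodeIdeal)
  have hv : ∀ x, v (S.frC (S.frC x)) = v x := fun x => congrArg φ
    ((Ideal.Quotient.mk_eq_mk_iff_sub_mem x _).mpr (sub_frC_frC_mem x)).symm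
  exact hφ (hz ⟨v, hv⟩)

variable (S) in
/-- Evaluation at all points. -/
def evPt : S.C →ₗ[k] (S.Pt → k) where
  toFun x u := u x
  map_add' a b := funext fun u => _root_.map_add u.1 a b
  map_smul' c a := funext fun u => _root_.map_smul u.1 c a

omit [IsAlgClosed k] in
theorem evPt_surjective : Function.Surjective (S.evPt) := by
  classical
  have : Fintype S.Pt := Fintype.ofFinite _
  rw [← LinearMap.range_eq_top]
  by_contra hne
  obtain ⟨f, hf0, hf⟩ :=
    Submodule.exists_le_ker_of_lt_top _ (lt_top_iff_ne_top.mpr hne)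
  apply hf0
  refine LinearMap.pi_ext' fun u => LinearMap.ext_ring ?_
  show f (Pi.single u 1) = 0
  have := Fintype.linearIndependent_iff.mp (linearIndependent_pt (S := S))
    (fun u => f (Pi.single u 1)) (by
      funext x
      have h0 : f (S.evPt x) = 0 := hf ⟨x, rfl⟩
      rw [pi_eq_sum_univ (S.evPt x), map_sum] at h0
      simp only [Finset.sum_apply, Pi.smul_apply, Pi.zero_apply]
      refine Eq.trans (Finset.sum_congr rfl fun u _ => ?_) h0
      rw [map_smul, smul_eq_mul, smul_eq_mul, mul_comm]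
      congr 2
      funext v
      simp [Pi.single_apply, eq_comm])
  exact this u

/-! ### The description of the reduced pairs -/

/-- A pair of level `M` reduced functions as a pair of series. -/
def pr (b : S.C × S.C) : Ser2 k := ((b.1 : LaurentSeries k), (b.2 : LaurentSeries k))

variable (S) in
/-- The nodes. -/
def Node : Type _ :=
  {u : S.Pt // ∀ b : S.C × S.C, S.IsCbar (pr b) → u b.1 = S.flip u b.2}

instance : Finite S.Node := Subtype.finite

omit [IsAlgClosed k] in
theorem isCbar_nodeIdeal_fst {z : S.C} (hz : z ∈ S.nodeIdeal) :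
    S.IsCbar ((z : LaurentSeries k), 0) := by
  refine Submodule.span_induction ?_ ?_ ?_ ?_ hz
  · rintro _ ⟨x, rfl⟩
    have := (isCbar_graph x.2).sub (isCbar_graph (S.frC x).2).swap
    simpa [Prod.swap] using this
  · exact isCbar_zero
  · exact fun a b _ _ ha hb => by simpa using ha.add hb
  · intro c b _ hb
    simpa using (isCbar_graph c.2).mul hb

omit [IsAlgClosed k] in
theorem isCbar_nodeIdeal_snd {z : S.C} (hz : z ∈ S.nodeIdeal) :
    S.IsCbar (0, (z : LaurentSeries k)) := by
  simpa [Prod.swap] using (isCbar_nodeIdeal_fst hz).swap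

/-- **Reduced pairs are exactly the pairs which agree at the nodes.** -/
theorem isCbar_iff (b : S.C × S.C) :
    S.IsCbar (pr b) ↔ ∀ u : S.Node, u.1 b.1 = S.flip u.1 b.2 := by
  classical
  refine ⟨fun hb u => u.2 b hb, fun hb => ?_⟩
  have : Fintype S.Pt := Fintype.ofFinite _
  -- the functions on the second sheet vanishing at the partners of the nodes
  have hsnd : ∀ z : S.C, (∀ u : S.Node, S.flip u.1 z = 0) →
      S.IsCbar (0, (z : LaurentSeries k)) := by
    intro z hz
    -- `δ` functions at partners of non-nodes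
    have hδ : ∀ u : S.Pt, ∃ w : S.C, S.IsCbar (0, (w : LaurentSeries k)) ∧
        (∀ v, v ≠ u → S.flip v w = 0) ∧
          (S.flip u w ≠ 0 ∨ ∀ a : S.C × S.C, S.IsCbar (pr a) → u a.1 = S.flip u a.2) := by
      intro u
      by_cases hu : ∀ a : S.C × S.C, S.IsCbar (pr a) → u a.1 = S.flip u a.2
      · exact ⟨0, isCbar_zero, fun v _ => map_zero (S.flip v).1, Or.inr hu⟩
      push Not at hu
      obtain ⟨a, ha, hne⟩ := hu
      obtain ⟨x, hx⟩ := evPt_surjective (S := S) (Pi.single u 1)
      have hxv : ∀ v, v x = (Pi.single u 1 : S.Pt → k) v := fun v => congrFun hx v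
      set c := algebraMap k S.C (u a.1) with hc
      refine ⟨S.frC x * (a.2 - c), ?_, fun v hv => ?_, Or.inl ?_⟩
      · have h1 : x * (a.1 - c) ∈ S.nodeIdeal := mem_nodeIdeal_iff.mpr fun v => by
          rw [Pt.map_mul, Pt.map_sub, hc, Pt.map_algebraMap, hxv]
          rcases eq_or_ne v u with rfl | hv <;> simp [*]
        have hga : S.IsCbar (pr (x * (a.1 - c), S.frC x * (a.2 - c))) := by
          have h2 := (isCbar_graph x.2).mul
            (ha.sub ((isCbar_one (S := S)).smul (u a.1)))
          convert h2 using 1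
          refine Prod.ext ?_ ?_ <;>
            simp [pr, hc, smul_eq_algebraMap_mul]
        simpa [pr] using hga.sub (isCbar_nodeIdeal_fst h1)
      · rw [Pt.map_mul, flip_apply_frC, hxv, Pi.single_eq_of_ne hv, zero_mul]
      · rw [Pt.map_mul, flip_apply_frC, hxv, Pi.single_eq_same, one_mul, Pt.map_sub, hc,
          Pt.map_algebraMap, sub_ne_zero]
        exact fun h => hne h.symm
    choose w hw hw0 hw1 using hδ
    set c : S.Pt → k := fun u => S.flip u z / S.flip u (w u) with hc
    set z' : S.C := z - ∑ u, algebraMap k S.C (c u) * w u with hz'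
    have hz'I : z' ∈ S.nodeIdeal := mem_nodeIdeal_iff.mpr fun v => by
      obtain ⟨v, rfl⟩ := (S.flip).surjective v
      show (S.flip v).1 z' = 0
      rw [hz', map_sub, map_sum, Finset.sum_eq_single v
        (fun u _ hu => by rw [map_mul]; exact mul_eq_zero_of_right _ (hw0 u v (Ne.symm hu)))
        (fun h => absurd (Finset.mem_univ v) h), map_mul, AlgHom.commutes, Algebra.algebraMap_self,
        RingHom.id_apply]
      rcases eq_or_ne (S.flip v (w v)) 0 with h0 | h0
      · have hnode := (hw1 v).resolve_left (not_not.mpr h0)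
        show S.flip v z - c v * S.flip v (w v) = 0
        rw [h0, mul_zero, sub_zero]
        exact hz ⟨v, hnode⟩
      · show S.flip v z - c v * S.flip v (w v) = 0
        simp [hc, div_mul_cancel₀ _ h0]
    have hsum : ∀ s : Finset S.Pt, S.IsCbar (0, ((∑ u ∈ s, algebraMap k S.C (c u) * w u : S.C) :
        LaurentSeries k)) := by
      intro s
      induction s using Finset.induction with
      | empty => exact isCbar_zero
      | insert a s ha ih =>
        rw [Finset.sum_insert ha]
        have := ((hw a).smul (c a)).add ih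
        simpa [smul_eq_algebraMap_mul] using this
    have := (isCbar_nodeIdeal_snd hz'I).add (hsum Finset.univ)
    simpa [hz'] using this
  obtain ⟨x, hx⟩ := evPt_surjective (S := S) fun u => u b.1
  have hxv : ∀ v : S.Pt, v x = v b.1 := fun v => congrFun hx v
  have h1 : b.1 - x ∈ S.nodeIdeal :=
    mem_nodeIdeal_iff.mpr fun v => by rw [Pt.map_sub, hxv, sub_self]
  have h2 := hsnd (b.2 - S.frC x) fun u => by
    rw [Pt.map_sub, flip_apply_frC, hxv, ← hb u, sub_self]
  simpa [pr] using ((isCbar_nodeIdeal_fst h1).add (isCbar_graph x.2)).add h2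

end Sheets

end Fermat.Agent.Semistable
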