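import Fermat.Agent.Semistable.Frobenius
import Fermat.Agent.Semistable.Instance
import Fermat.Agent.Carayol.Descent.Push
import Mathlib.RingTheory.Norm.Transitivity

/-!
# The norms to level `M` of the Kummer function of a torsion class, and `φ²` on classes killed by
the two push-forwards
-/

set_option autoImplicit false

noncomputable section

open ModularCurve AlgebraicCurve Fermat.Agent.Reduction
open Fermat.Agent.Igusa (twist twist_coeff coeffMap_twist)

namespace Fermat.Agent.Semistable

local notation "ℚbar" => AlgebraicClosure ℚ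
local notation "Γℚbar" => (AlgebraicClosure ℚ ≃ₐ[ℚ] AlgebraicClosure ℚ)

section General

variable {K F F' : Type*} [Field K] [Field F] [Field F'] [Algebra K F] [Algebra K F']

/-- The norm along an embedding of function fields. -/
def normAlong (φ : F →ₐ[K] F') (f : F') : F :=
  letI := algebraAlong φ
  Algebra.norm F f

theorem normAlong_comp (φ ψ : F →ₐ[K] F') (e : F' ≃ₐ[K] F') (h : ∀ x, e (ψ x) = φ x) (f : F') :
    normAlong ψ f = normAlong φ (e f) :=
  @Algebra.norm_eq_of_equiv_equiv F F' F F' _ _ _ _ (algebraAlong ψ) (algebraAlong φ)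
    (RingEquiv.refl F) e.toRingEquiv (RingHom.ext fun x => (h x).symm) f

variable [FF.IsFunctionField K F] [FF.IsFunctionField K F'] (φ : F →ₐ[K] F')

theorem normAlong_ne_zero {f : F'} (hf : f ≠ 0) : normAlong φ f ≠ 0 := by
  let _ := algebraAlong φ
  have : Module.Finite F F' := FF.finiteAlong φ
  exact Algebra.norm_ne_zero_iff.mpr hf

theorem ord_normAlong {f : F'} (hf : f ≠ 0) {D : Divisor K F'} (hD : ∀ w, D w = w.ord f)
    (v : Place K F) :
    v.ord (normAlong φ f) = Divisor.pushforwardAlong φ (FF.isIntegralAlong φ) D v :=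
  (FF.normFormulaAlong φ (FF.finiteAlong φ) f hf D hD v).symm

theorem exists_eq_algebraMap_of_ord_eq_zero [IsAlgClosed K] {f : F}
    (hf : ∀ v : Place K F, v.ord f = 0) : ∃ c : K, algebraMap K F c = f := by
  have hi : IsIntegral K f := ((FF.forall_ord_eq_zero_iff).mp hf).isIntegral
  exact minpoly.mem_range_of_degree_eq_one K f
    (IsAlgClosed.degree_eq_one_of_irreducible K (minpoly.irreducible hi))

theorem exists_normAlong_eq_pow [IsAlgClosed K] {m : ℕ} {D : Divisor K F'} {G : F'} (hG : G ≠ 0)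
    (hordG : ∀ w, w.ord G = -((m : ℤ) * D w))
    (hD : Divisor.pushforwardAlong φ (FF.isIntegralAlong φ) D ∈
      Divisor.principal (K := K) (F := F)) :
    ∃ (c : K) (h : F), c ≠ 0 ∧ h ≠ 0 ∧ normAlong φ G = algebraMap K F c * h ^ m := by
  obtain ⟨h₀, hh₀, hDh⟩ := hD
  have hN := normAlong_ne_zero φ hG
  have hord : ∀ v : Place K F, v.ord (normAlong φ G / (h₀⁻¹) ^ m) = 0 := fun v => by
    rw [FF.ord_div v hN (pow_ne_zero m (inv_ne_zero hh₀)), FF.ord_pow, v.ord_inv,
      ord_normAlong φ hG (D := -((m : ℤ) • D)) (fun w => by simp [hordG]) v, map_neg, map_zsmul,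
      Finsupp.neg_apply, Finsupp.smul_apply, smul_eq_mul, hDh v]
    ring
  obtain ⟨c, hc⟩ := exists_eq_algebraMap_of_ord_eq_zero hord
  rw [eq_div_iff (pow_ne_zero m (inv_ne_zero hh₀))] at hc
  refine ⟨c, h₀⁻¹, fun h => hN ?_, inv_ne_zero hh₀, hc.symm⟩
  rw [← hc, h, map_zero, zero_mul]

theorem pushforwardAlong_mem_principal_of_pushClass_eq_zero {D : Divisor.degZero (K := K) (F := F')}
    (h : Carayol.pushClass φ (Pic0.mk D) = 0) :
    Divisor.pushforwardAlong φ (FF.isIntegralAlong φ) (D : Divisor K F') ∈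
      Divisor.principal (K := K) (F := F) := by
  rw [Carayol.pushClass_mk] at h
  have h1 := (QuotientAddGroup.eq_zero_iff _).mp h
  rw [AddSubgroup.mem_addSubgroupOf] at h1
  exact h1

theorem exists_red_smul_eq {k : Type*} [Field k] {A : ValuationSubring K} {π : A →+* k}
    (hπ : Function.Surjective π) {e : K} {y : LaurentSeries K} {z x : LaurentSeries k}
    (hy : Red A π y z) (hz : z ≠ 0) (hx : Red A π (e • y) x) (hx0 : x ≠ 0) :
    ∃ a : k, a ≠ 0 ∧ x = a • z := by
  have he : e ∈ A := by
    have hzc : z.coeff z.order ≠ 0 := fun h => hz (HahnSeries.coeff_order_eq_zero.mp h)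
    have h1 := hy.coeff_valuation_eq_one hπ hzc
    have h2 := (ValuationSubring.valuation_le_one_iff _ _).mpr (hx.coeff_mem z.order)
    rw [coeff_smulC, map_mul, h1, mul_one] at h2
    exact (ValuationSubring.valuation_le_one_iff _ _).mp h2
  have h3 := hx.unique (hy.smul ⟨e, he⟩)
  exact ⟨π ⟨e, he⟩, fun h => hx0 (by rw [h3, h, zero_smul]), h3⟩

end General

variable {q M : ℕ} [NeZero q] [NeZero M] (w : ALData q M) (hq : q.Prime)

theorem normAlong_beta (f : modularFunctionFieldBar (M * q)) :
    normAlong (heckeBetaBar ℚbar M q) f =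
      normAlong (heckeAlphaBar ℚbar M q) (wEquiv w hq f) :=
  normAlong_comp _ _ _ (wEquiv_heckeBetaBar w hq) f

include w hq in
theorem qExpand_normAlpha (hqM : ¬ q ∣ M) {ζ : ℚbar} (hζ : IsPrimitiveRoot ζ q)
    {g : modularFunctionFieldBar M} (hga : ¬ (q : ℤ) ∣ (g : LaurentSeries ℚbar).order)
    (f : modularFunctionFieldBar (M * q)) :
    qExpand ℚbar q
        ((normAlong (heckeAlphaBar ℚbar M q) f : modularFunctionFieldBar M) : LaurentSeries ℚbar) =
      brInf f * ∏ i : Fin q, br w hq (zu hζ ^ (i : ℕ)) f := by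
  classical
  let _ := algebraAlong (heckeAlphaBar ℚbar M q)
  have : FiniteDimensional (modularFunctionFieldBar M) (modularFunctionFieldBar (M * q)) :=
    FF.finiteAlong (heckeAlphaBar ℚbar M q)
  have : CharZero (modularFunctionFieldBar M) :=
    charZero_of_injective_algebraMap (algebraMap ℚbar (modularFunctionFieldBar M)).injective
  let a : LaurentSeries ℚbar →+* AlgebraicClosure (LaurentSeries ℚbar) :=
    algebraMap (LaurentSeries ℚbar) (AlgebraicClosure (LaurentSeries ℚbar))
  let _ : Algebra (modularFunctionFieldBar M) (AlgebraicClosure (LaurentSeries ℚbar)) :=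
    (a.comp ((qExpand ℚbar q).comp (expInf M).toRingHom)).toAlgebra
  let Φ : Option (Fin q) → (modularFunctionFieldBar (M * q) →ₐ[modularFunctionFieldBar M]
      AlgebraicClosure (LaurentSeries ℚbar)) := fun o =>
    { a.comp (branch w hq hζ o) with
      commutes' := fun x => congrArg a (branch_alpha w hq hζ o x) }
  have hΦ : Function.Injective Φ := fun o o' h => by
    have h1 := AlgHom.congr_fun h (heckeBetaBar ℚbar M q g)
    exact branch_injective w hq hζ hga (a.injective h1)
  have hcard : Fintype.card (modularFunctionFieldBar (M * q) →ₐ[modularFunctionFieldBar M]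
      AlgebraicClosure (LaurentSeries ℚbar)) = Fintype.card (Option (Fin q)) := by
    rw [AlgHom.card, Fintype.card_option, Fintype.card_fin]
    have h := finrankAlong_alpha (q := q) (M := M) hq hqM
    unfold finrankAlong at h
    exact_mod_cast h
  have hbij : Function.Bijective Φ :=
    (Fintype.bijective_iff_injective_and_card Φ).mpr ⟨hΦ, hcard.symm⟩
  apply a.injective
  have htr := Algebra.norm_eq_prod_embeddings (modularFunctionFieldBar M)
    (E := AlgebraicClosure (LaurentSeries ℚbar)) f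
  rw [← hbij.prod_comp (fun σ => σ f), Fintype.prod_option] at htr
  rw [map_mul, map_prod]
  exact htr

include w hq in
/-- Norms of functions regular outside the two cusps are regular outside `∞`. -/
theorem regM_normAlpha {f : modularFunctionFieldBar (M * q)}
    (hf : RegOff (cuspInf (M * q)) (cuspZero w hq) f) :
    RegM (normAlong (heckeAlphaBar ℚbar M q) f) := by
  intro v hv
  classical
  let _ := algebraAlong (heckeAlphaBar ℚbar M q)
  have := isScalarTower_along (heckeAlphaBar ℚbar M q)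
  have : Module.Finite (modularFunctionFieldBar M) (modularFunctionFieldBar (M * q)) :=
    FF.finiteAlong (heckeAlphaBar ℚbar M q)
  have hα := FF.isIntegralAlong (heckeAlphaBar ℚbar M q)
  obtain ⟨b, hb, hrepr⟩ := FF.exists_semiLocal_basis (F' := modularFunctionFieldBar (M * q)) v
  have hfs : f ∈ FF.semiLocal (modularFunctionFieldBar (M * q)) v := fun u hu => by
    have hu' : u.restrictAlong (heckeAlphaBar ℚbar M q) hα = v := Place.mem_fiber.mp hu
    refine hf u (fun h => hv ?_) (fun h => hv ?_) <;> rw [← hu']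
    exacts [restrict_cusp w hq hα (Or.inl h), restrict_cusp w hq hα (Or.inr h)]
  refine FF.ord_nonneg_of_mem v ?_
  rw [show normAlong (heckeAlphaBar ℚbar M q) f = Algebra.norm (modularFunctionFieldBar M) f from
    rfl, Algebra.norm_eq_matrix_det b, Matrix.det_apply]
  refine sum_mem fun s _ => ?_
  rw [Units.smul_def]
  refine zsmul_mem (prod_mem fun i _ => ?_) _
  rw [Algebra.leftMulMatrix_eq_repr_mul]
  exact hrepr _ (Subalgebra.mul_mem _ hfs (hb i)) _

namespace LevelData

variable {k : Type*} [Field k] [IsAlgClosed k] {A : ValuationSubring ℚbar} {π : A →+* k}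
  [CharP k q] (L : LevelData A π M) (hA : A.LiesOverPrime q) (hπ : Function.Surjective π)
  (hqM : ¬ q ∣ M)

include L in
omit [IsAlgClosed k] in
theorem red_normAlpha (hπ : Function.Surjective π) (hqM : ¬ q ∣ M) [Fact q.Prime]
    (f : modularFunctionFieldBar (M * q)) {c₁ c₂ : ℚbar} {g₁ g₂ : LaurentSeries k}
    (h₁ : Red A π (c₁ • (f : LaurentSeries ℚbar)) g₁)
    (h₂ : Red A π (c₂ • (wEquiv w hq f : LaurentSeries ℚbar)) g₂) :
    Red A π ((c₁ * c₂ ^ q) •
        ((normAlong (heckeAlphaBar ℚbar M q) f : modularFunctionFieldBar M) : LaurentSeries ℚbar))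
      (g₁ * coeffMap (frobenius k q) g₂) := by
  obtain ⟨ζ, u, hζ, huζ, hu1⟩ := exists_zeta (π := π) hq
  obtain ⟨g, xg, n, -, -, -, -, -, -, hga⟩ := L.exists_gen hq hπ
  obtain ⟨fA, hfA, hfAx⟩ := red_iff_exists.mp h₁
  obtain ⟨wA, hwA, hwAx⟩ := red_iff_exists.mp h₂
  have hred : Red A π (qExpand ℚbar q ((c₁ * c₂ ^ q) •
      ((normAlong (heckeAlphaBar ℚbar M q) f : modularFunctionFieldBar M) : LaurentSeries ℚbar)))
      (qExpand k q (g₁ * coeffMap (frobenius k q) g₂)) := by
    refine red_iff_exists.mpr ⟨qExpand A q fA * ∏ i : Fin q, twist (u ^ (i : ℕ)) wA, ?_, ?_⟩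
    · rw [map_mul, map_prod, coeffMap_qExpand, hfA]
      have hbr : ∀ i : Fin q, coeffMap A.subtype (twist (u ^ (i : ℕ)) wA) =
          algebraMap ℚbar (LaurentSeries ℚbar) c₂ * br w hq (zu hζ ^ (i : ℕ)) f := fun i => by
        rw [coeffMap_twist, hwA, map_pow,
          show Units.map (A.subtype : A →* ℚbar) u = zu hζ from Units.ext huζ,
          smul_eq_algebraMap_mul, map_mul, ← br_apply]
        congr 1
        rw [algebraMap_laurentSeries_eq_single]
        ext n
        rw [twist_coeff]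
        by_cases hn : n = 0
        · simp [hn]
        · simp [HahnSeries.coeff_single_of_ne hn]
      rw [Finset.prod_congr rfl fun i _ => hbr i, Finset.prod_mul_distrib, Finset.prod_const,
        Finset.card_univ, Fintype.card_fin, smul_eq_algebraMap_mul, smul_eq_algebraMap_mul,
        map_mul (qExpand ℚbar q), map_mul (qExpand ℚbar q), qExpand_normAlpha w hq hqM hζ hga,
        brInf_apply, algebraMap_laurentSeries_eq_single, algebraMap_laurentSeries_eq_single,
        algebraMap_laurentSeries_eq_single, qExpand_single, qExpand_single, mul_zero,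
        HahnSeries.single_pow, nsmul_zero]
      rw [show HahnSeries.single (0 : ℤ) (c₁ * c₂ ^ q) =
        HahnSeries.single (0 : ℤ) c₁ * HahnSeries.single (0 : ℤ) (c₂ ^ q) by
          rw [HahnSeries.single_mul_single, add_zero]]
      ring
    · rw [map_mul, map_prod, coeffMap_qExpand, hfAx]
      simp only [red_twist_one hu1, hwAx, Finset.prod_const, Finset.card_univ, Fintype.card_fin]
      rw [map_mul, qExpand_coeffMap_frobenius]
  intro i
  obtain ⟨hi, hπi⟩ := hred ((q : ℤ) * i)
  simp only [qExpand_coeff_mul] at hi hπi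
  exact ⟨hi, hπi⟩

/-- The norm condition from the norm being a power. -/
theorem normPow [Fact q.Prime] {m : ℕ} (hm : 0 < m) {G : modularFunctionFieldBar (M * q)}
    (hreg : RegOff (cuspInf (M * q)) (cuspZero w hq) G) {c : ℚbar}
    {h : modularFunctionFieldBar M} (hc : c ≠ 0) (hh : h ≠ 0)
    (hN : normAlong (heckeAlphaBar ℚbar M q) G = algebraMap ℚbar _ c * h ^ m) :
    (L.sheets w hq hA hπ hqM).NormPow m G := by
  have hc' : algebraMap ℚbar (modularFunctionFieldBar M) c ≠ 0 := (map_ne_zero _).mpr hc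
  have hhR : RegM h := fun v hv => by
    have h1 := regM_normAlpha w hq hreg v hv
    rw [hN, v.ord_mul hc' (pow_ne_zero m hh), FF.ord_pow, FF.ord_algebraMap v c, zero_add] at h1
    nlinarith [(by exact_mod_cast hm : (0 : ℤ) < m)]
  obtain ⟨d, hd, z, hz, hdz⟩ := L.normalizable h hhR hh
  have hzC : z ∈ L.C := by
    refine L.red_mem (algebraMap ℚbar _ d * h) (fun v hv => ?_) z ?_
    · rw [v.ord_mul ((map_ne_zero _).mpr hd) hh, FF.ord_algebraMap v d, zero_add]
      exact hhR v hv
    · rw [IntermediateField.coe_mul, IntermediateField.coe_algebraMap_apply,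
        ← smul_eq_algebraMap_mul]
      exact hdz
  intro c₁ c₂ g₁ g₂ hc₁ hc₂ h₁ h₂ hg₁ hg₂
  have hr := L.red_normAlpha w hq hπ hqM G (g₁ := g₁) (g₂ := g₂) h₁ h₂
  have hσ : coeffMap (frobenius k q) g₂ ≠ 0 := fun h0 =>
    hg₂ ((coeffMap (frobenius k q)).injective (h0.trans (map_zero _).symm))
  have he : (c₁ * c₂ ^ q) •
      ((normAlong (heckeAlphaBar ℚbar M q) G : modularFunctionFieldBar M) : LaurentSeries ℚbar) =
      (c₁ * c₂ ^ q * c / d ^ m) • (d • (h : LaurentSeries ℚbar)) ^ m := by
    rw [hN, IntermediateField.coe_mul, IntermediateField.coe_pow,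
      IntermediateField.coe_algebraMap_apply]
    simp only [smul_eq_algebraMap_mul, mul_pow, ← map_pow]
    rw [← mul_assoc (algebraMap ℚbar (LaurentSeries ℚbar) (c₁ * c₂ ^ q * c / d ^ m)), ← map_mul,
      div_mul_cancel₀ _ (pow_ne_zero m hd), map_mul _ (c₁ * c₂ ^ q), mul_assoc]
  rw [he] at hr
  obtain ⟨a, ha, hax⟩ :=
    exists_red_smul_eq hπ (hdz.pow m) (pow_ne_zero m hz) hr (mul_ne_zero hg₁ hσ)
  exact ⟨a, z, hzC, ha, hz, hax⟩

/-- The square of a Frobenius element acting on the reduction. -/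
def frobSq [Fact q.Prime] {φ : Γℚbar} (hφ : A.IsFrobeniusAt φ q) :
    (L.sheets w hq hA hπ hqM).FrobSq where
  τ := (φ * φ).toRingEquiv
  g := arithmeticRingAut (modularFunctionFieldFull (M * q)) (φ * φ)
  P := galPlace (φ * φ) (M * q)
  ord_P := ord_galPlace (φ * φ)
  P_inf := galPlace_cuspInf (φ * φ) (M * q)
  P_zero := galPlace_cuspZero (φ * φ) w hq
  ι_g := fun f => coe_arithmeticRingAut_apply _ (φ * φ) f
  w_g := fun f => wEquiv_arithmeticRingAut w hq (φ * φ) f
  mem := fun _ ha => EC.Reduction.apply_mem_of_mem_decomposition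
    (mul_mem hφ.mem_decompositionSubgroup hφ.mem_decompositionSubgroup) ha
  val := valuation_apply_of_mem_decomposition hq hA
    (mul_mem hφ.mem_decompositionSubgroup hφ.mem_decompositionSubgroup)
  res := fun a => by
    have := isLocalHom_of_surjective' π hπ
    exact (EC.Reduction.res_frobenius hφ
      (EC.Reduction.res_frobenius hφ (EC.Reduction.Res.of_mem π a.2))).2

theorem frobSq_act [Fact q.Prime] {φ : Γℚbar} (hφ : A.IsFrobeniusAt φ q)
    (D : Divisor ℚbar (modularFunctionFieldBar (M * q))) :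
    (L.frobSq w hq hA hπ hqM hφ).act D =
      arithmeticGalois (modularFunctionFieldFull (M * q)) (φ * φ) • D := rfl

end LevelData

theorem smul_sub_eq_nsmul_of_sub_mem_principal {K F : Type*} [Field K] [Field F] [Algebra K F]
    (g : SemilinearAut K F) (n : ℕ) (D : Divisor.degZero (K := K) (F := F))
    (h : g • (g • (D : Divisor K F) - D) - (n : ℤ) • (g • (D : Divisor K F) - D) ∈
      Divisor.principal (K := K) (F := F)) :
    g • (g • Pic0.mk D - Pic0.mk D) = n • (g • Pic0.mk D - Pic0.mk D) := by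
  rw [← sub_eq_zero, SemilinearAut.pic0_smul_mk]
  change Pic0.mk (SemilinearAut.degZeroSMulHom g (SemilinearAut.degZeroSMulHom g D - D) -
    n • (SemilinearAut.degZeroSMulHom g D - D)) = 0
  refine (QuotientAddGroup.eq_zero_iff _).mpr ?_
  rw [AddSubgroup.mem_addSubgroupOf]
  rw [natCast_zsmul] at h
  simpa only [AddSubgroupClass.coe_sub, AddSubgroupClass.coe_nsmul,
    SemilinearAut.coe_degZeroSMulHom] using h

/-- The push-forward of divisor classes to level `M` along the first degeneracy map. -/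
abbrev pushA (q M : ℕ) [NeZero q] [NeZero M] : JZero (M * q) →+ JZero M :=
  Carayol.pushClass (heckeAlphaBar ℚbar M q)

/-- The push-forward of divisor classes to level `M` along the second degeneracy map. -/
abbrev pushB (q M : ℕ) [NeZero q] [NeZero M] : JZero (M * q) →+ JZero M :=
  Carayol.pushClass (heckeBetaBar ℚbar M q)

/-- On torsion prime to `q` killed by both push-forwards to level `M`, `φ²` multiplies
`φ² x - x` by `q²`. -/
theorem LevelData.smul_smul_sub_eq {k : Type*} [Field k] [IsAlgClosed k]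
    {A : ValuationSubring ℚbar} {π : A →+* k} [CharP k q] (L : LevelData A π M)
    (hA : A.LiesOverPrime q) (hπ : Function.Surjective π) (hqM : ¬ q ∣ M) (w : ALData q M)
    (hq : q.Prime) {φ : Γℚbar} (hφ : A.IsFrobeniusAt φ q) {n : ℕ} (hn : 0 < n) (hnq : ¬ q ∣ n)
    {x : JZero (M * q)} (hx : n • x = 0) (ha : pushA q M x = 0) (hb : pushB q M x = 0) :
    (φ * φ) • ((φ * φ) • x - x) = (q * q) • ((φ * φ) • x - x) := by
  have : Fact q.Prime := ⟨hq⟩
  have hnk : (n : k) ≠ 0 := by rwa [Ne, CharP.cast_eq_zero_iff k q]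
  set S := L.sheets w hq hA hπ hqM
  obtain ⟨D₀, rfl⟩ := Pic0.mk_surjective x
  obtain ⟨h₀, hh₀, hneg⟩ := S.exists_neg_rep (D₀ : Divisor ℚbar (modularFunctionFieldBar (M * q)))
  have hdeg : Divisor.degree ((D₀ : Divisor ℚbar (modularFunctionFieldBar (M * q))) -
      FF.divOf ℚbar h₀) = 0 := by
    rw [map_sub, Divisor.mem_degZero.mp D₀.2, FF.degree_divOf, sub_zero]
  set D : Divisor.degZero (K := ℚbar) (F := modularFunctionFieldBar (M * q)) :=
    ⟨_, Divisor.mem_degZero.mpr hdeg⟩ with hD
  have hmk : Pic0.mk D₀ = Pic0.mk D := by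
    rw [← sub_eq_zero]
    change Pic0.mk (D₀ - D) = 0
    refine (QuotientAddGroup.eq_zero_iff _).mpr ?_
    rw [AddSubgroup.mem_addSubgroupOf, AddSubgroupClass.coe_sub, hD, sub_sub_cancel]
    exact Sheets.divOf_mem_principal hh₀
  rw [hmk] at hx ha hb ⊢
  have hmD := zsmul_mem_principal_of_nsmul_eq_zero n D hx
  obtain ⟨G, hG, hGD⟩ := neg_mem hmD
  have hordG : ∀ v, v.ord G =
      -((n : ℤ) * (D : Divisor ℚbar (modularFunctionFieldBar (M * q))) v) := fun v => by
    rw [← hGD v]; simp
  have hreg : RegOff (cuspInf (M * q)) (cuspZero w hq) G := fun v h1 h2 => by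
    refine FF.mem_ordGE_of_le_ord v ?_
    rw [hordG]
    have h3 : (D : Divisor ℚbar (modularFunctionFieldBar (M * q))) v ≤ 0 := hneg v h1 h2
    nlinarith [Int.natCast_nonneg n]
  obtain ⟨c₁, a₁, hc₁, ha₁, e₁⟩ := exists_normAlong_eq_pow (heckeAlphaBar ℚbar M q) hG hordG
    (pushforwardAlong_mem_principal_of_pushClass_eq_zero _ ha)
  obtain ⟨c₂, a₂, hc₂, ha₂, e₂⟩ := exists_normAlong_eq_pow (heckeBetaBar ℚbar M q) hG hordG
    (pushforwardAlong_mem_principal_of_pushClass_eq_zero _ hb)
  rw [normAlong_beta w hq] at e₂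
  have h := (L.frobSq w hq hA hπ hqM hφ).sub_smul_mem_principal hn hnk hdeg hneg hG hordG
    (L.normPow w hq hA hπ hqM hn hreg hc₁ ha₁ e₁)
    (L.normPow w hq hA hπ hqM hn (regOff_wEquiv w hq hreg) hc₂ ha₂ e₂)
  rw [frobSq_act, frobSq_act] at h
  rw [galois_smul_pic0_def, galois_smul_pic0_def]
  exact smul_sub_eq_nsmul_of_sub_mem_principal _ (q * q) D h

end Fermat.Agent.Semistable
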