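import Fermat.Agent.Reduction.Valued
import Fermat.Prelude.Def_ModularCurve_X0
import Fermat.Agent.Reduction.Roots

/-!
# Pairs of Laurent series with a reduction map

A function on a two-component reduction is seen through its two expansions. Pairs of series are
turned into single series by interleaving, so that the lattice lemmas of `Reduction.Valued` apply.
-/

set_option autoImplicit false

noncomputable section

namespace Fermat.Agent.Semistable

open HahnSeries ModularCurve Fermat.Agent.Reduction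

variable {K k : Type*} [Field K] [Field k] {A : ValuationSubring K} {π : A →+* k}

/-- Pairs of series. -/
abbrev Ser2 (R : Type*) [Zero R] : Type _ := LaurentSeries R × LaurentSeries R

variable (A π) in
/-- Componentwise reduction of a pair. -/
def Red2 (y : Ser2 K) (x : Ser2 k) : Prop := Red A π y.1 x.1 ∧ Red A π y.2 x.2

namespace Red2

variable {y y' : Ser2 K} {x x' : Ser2 k}

theorem unique (h : Red2 A π y x) (h' : Red2 A π y x') : x = x' :=
  Prod.ext (h.1.unique h'.1) (h.2.unique h'.2)

theorem add (h : Red2 A π y x) (h' : Red2 A π y' x') : Red2 A π (y + y') (x + x') :=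
  ⟨h.1.add h'.1, h.2.add h'.2⟩

theorem sub (h : Red2 A π y x) (h' : Red2 A π y' x') : Red2 A π (y - y') (x - x') :=
  ⟨h.1.sub h'.1, h.2.sub h'.2⟩

theorem neg (h : Red2 A π y x) : Red2 A π (-y) (-x) :=
  ⟨h.1.neg, h.2.neg⟩

theorem mul (h : Red2 A π y x) (h' : Red2 A π y' x') : Red2 A π (y * y') (x * x') :=
  ⟨h.1.mul h'.1, h.2.mul h'.2⟩

theorem pow (h : Red2 A π y x) (n : ℕ) : Red2 A π (y ^ n) (x ^ n) :=
  ⟨h.1.pow n, h.2.pow n⟩

theorem smul (h : Red2 A π y x) (a : A) : Red2 A π ((a : K) • y) (π a • x) :=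
  ⟨h.1.smul a, h.2.smul a⟩

theorem swap (h : Red2 A π y x) : Red2 A π y.swap x.swap := ⟨h.2, h.1⟩

end Red2

theorem red2_zero : Red2 A π (0 : Ser2 K) 0 := ⟨red_zero, red_zero⟩

theorem red2_one : Red2 A π (1 : Ser2 K) 1 := ⟨red_one, red_one⟩

/-! ### Interleaving -/

/-- `(f, g) ↦ f(q²) + q g(q²)`. -/
def interleave (R : Type*) [Field R] : Ser2 R →ₗ[R] LaurentSeries R where
  toFun y := qExpand R 2 y.1 + HahnSeries.single 1 1 * qExpand R 2 y.2
  map_add' a b := by simp only [Prod.fst_add, Prod.snd_add, map_add]; ring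
  map_smul' c y := by
    simp only [RingHom.id_apply, Prod.smul_fst, Prod.smul_snd, smul_eq_algebraMap_mul, map_mul,
      algebraMap_laurentSeries_eq_single, qExpand_single, mul_zero]
    ring

theorem interleave_coeff_even {R : Type*} [Field R] (y : Ser2 R) (i : ℤ) :
    (interleave R y).coeff (2 * i) = y.1.coeff i := by
  show (qExpand R 2 y.1 + HahnSeries.single 1 1 * qExpand R 2 y.2).coeff (2 * i) = _
  rw [HahnSeries.coeff_add, HahnSeries.coeff_single_mul, one_mul,
    qExpand_coeff_of_not_dvd 2 y.2 (k := 2 * i - 1) (by push_cast; omega), add_zero]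
  exact qExpand_coeff_mul 2 y.1 i

theorem interleave_coeff_odd {R : Type*} [Field R] (y : Ser2 R) (i : ℤ) :
    (interleave R y).coeff (2 * i + 1) = y.2.coeff i := by
  show (qExpand R 2 y.1 + HahnSeries.single 1 1 * qExpand R 2 y.2).coeff (2 * i + 1) = _
  rw [HahnSeries.coeff_add, HahnSeries.coeff_single_mul, one_mul,
    qExpand_coeff_of_not_dvd 2 y.1 (k := 2 * i + 1) (by push_cast; omega), zero_add,
    add_sub_cancel_right]
  exact qExpand_coeff_mul 2 y.2 i

theorem interleave_injective (R : Type*) [Field R] : Function.Injective (interleave R) := by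
  intro a b h
  refine Prod.ext ?_ ?_ <;> ext i
  · rw [← interleave_coeff_even, h, interleave_coeff_even]
  · rw [← interleave_coeff_odd, h, interleave_coeff_odd]

theorem red_interleave {y : Ser2 K} {x : Ser2 k} :
    Red A π (interleave K y) (interleave k x) ↔ Red2 A π y x := by
  constructor
  · intro h
    refine ⟨fun i => ?_, fun i => ?_⟩
    · have := h (2 * i)
      simp only [interleave_coeff_even] at this
      exact this
    · have := h (2 * i + 1)
      simp only [interleave_coeff_odd] at this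
      exact this
  · intro h n
    rcases Int.even_or_odd' n with ⟨i, rfl | rfl⟩
    · simp only [interleave_coeff_even]
      exact h.1 i
    · simp only [interleave_coeff_odd]
      exact h.2 i

theorem exists_of_red_interleave {y : Ser2 K} {z : LaurentSeries k}
    (h : Red A π (interleave K y) z) : ∃ x, Red2 A π y x ∧ interleave k x = z := by
  have h1 : ∀ i, y.1.coeff i ∈ A := fun i => interleave_coeff_even y i ▸ h.coeff_mem _
  have h2 : ∀ i, y.2.coeff i ∈ A := fun i => interleave_coeff_odd y i ▸ h.coeff_mem _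
  obtain ⟨x1, hx1⟩ := exists_red_of_coeff_mem π h1
  obtain ⟨x2, hx2⟩ := exists_red_of_coeff_mem π h2
  have h2 : Red2 A π y (x1, x2) := ⟨hx1, hx2⟩
  exact ⟨(x1, x2), h2, (red_interleave.mpr h2).unique h⟩

/-- A pair can be scaled to an integral pair with nonzero reduction. -/
def Normalizable2 (A : ValuationSubring K) (π : A →+* k) (y : Ser2 K) : Prop :=
  ∃ c : K, c ≠ 0 ∧ ∃ x : Ser2 k, x ≠ 0 ∧ Red2 A π (c • y) x

theorem normalizable2_of_components {y : Ser2 K} (hy : y ≠ 0)
    (h1 : y.1 ≠ 0 → Normalizable A π y.1) (h2 : y.2 ≠ 0 → Normalizable A π y.2) :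
    Normalizable2 A π y := by
  rcases eq_or_ne y.1 0 with hz1 | hz1
  · obtain ⟨c, hc, x, hx, hr⟩ := h2 fun hz2 => hy (Prod.ext hz1 hz2)
    refine ⟨c, hc, (0, x), fun h => hx (congrArg Prod.snd h), ?_, hr⟩
    rw [Prod.smul_fst, hz1, smul_zero]
    exact red_zero
  rcases eq_or_ne y.2 0 with hz2 | hz2
  · obtain ⟨c, hc, x, hx, hr⟩ := h1 hz1
    refine ⟨c, hc, (x, 0), fun h => hx (congrArg Prod.fst h), hr, ?_⟩
    rw [Prod.smul_snd, hz2, smul_zero]
    exact red_zero
  obtain ⟨c₁, hc₁, x₁, hx₁, hr₁⟩ := h1 hz1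
  obtain ⟨c₂, hc₂, x₂, hx₂, hr₂⟩ := h2 hz2
  rcases le_total (A.valuation c₁) (A.valuation c₂) with hle | hle
  · have hmem : c₁ / c₂ ∈ A := by
      rw [← ValuationSubring.valuation_le_one_iff, map_div₀]
      exact (div_le_one₀ (zero_lt_iff.mpr ((A.valuation.ne_zero_iff).mpr hc₂))).mpr hle
    refine ⟨c₁, hc₁, (x₁, π ⟨_, hmem⟩ • x₂), fun h => hx₁ (congrArg Prod.fst h), hr₁, ?_⟩
    have h := hr₂.smul (⟨_, hmem⟩ : A)
    rwa [smul_smul, div_mul_cancel₀ _ hc₂] at h
  · have hmem : c₂ / c₁ ∈ A := by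
      rw [← ValuationSubring.valuation_le_one_iff, map_div₀]
      exact (div_le_one₀ (zero_lt_iff.mpr ((A.valuation.ne_zero_iff).mpr hc₁))).mpr hle
    refine ⟨c₂, hc₂, (π ⟨_, hmem⟩ • x₁, x₂), fun h => hx₂ (congrArg Prod.snd h), ?_, hr₂⟩
    have h := hr₁.smul (⟨_, hmem⟩ : A)
    rwa [smul_smul, div_mul_cancel₀ _ hc₁] at h

theorem normalizable_interleave {y : Ser2 K} (h : Normalizable2 A π y) :
    Normalizable A π (interleave K y) := by
  obtain ⟨c, hc, x, hx, hr⟩ := h
  refine ⟨c, hc, interleave k x, fun h0 => hx (interleave_injective k (h0.trans (map_zero _).symm)),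
    ?_⟩
  rw [← map_smul]
  exact red_interleave.mpr hr

/-! ### Reductions of a space of functions seen through a pair of expansions -/

section Space

variable {M : Type*} [AddCommGroup M] [Module K M]

/-- Reductions of the integral elements of `V`. -/
def redPair (hπ : Function.Surjective π) (T : M →ₗ[K] Ser2 K) (V : Submodule K M) :
    Submodule k (Ser2 k) where
  carrier := {x | ∃ f ∈ V, Red2 A π (T f) x}
  zero_mem' := ⟨0, V.zero_mem, by rw [map_zero]; exact red2_zero⟩
  add_mem' := fun {a b} ⟨f, hf, ha⟩ ⟨g, hg, hb⟩ =>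
    ⟨f + g, V.add_mem hf hg, by rw [map_add]; exact ha.add hb⟩
  smul_mem' := fun c x ⟨f, hf, hx⟩ => by
    obtain ⟨a, rfl⟩ := hπ c
    exact ⟨(a : K) • f, V.smul_mem _ hf, by rw [map_smul]; exact hx.smul a⟩

theorem mem_redPair {hπ : Function.Surjective π} {T : M →ₗ[K] Ser2 K} {V : Submodule K M}
    {x : Ser2 k} : x ∈ redPair hπ T V ↔ ∃ f ∈ V, Red2 A π (T f) x := Iff.rfl

theorem redPair_mono (hπ : Function.Surjective π) (T : M →ₗ[K] Ser2 K) {V W : Submodule K M}
    (h : V ≤ W) : redPair hπ T V ≤ redPair hπ T W :=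
  fun _ ⟨f, hf, hx⟩ => ⟨f, h hf, hx⟩

theorem redPair_map_interleave (hπ : Function.Surjective π) (T : M →ₗ[K] Ser2 K)
    (V : Submodule K M) :
    (redPair hπ T V).map (interleave k) = redSub hπ (V.map ((interleave K).comp T)) := by
  ext z
  simp only [Submodule.mem_map, mem_redPair, mem_redSub, LinearMap.comp_apply]
  constructor
  · rintro ⟨x, ⟨f, hf, hx⟩, rfl⟩
    exact ⟨_, ⟨f, hf, rfl⟩, red_interleave.mpr hx⟩
  · rintro ⟨_, ⟨f, hf, rfl⟩, hz⟩
    obtain ⟨x, hx, rfl⟩ := exists_of_red_interleave hz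
    exact ⟨x, ⟨f, hf, hx⟩, rfl⟩

theorem normalizableSub_map {T : M →ₗ[K] Ser2 K} {V : Submodule K M}
    (hN : ∀ f ∈ V, f ≠ 0 → Normalizable2 A π (T f)) :
    NormalizableSub A π (V.map ((interleave K).comp T)) := by
  rintro _ ⟨f, hf, rfl⟩ hne
  exact normalizable_interleave (hN f hf fun h => hne (by simp [h]))

theorem finiteDimensional_redPair (hπ : Function.Surjective π) (T : M →ₗ[K] Ser2 K)
    (V : Submodule K M) [FiniteDimensional K V] : FiniteDimensional k (redPair hπ T V) := by
  have := (finiteDimensional_redSub hπ (V.map ((interleave K).comp T))).1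
  rw [← redPair_map_interleave] at this
  exact Module.Finite.equiv
    (Submodule.equivMapOfInjective _ (interleave_injective k) (redPair hπ T V)).symm

/-- **Reduction of pairs preserves dimension.** -/
theorem finrank_redPair (hπ : Function.Surjective π) (T : M →ₗ[K] Ser2 K)
    (V : Submodule K M) [FiniteDimensional K V]
    (hN : ∀ f ∈ V, f ≠ 0 → Normalizable2 A π (T f)) :
    Module.finrank k (redPair hπ T V) = Module.finrank K V := by
  rw [(Submodule.equivMapOfInjective _ (interleave_injective k) (redPair hπ T V)).finrank_eq,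
    redPair_map_interleave, finrank_redSub hπ _ (normalizableSub_map hN)]
  have hker : LinearMap.ker (((interleave K).comp T).comp V.subtype) = ⊥ := by
    rw [LinearMap.ker_eq_bot']
    intro f hf
    by_contra hne
    obtain ⟨c, -, x, hx, hr⟩ := hN f f.2 fun h => hne (Subtype.ext h)
    have h0 : T f = 0 := interleave_injective K (by simpa using hf)
    rw [h0, smul_zero] at hr
    exact hx (hr.unique red2_zero)
  rw [← LinearMap.finrank_range_of_inj (LinearMap.ker_eq_bot.mp hker), LinearMap.range_comp,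
    Submodule.range_subtype]

/-- **Coefficient bound for pairs**: if the negative coefficients separate `V` then they bound
all coefficients. -/
theorem exists_pair_bound (T : M →ₗ[K] Ser2 K) (V : Submodule K M) [FiniteDimensional K V]
    (hN : ∀ f ∈ V, f ≠ 0 → Normalizable2 A π (T f))
    (hsep : ∀ f ∈ V, (∀ i < (0 : ℤ), (T f).1.coeff i = 0 ∧ (T f).2.coeff i = 0) → T f = 0) :
    ∃ B : A.ValueGroup, B ≠ 0 ∧ ∀ f ∈ V, ∀ r : A.ValueGroup,
      (∀ i < (0 : ℤ), A.valuation ((T f).1.coeff i) ≤ r ∧ A.valuation ((T f).2.coeff i) ≤ r) →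
        A.valuation ((T f).1.coeff 0) ≤ B * r := by
  obtain ⟨B, hB0, hB⟩ := exists_valuation_bound {i : ℤ | i < 0}
    (V.map ((interleave K).comp T)) (normalizableSub_map hN) (by
      rintro _ ⟨f, hf, rfl⟩ h
      rw [LinearMap.comp_apply, hsep f hf fun i hi => ⟨?_, ?_⟩, map_zero]
      · rw [← interleave_coeff_even]
        exact h (2 * i) (show 2 * i < 0 by omega)
      · rw [← interleave_coeff_odd]
        exact h (2 * i + 1) (show 2 * i + 1 < 0 by omega))
  refine ⟨B, hB0, fun f hf r hr => ?_⟩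
  have := hB _ ⟨f, hf, rfl⟩ r (fun n (hn : n < 0) => by
    rw [LinearMap.comp_apply]
    rcases Int.even_or_odd' n with ⟨i, rfl | rfl⟩
    · rw [interleave_coeff_even]; exact (hr i (by omega)).1
    · rw [interleave_coeff_odd]; exact (hr i (by omega)).2) (2 * 0)
  rwa [LinearMap.comp_apply, interleave_coeff_even] at this

end Space

/-! ### Complements on single series -/

theorem poleLE_qExpand {R : Type*} [Field R] {y : LaurentSeries R} {a : ℤ} (n : ℕ) [NeZero n]
    (h : PoleLE a y) : PoleLE (n * a) (qExpand R n y) := by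
  intro i hi
  by_cases hd : (n : ℤ) ∣ i
  · obtain ⟨j, rfl⟩ := hd
    rw [qExpand_coeff_mul]
    exact h j (lt_of_mul_lt_mul_left (by linarith) (Int.natCast_nonneg n))
  · exact qExpand_coeff_of_not_dvd n y hd

/-- If `G` is integral with nonzero reduction and `G * r` is integral, then `r` is integral and
its reduction is the quotient. -/
theorem exists_red_of_mul (hπ : Function.Surjective π) {G r : LaurentSeries K}
    {g x : LaurentSeries k} (hG : Red A π G g) (hg : g ≠ 0) (hGr : Red A π (G * r) x)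
    (hr : r = 0 ∨ Normalizable A π r) : ∃ z, Red A π r z ∧ g * z = x := by
  rcases hr with rfl | ⟨c, hc, z, hz, hcz⟩
  · refine ⟨0, red_zero, ?_⟩
    rw [mul_zero] at hGr ⊢
    exact red_zero.unique hGr
  obtain ⟨i, hi⟩ : ∃ i, (g * z).coeff i ≠ 0 := by
    by_contra hall
    push Not at hall
    exact mul_ne_zero hg hz (HahnSeries.ext (funext hall))
  have hprod := hG.mul hcz
  have h1 := hprod.coeff_valuation_eq_one hπ hi
  have h2 := (ValuationSubring.valuation_le_one_iff _ _).mpr (hGr.coeff_mem i)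
  have he : G * c • r = c • (G * r) := by
    rw [smul_eq_algebraMap_mul, smul_eq_algebraMap_mul, mul_left_comm]
  rw [he, coeff_smulC, map_mul] at h1
  have hcA : c⁻¹ ∈ A := by
    rw [← ValuationSubring.valuation_le_one_iff, map_inv₀]
    rw [mul_comm] at h1
    rwa [← eq_inv_of_mul_eq_one_left h1]
  refine ⟨π ⟨c⁻¹, hcA⟩ • z, ?_, ?_⟩
  · have := hcz.smul (⟨c⁻¹, hcA⟩ : A)
    rwa [smul_smul, inv_mul_cancel₀ hc, one_smul] at this
  · refine (hG.mul ?_).unique hGr
    have := hcz.smul (⟨c⁻¹, hcA⟩ : A)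
    rwa [smul_smul, inv_mul_cancel₀ hc, one_smul] at this

/-- An integral series whose leading coefficient is a unit has an integral inverse. -/
theorem exists_red_inv (hπ : Function.Surjective π) {G : LaurentSeries K} {g : LaurentSeries k}
    (hG : Red A π G g) (hg : g ≠ 0) (hlow : ∀ i < g.order, G.coeff i = 0) :
    Red A π G⁻¹ g⁻¹ := by
  obtain ⟨z, rfl, rfl⟩ := red_iff_exists.mp hG
  set o := (coeffMap π z).order with ho
  have hlead : IsUnit (z.coeff o) := by
    rw [ValuationSubring.valuation_eq_one_iff, ← residue_ne_zero_iff hπ, ← coeffMap_coeff π z, ho]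
    exact fun h => hg (HahnSeries.coeff_order_eq_zero.mp h)
  set p : PowerSeries A := PowerSeries.mk fun n => z.coeff (o + n) with hp
  have hzp : z = HahnSeries.single o 1 * HahnSeries.ofPowerSeries ℤ A p := by
    ext i
    rw [HahnSeries.coeff_single_mul, one_mul]
    rcases lt_or_ge i o with hlt | hge
    · rw [ofPowerSeries_coeff_of_neg _ (by omega)]
      have := hlow i hlt
      rw [coeffMap_coeff] at this
      exact this
    · obtain ⟨n, hn⟩ := Int.eq_ofNat_of_zero_le (a := i - o) (by omega)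
      rw [hn, HahnSeries.ofPowerSeries_apply_coeff, hp, PowerSeries.coeff_mk]
      rw [show o + (n : ℤ) = i by omega]
  obtain ⟨u, hu⟩ : IsUnit p := PowerSeries.isUnit_iff_constantCoeff.mpr (by
    simpa [hp, ← PowerSeries.coeff_zero_eq_constantCoeff_apply] using hlead)
  set w : LaurentSeries A :=
    HahnSeries.single (-o) 1 * HahnSeries.ofPowerSeries ℤ A (u⁻¹ : (PowerSeries A)ˣ) with hw
  have hzw : z * w = 1 := by
    rw [hzp, hw, mul_mul_mul_comm, HahnSeries.single_mul_single, ← map_mul, ← hu, Units.mul_inv,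
      map_one, add_neg_cancel, mul_one, mul_one]
    rfl
  refine red_iff_exists.mpr ⟨w, eq_inv_of_mul_eq_one_right ?_, eq_inv_of_mul_eq_one_right ?_⟩
  · rw [← map_mul, hzw, map_one]
  · rw [← map_mul, hzw, map_one]

end Fermat.Agent.Semistable
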