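import Fermat.Agent.Semistable.Steps

/-!
# Trivial torsion classes of order prime to the residue characteristic are principal
-/

set_option autoImplicit false

noncomputable section

namespace Fermat.Agent.Semistable

open HahnSeries AlgebraicCurve ModularCurve Fermat.Agent.Reduction

variable {K F k : Type*} [Field K] [Field F] [Algebra K F] [Field k] {A : ValuationSubring K}
  {π : A →+* k} {q : ℕ} [NeZero q]

/-! ### Bounds on coefficients of pairs -/

variable (A) in
/-- Both series are bounded by `r`. -/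
def Bdd2 (y : Ser2 K) (r : A.ValueGroup) : Prop := BoundedBy A y.1 r ∧ BoundedBy A y.2 r

theorem boundedBy_one_one : BoundedBy A (1 : LaurentSeries K) 1 := fun i => by
  rw [HahnSeries.coeff_one]
  split_ifs <;> simp

theorem boundedBy_add {y z : LaurentSeries K} {r : A.ValueGroup} (hy : BoundedBy A y r)
    (hz : BoundedBy A z r) : BoundedBy A (y + z) r := fun i => by
  rw [HahnSeries.coeff_add]
  exact (A.valuation.map_add _ _).trans (max_le (hy i) (hz i))

theorem boundedBy_neg {y : LaurentSeries K} {r : A.ValueGroup} (hy : BoundedBy A y r) :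
    BoundedBy A (-y) r := fun i => by
  rw [HahnSeries.coeff_neg, Valuation.map_neg]
  exact hy i

namespace Bdd2

variable {y z : Ser2 K} {r s : A.ValueGroup}

theorem mono (hy : Bdd2 A y r) (h : r ≤ s) : Bdd2 A y s := ⟨hy.1.mono h, hy.2.mono h⟩

theorem add (hy : Bdd2 A y r) (hz : Bdd2 A z r) : Bdd2 A (y + z) r :=
  ⟨boundedBy_add hy.1 hz.1, boundedBy_add hy.2 hz.2⟩

theorem neg (hy : Bdd2 A y r) : Bdd2 A (-y) r := ⟨boundedBy_neg hy.1, boundedBy_neg hy.2⟩

theorem sub (hy : Bdd2 A y r) (hz : Bdd2 A z r) : Bdd2 A (y - z) r := by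
  rw [sub_eq_add_neg]; exact hy.add hz.neg

theorem mul (hy : Bdd2 A y r) (hz : Bdd2 A z s) : Bdd2 A (y * z) (r * s) :=
  ⟨hy.1.mul hz.1, hy.2.mul hz.2⟩

theorem pow (hy : Bdd2 A y 1) (n : ℕ) : Bdd2 A (y ^ n) 1 := by
  induction n with
  | zero => rw [pow_zero]; exact ⟨boundedBy_one_one, boundedBy_one_one⟩
  | succ n ih => rw [pow_succ]; exact (ih.mul hy).mono (mul_one _).le

theorem sum {ι : Type*} (s : Finset ι) {y : ι → Ser2 K} (h : ∀ i ∈ s, Bdd2 A (y i) r) :
    Bdd2 A (∑ i ∈ s, y i) r := by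
  classical
  induction s using Finset.induction with
  | empty => simp [Bdd2, BoundedBy]
  | insert a s ha ih =>
    rw [Finset.sum_insert ha]
    exact (h a (Finset.mem_insert_self a s)).add
      (ih fun i hi => h i (Finset.mem_insert_of_mem hi))

theorem red2_zero (hπ : Function.Surjective π) (hy : Bdd2 A y r) (hr : r < 1) :
    Red2 A π y 0 := by
  have key : ∀ w : LaurentSeries K, BoundedBy A w r → Red A π w 0 := fun w hw => by
    obtain ⟨z, hz⟩ := exists_red_of_coeff_mem π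
      (fun i => (ValuationSubring.valuation_le_one_iff _ _).mp ((hw i).trans hr.le))
    rwa [(hz.eq_zero_iff hπ).mpr fun i => (hw i).trans_lt hr] at hz
  exact ⟨key _ hy.1, key _ hy.2⟩

end Bdd2

theorem Red2.bdd2 {y : Ser2 K} {x : Ser2 k} (h : Red2 A π y x) : Bdd2 A y 1 :=
  ⟨h.1.boundedBy, h.2.boundedBy⟩

theorem exists_poly_one_add {R : Type*} [CommRing R] (P : R → Prop) (hone : P 1)
    (hadd : ∀ a b, P a → P b → P (a + b)) (hmul : ∀ a b, P a → P b → P (a * b))
    (hzero : P 0) {z : R} (hz : P z) (m : ℕ) :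
    ∃ Q, P Q ∧ (1 + z) ^ m = 1 + (m : R) * z + z ^ 2 * Q := by
  induction m with
  | zero => exact ⟨0, hzero, by simp⟩
  | succ m ih =>
    obtain ⟨Q, hQ, he⟩ := ih
    have hnat : ∀ j : ℕ, P (j : R) := fun j => by
      induction j with
      | zero => simpa using hzero
      | succ j hj => push_cast; exact hadd _ _ hj hone
    refine ⟨Q * (1 + z) + m, hadd _ _ (hmul _ _ hQ (hadd _ _ hone hz)) (hnat m), ?_⟩
    rw [pow_succ, he]
    push_cast
    ring

namespace Sheets

variable {S : Sheets A π q F} {m : ℕ}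

/-- A trivial class with multiplier one, normalised at the cusps, is principal. -/
theorem Datum.IsTrivial.mem_principal [IsAlgClosed K] [IsAlgClosed k] [FF.IsFunctionField K F]
    (d : S.Datum m) (hm : 0 < m) (hmk : (m : k) ≠ 0) (hu : d.ū = 1) (hd : d.IsTrivial) {n : ℤ}
    (hi : d.E S.inf ≤ n) (hz : d.E S.zero ≤ n) (ho1 : d.η.1.order = -n)
    (ho2 : d.η.2.order = -n) : d.E ∈ Divisor.principal (K := K) (F := F) := by
  classical
  have hπ := S.surj
  -- roots of the two expansions of `G`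
  have hG : Red2 A π (S.T d.G) (d.η ^ m) := by
    have := d.red_G
    rwa [hu, scale2_one] at this
  have hlow : ∀ {v : Place K F} {y : LaurentSeries K} {x : LaurentSeries k},
      v.ord d.G = y.order → d.E v ≤ n → x.order = -n →
      ∀ i < (m : ℤ) * x.order, y.coeff i = 0 := by
    intro v y x hv hle hx i hlt
    refine HahnSeries.coeff_eq_zero_of_lt_order (lt_of_lt_of_le hlt ?_)
    rw [← hv, d.ord_G, hx]
    nlinarith [Int.natCast_nonneg m]
  obtain ⟨s₁, hs₁pow, hs₁red, hs₁pole, hs₁lead, -⟩ := exists_pow_eq_of_red hπ hmk d.η₁_ne hG.1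
    (hlow (S.ord_inf d.G) hi ho1)
  obtain ⟨s₂, hs₂pow, hs₂red, hs₂pole, hs₂lead, -⟩ := exists_pow_eq_of_red hπ hmk d.η₂_ne hG.2
    (hlow (S.ord_zero d.G) hz ho2)
  rw [ho1] at hs₁pole hs₁lead
  rw [ho2] at hs₂pole hs₂lead
  rw [neg_neg] at hs₁pole hs₂pole
  have hs₁0 : s₁ ≠ 0 := fun h => hs₁lead (by rw [h]; rfl)
  have hs₂0 : s₂ ≠ 0 := fun h => hs₂lead (by rw [h]; rfl)
  have hs₁ord : s₁.order = -n :=
    le_antisymm (HahnSeries.order_le_of_coeff_ne_zero hs₁lead) ((poleLE_iff_order hs₁0).mp hs₁pole)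
  have hs₂ord : s₂.order = -n :=
    le_antisymm (HahnSeries.order_le_of_coeff_ne_zero hs₂lead) ((poleLE_iff_order hs₂0).mp hs₂pole)
  have hEinf : d.E S.inf = n := by
    have h1 := S.ord_inf d.G
    rw [d.ord_G, show S.ι d.G = s₁ ^ m from hs₁pow.symm, order_pow_eq hs₁0, hs₁ord] at h1
    have : (m : ℤ) ≠ 0 := by exact_mod_cast hm.ne'
    exact mul_left_cancel₀ this (by linarith)
  have hEzero : d.E S.zero = n := by
    have h1 := S.ord_zero d.G
    rw [d.ord_G, show S.ι (S.w d.G) = s₂ ^ m from hs₂pow.symm, order_pow_eq hs₂0, hs₂ord] at h1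
    have : (m : ℤ) ≠ 0 := by exact_mod_cast hm.ne'
    exact mul_left_cancel₀ this (by linarith)
  have hr₁ : Red A π s₁⁻¹ d.η.1⁻¹ := exists_red_inv hπ hs₁red d.η₁_ne
    (fun i hi' => hs₁pole i (by rw [ho1] at hi'; exact hi'))
  have hr₂ : Red A π s₂⁻¹ d.η.2⁻¹ := exists_red_inv hπ hs₂red d.η₂_ne
    (fun i hi' => hs₂pole i (by rw [ho2] at hi'; exact hi'))
  -- the normalised expansions
  set T' : F →ₗ[K] Ser2 K := (mulPair ((s₁⁻¹, s₂⁻¹) : Ser2 K)).comp S.T
  have hT'1 : ∀ f, (T' f).1 = s₁⁻¹ * S.ι f := fun f => rfl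
  have hT'2 : ∀ f, (T' f).2 = s₂⁻¹ * S.ι (S.w f) := fun f => rfl
  have hTmul : ∀ f g, T' (f * g) = T' f * S.T g := fun f g => by
    refine Prod.ext ?_ ?_ <;> simp only [Prod.fst_mul, Prod.snd_mul, hT'1, hT'2, map_mul, T_fst,
      T_snd] <;> ring
  have hred' : ∀ {f : F} {a : Ser2 k}, Red2 A π (S.T f) (d.η * a) → Red2 A π (T' f) a :=
    fun {f a} h => by
      refine ⟨?_, ?_⟩
      · have := hr₁.mul h.1
        rwa [Prod.fst_mul, inv_mul_cancel_left₀ d.η₁_ne] at this
      · have := hr₂.mul h.2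
        rwa [Prod.snd_mul, inv_mul_cancel_left₀ d.η₂_ne] at this
  have hpow : ∀ f, T' f ^ m = S.T (f ^ m / d.G) := fun f => by
    refine Prod.ext ?_ ?_
    · show (s₁⁻¹ * S.ι f) ^ m = S.ι (f ^ m / d.G)
      rw [mul_pow, inv_pow, hs₁pow, map_div₀, map_pow, div_eq_inv_mul]
      rfl
    · show (s₂⁻¹ * S.ι (S.w f)) ^ m = S.ι (S.w (f ^ m / d.G))
      rw [mul_pow, inv_pow, hs₂pow, map_div₀, map_div₀, map_pow, map_pow, div_eq_inv_mul]
      rfl
  have hpowmem : ∀ {N : ℤ} {f : F}, f ∈ S.L d.E N → f ^ m / d.G ∈ S.L 0 (m * N) := by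
    intro N f hf
    have h1 : f ^ m / d.G ∈ S.L ((m : ℤ) • d.E + -((m : ℤ) • d.E)) (m * N) :=
      div_mem_L (pow_mem_L hf m) d.G_ne fun v => by simp [d.ord_G]
    rwa [add_neg_cancel] at h1
  -- the spaces
  obtain ⟨N₁', hN₁'⟩ := Datum.IsTrivial.exists_V_eq d hd hm
  obtain ⟨N₂, hN₂⟩ := S.exists_lead_pair
  set N₁ : ℤ := max (max N₁' N₂) 0
  have hpole : ∀ (N : ℤ) (f : F), f ∈ S.L d.E N → PoleLE N (T' f).1 ∧ PoleLE N (T' f).2 := by
    intro N f hf
    obtain ⟨h1, h2⟩ := poleLE_of_mem_L hf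
    rw [hEinf] at h1
    rw [hEzero] at h2
    have e1 : PoleLE (-n) s₁⁻¹ := by
      rw [poleLE_iff_order (inv_ne_zero hs₁0)]
      have := HahnSeries.order_mul (inv_ne_zero hs₁0) hs₁0
      rw [inv_mul_cancel₀ hs₁0, HahnSeries.order_one, hs₁ord] at this
      omega
    have e2 : PoleLE (-n) s₂⁻¹ := by
      rw [poleLE_iff_order (inv_ne_zero hs₂0)]
      have := HahnSeries.order_mul (inv_ne_zero hs₂0) hs₂0
      rw [inv_mul_cancel₀ hs₂0, HahnSeries.order_one, hs₂ord] at this
      omega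
    exact ⟨(e1.mul h1).mono (by omega), (e2.mul h2).mono (by omega)⟩
  have hdownC : ∀ {N N' : ℤ} {f : F}, f ∈ S.L d.E N → PoleLE N' (T' f).1 → PoleLE N' (T' f).2 →
      f ∈ S.L d.E N' := by
    intro N N' f hf h1 h2
    refine (mem_L_iff d.neg).mpr ⟨((mem_L_iff d.neg).mp hf).1, ?_, ?_⟩
    · rw [hEinf]
      have := hs₁pole.mul h1
      rwa [hT'1, mul_inv_cancel_left₀ hs₁0] at this
    · rw [hEzero]
      have := hs₂pole.mul h2
      rwa [hT'2, mul_inv_cancel_left₀ hs₂0] at this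
  have hlead : ∀ N, N₁ < N → ∃ u ∈ S.L d.E N, ∃ v ∈ S.L d.E N, (∀ i, (T' u).1.coeff i ∈ A) ∧
      (∀ i, (T' u).2.coeff i ∈ A) ∧ (∀ i, (T' v).1.coeff i ∈ A) ∧ (∀ i, (T' v).2.coeff i ∈ A) ∧
        A.valuation ((T' u).1.coeff (-N)) = 1 ∧ A.valuation ((T' u).2.coeff (-N)) < 1 ∧
        A.valuation ((T' v).2.coeff (-N)) = 1 ∧ A.valuation ((T' v).1.coeff (-N)) < 1 := by
    intro N hN
    obtain ⟨u, hu', v, hv', x, y, hx, hy, h1, h2, h3, h4⟩ := hN₂ N (by omega)
    have hmem : ∀ {g : F} {z : Ser2 k}, g ∈ S.L 0 N → Red2 A π (S.T g) z →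
        ∃ f ∈ S.L d.E N, Red2 A π (T' f) z := by
      intro g z hg hgz
      have hzV : z ∈ d.V N := by
        rw [hN₁' N (by omega)]
        exact redPair_L_le N ⟨g, hg, hgz⟩
      obtain ⟨-, f, hf, hfz⟩ := hzV
      exact ⟨f, hf, hred' hfz⟩
    obtain ⟨u', hu'mem, hu'red⟩ := hmem hu' hx
    obtain ⟨v', hv'mem, hv'red⟩ := hmem hv' hy
    exact ⟨u', hu'mem, v', hv'mem, hu'red.1.coeff_mem, hu'red.2.coeff_mem, hv'red.1.coeff_mem,
      hv'red.2.coeff_mem, (valuation_coeff_of_red hπ hu'red.1 _).1 h1,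
      (valuation_coeff_of_red hπ hu'red.2 _).2 h2, (valuation_coeff_of_red hπ hv'red.2 _).1 h3,
      (valuation_coeff_of_red hπ hv'red.1 _).2 h4⟩
  -- Newton iteration
  obtain ⟨y₀, hy₀, hy₀red⟩ : ∃ f ∈ S.L d.E N₁, Red2 A π (T' f) 1 := by
    have h1 : (1 : Ser2 k) ∈ d.V N₁ := by
      rw [hN₁' N₁ (by omega)]
      refine ⟨⟨⟨?_, S.C.one_mem⟩, ⟨?_, S.C.one_mem⟩⟩, isCbar_one⟩ <;>
        exact fun i hi => by
          simp only [Prod.fst_one, Prod.snd_one, HahnSeries.coeff_one]
          rw [if_neg (by omega)]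
    obtain ⟨-, f, hf, hfz⟩ := h1
    exact ⟨f, hf, hred' hfz⟩
  have hminv : IsUnit (m : A) := by
    rw [ValuationSubring.valuation_eq_one_iff, ← residue_ne_zero_iff hπ, map_natCast]
    exact hmk
  obtain ⟨minv, hminv'⟩ := hminv.exists_left_inv
  have hclose : ∀ {y : Ser2 K} {r : A.ValueGroup}, Red2 A π y 1 → Bdd2 A (y ^ m - 1) r →
      Bdd2 A (y - 1) r := by
    intro y r hy hb
    have key : ∀ {w : LaurentSeries K}, Red A π w 1 → BoundedBy A (w ^ m - 1) r →
        BoundedBy A (w - 1) r := by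
      intro w hw hb
      refine boundedBy_of_mul hπ S.arch (hw.sub red_one).boundedBy
        (S := ∑ i ∈ Finset.range m, w ^ i) (c := (m : k)) ?_ hmk ?_
      · have h1 := Red.sum (A := A) (π := π) (Finset.range m) (fun i _ => hw.pow i)
        convert h1 using 1
        simp only [one_pow, Finset.sum_const, Finset.card_range, nsmul_eq_mul, mul_one]
        exact (map_natCast (HahnSeries.C : k →+* LaurentSeries k) m)
      · rwa [mul_comm, geom_sum_mul]
    exact ⟨key hy.1 hb.1, key hy.2 hb.2⟩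
  obtain ⟨r₀, hr₀1, hr₀⟩ : ∃ r₀ : A.ValueGroup, r₀ < 1 ∧ Bdd2 A (T' y₀ ^ m - 1) r₀ := by
    set ρ := y₀ ^ m / d.G - 1 with hρ
    have hρT : T' y₀ ^ m - 1 = S.T ρ := by rw [hρ, map_sub, S.T_one, hpow]
    rw [hρT]
    have hρreg : S.Reg ρ := (reg_of_mem_L S.neg_zero' (hpowmem hy₀)).sub reg_one
    rcases eq_or_ne ρ 0 with h0 | h0
    · exact ⟨0, zero_lt_one, by simp [h0, Bdd2, BoundedBy]⟩
    obtain ⟨c, hc, x, hx0, hcx⟩ := hρreg.normalizable2 h0
    have hcv : A.valuation c ≠ 0 := (A.valuation.ne_zero_iff).mpr hc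
    have hzero : Red2 A π (S.T ρ) 0 := by
      rw [← hρT]
      have := (hy₀red.pow m).sub red2_one
      rwa [one_pow, sub_self] at this
    refine ⟨(A.valuation c)⁻¹, ?_, ?_⟩
    · by_contra hle
      rw [not_lt] at hle
      have hcA : c ∈ A := by
        rw [← ValuationSubring.valuation_le_one_iff]
        exact (one_le_inv₀ (zero_lt_iff.mpr hcv)).mp hle
      exact hx0 ((hcx.unique (hzero.smul ⟨c, hcA⟩)).trans (smul_zero _))
    · have key : ∀ {y : LaurentSeries K} {z : LaurentSeries k}, Red A π (c • y) z →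
          BoundedBy A y (A.valuation c)⁻¹ := fun {y z} h i => by
        have h1 := (ValuationSubring.valuation_le_one_iff _ _).mpr (h.coeff_mem i)
        rw [coeff_smulC, map_mul] at h1
        rw [← one_div, le_div_iff₀ (zero_lt_iff.mpr hcv), mul_comm]
        exact h1
      exact ⟨key hcx.1, key hcx.2⟩
  have hnewton : ∀ t : ℕ, ∃ f ∈ S.L d.E N₁, Bdd2 A (T' f - 1) (r₀ ^ 2 ^ t) ∧
      Bdd2 A (T' f ^ m - 1) (r₀ ^ 2 ^ t) := by
    intro t
    induction t with
    | zero => exact ⟨y₀, hy₀, by simpa using hclose hy₀red hr₀, by simpa using hr₀⟩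
    | succ t ih =>
      obtain ⟨y, hy, hy1, hym⟩ := ih
      set r := r₀ ^ 2 ^ t with hr
      have hr1 : r < 1 := pow_lt_one₀ zero_le hr₀1 (by positivity)
      set ε : Ser2 K := T' y ^ m - 1 with hε
      set ρ : F := y ^ m / d.G - 1 with hρ
      set y' : F := y * (1 - (minv : K) • ρ) with hy'
      have hy'mem : y' ∈ S.L d.E (N₁ + (m : ℤ) * N₁) := by
        have h1 : 1 - (minv : K) • ρ ∈ S.L 0 ((m : ℤ) * N₁) := by
          have hone : (1 : F) ∈ S.L 0 ((m : ℤ) * N₁) := by
            refine S.L_mono 0 (show 0 ≤ (m : ℤ) * N₁ by positivity) ?_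
            have := pow_mem_L (S := S) (hy₀) 0
            simpa using this
          exact Submodule.sub_mem _ hone
            (Submodule.smul_mem _ _ (Submodule.sub_mem _ (hpowmem hy) hone))
        have := mul_mem_L hy h1
        rwa [add_zero] at this
      have hρT : S.T ρ = ε := by rw [hρ, map_sub, S.T_one, hε, hpow]
      have hTy' : T' y' = T' y * (1 - (minv : K) • ε) := by
        rw [hy', hTmul, map_sub, map_smul, S.T_one, hρT]
      set μ : Ser2 K := (algebraMap K (LaurentSeries K) (minv : K),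
        algebraMap K (LaurentSeries K) (minv : K)) with hμ
      have hμε : (minv : K) • ε = μ * ε :=
        Prod.ext (smul_eq_algebraMap_mul _ _) (smul_eq_algebraMap_mul _ _)
      rw [hμε] at hTy'
      have hμb : Bdd2 A μ 1 := by
        have h1 : BoundedBy A (algebraMap K (LaurentSeries K) (minv : K)) 1 :=
          (red_algebraMap (π := π) minv).boundedBy
        exact ⟨h1, h1⟩
      have hεb : Bdd2 A ε 1 := hym.mono hr1.le
      obtain ⟨P, hP, hPe⟩ := exists_poly_one_add (fun z => Bdd2 A z 1)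
        ⟨boundedBy_one_one, boundedBy_one_one⟩ (fun a b => Bdd2.add)
        (fun a b ha hb => (ha.mul hb).mono (mul_one _).le)
        (by simp [Bdd2, BoundedBy]) ((hμb.mul hεb).mono (mul_one _).le).neg m
      have hmi : (m : Ser2 K) * μ = 1 := by
        have h1 : ((minv * (m : A) : A) : K) = 1 := by rw [hminv']; rfl
        push_cast at h1
        refine Prod.ext ?_ ?_ <;>
          simp only [Prod.fst_mul, Prod.snd_mul, Prod.fst_natCast, Prod.snd_natCast, hμ,
            Prod.fst_one, Prod.snd_one] <;>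
          rw [← map_natCast (algebraMap K (LaurentSeries K)) m, ← map_mul, mul_comm, h1, map_one]
      have hexp : T' y' ^ m - 1 = ε * ε * (-1 + μ ^ 2 * P * (1 + ε)) := by
        have hym' : T' y ^ m = 1 + ε := by rw [hε]; ring
        rw [hTy', mul_pow, hym', sub_eq_add_neg (1 : Ser2 K) (μ * ε), hPe]
        linear_combination (-ε - ε * ε) * hmi
      have hyred1 : Red2 A π (T' y) 1 := by
        have := (hy1.red2_zero hπ hr1).add red2_one
        rwa [sub_add_cancel, zero_add] at this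
      have hy'red : Red2 A π (T' y') 1 := by
        have hμred : Red2 A π μ (algebraMap k _ (π minv), algebraMap k _ (π minv)) :=
          ⟨red_algebraMap minv, red_algebraMap minv⟩
        have := hyred1.mul (red2_one.sub (hμred.mul (hym.red2_zero hπ hr1)))
        rw [← hTy', mul_zero, sub_zero, one_mul] at this
        exact this
      have hb' : Bdd2 A (T' y' ^ m - 1) (r₀ ^ 2 ^ (t + 1)) := by
        rw [hexp, show (2 : ℕ) ^ (t + 1) = 2 ^ t + 2 ^ t by ring, _root_.pow_add r₀, ← hr]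
        refine ((hym.mul hym).mul ?_).mono (mul_one _).le
        exact Bdd2.add (Bdd2.neg ⟨boundedBy_one_one, boundedBy_one_one⟩)
          ((((hμb.pow 2).mul hP).mul
            (Bdd2.add ⟨boundedBy_one_one, boundedBy_one_one⟩ hεb)).mono (by simp))
      have hb'' := hclose hy'red hb'
      set r' := r₀ ^ 2 ^ (t + 1)
      obtain ⟨g, hg, hg1, hg2⟩ := descend T' (fun N => S.L d.E N) hpole
        (fun N _ f hf h1 h2 => hdownC hf h1 h2) hlead (m * N₁.toNat)
        (f := y') (r := r') (by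
          convert hy'mem using 2
          push_cast
          rw [Int.toNat_of_nonneg (le_max_right _ _)]) (fun i hi' => by
          have h1 := hb''.1 i
          have h2 := hb''.2 i
          simp only [Prod.fst_sub, Prod.snd_sub, Prod.fst_one, Prod.snd_one, HahnSeries.coeff_sub,
            HahnSeries.coeff_one] at h1 h2
          have hN₁0 : 0 ≤ N₁ := le_max_right _ _
          rw [if_neg (by omega), sub_zero] at h1 h2
          exact ⟨h1, h2⟩)
      have hg' : Bdd2 A (T' g - 1) r' := by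
        have := (show Bdd2 A (T' (g - y')) r' from ⟨hg1, hg2⟩).add hb''
        rwa [map_sub, sub_add_sub_cancel] at this
      refine ⟨g, hg, hg', ?_⟩
      rw [← geom_sum_mul]
      refine (Bdd2.mul (Bdd2.sum _ fun i _ => Bdd2.pow ?_ i) hg').mono (one_mul _).le
      have := (hg'.mono (pow_le_one' hr₀1.le _)).add
        (show Bdd2 A (1 : Ser2 K) 1 from ⟨boundedBy_one_one, boundedBy_one_one⟩)
      rwa [sub_add_cancel] at this
  -- a nonzero function in `L(E)`
  by_cases hsep : ∀ f ∈ S.L d.E N₁,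
      (∀ i < (0 : ℤ), (T' f).1.coeff i = 0 ∧ (T' f).2.coeff i = 0) → T' f = 0
  · exfalso
    obtain ⟨B, hB0, hB⟩ := exists_pair_bound (A := A) (π := π) T' (S.L d.E N₁) (fun f hf hf0 => by
      obtain ⟨c, hc, x, hx, hcx⟩ := (reg_of_mem_L d.neg hf).normalizable2 hf0
      refine ⟨c, hc, (d.η.1⁻¹ * x.1, d.η.2⁻¹ * x.2), fun h => hx (Prod.ext ?_ ?_), ?_⟩
      · simpa [d.η₁_ne] using congrArg Prod.fst h
      · simpa [d.η₂_ne] using congrArg Prod.snd h
      rw [← map_smul] at hcx ⊢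
      exact ⟨hr₁.mul hcx.1, hr₂.mul hcx.2⟩) hsep
    obtain ⟨b, hb⟩ := A.valuation_surjective B
    have hb0 : b ≠ 0 := fun h0 => hB0 (by rw [← hb, h0, map_zero])
    obtain ⟨c, hc⟩ := A.valuation_surjective r₀
    have hcA : c ∈ A := (ValuationSubring.valuation_le_one_iff _ _).mp (hc ▸ hr₀1.le)
    have hcsmall : A.valuation ((⟨c, hcA⟩ : A) : K) < 1 := hc.trans_lt hr₀1
    obtain ⟨e, he⟩ := S.arch ⟨c, hcA⟩
      ((residue_eq_zero_iff hπ ⟨c, hcA⟩).mpr hcsmall) b⁻¹ (inv_ne_zero hb0)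
    rw [show ((⟨c, hcA⟩ : A) : K) = c from rfl, hc, map_inv₀, hb] at he
    obtain ⟨f, hf, hf1, -⟩ := hnewton (e + 1)
    have hpow2 : e + 1 < 2 ^ (e + 1) := Nat.lt_two_pow_self
    have hBr : B * r₀ ^ 2 ^ (e + 1) < 1 := by
      rcases eq_or_ne r₀ 0 with h0 | h0
      · rw [h0, zero_pow (by positivity), mul_zero]; exact zero_lt_one
      have h1 : r₀ ^ 2 ^ (e + 1) ≤ r₀ * r₀ ^ e := by
        rw [← pow_succ']
        exact pow_le_pow_right_of_le_one' hr₀1.le hpow2.le
      refine lt_of_le_of_lt (mul_le_mul' le_rfl (h1.trans (mul_le_mul' le_rfl he))) ?_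
      rw [mul_left_comm, mul_inv_cancel₀ hB0, mul_one]
      exact hr₀1
    have hneg : ∀ i < (0 : ℤ), A.valuation ((T' f).1.coeff i) ≤ r₀ ^ 2 ^ (e + 1) ∧
        A.valuation ((T' f).2.coeff i) ≤ r₀ ^ 2 ^ (e + 1) := by
      intro i hi'
      have h1 := hf1.1 i
      have h2 := hf1.2 i
      simp only [Prod.fst_sub, Prod.snd_sub, Prod.fst_one, Prod.snd_one, HahnSeries.coeff_sub,
        HahnSeries.coeff_one, if_neg (ne_of_lt hi'), sub_zero] at h1 h2
      exact ⟨h1, h2⟩
    have h0 := (hB f hf _ hneg).trans_lt hBr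
    have h1 : A.valuation ((T' f).1.coeff 0 - 1) < 1 := by
      have := (hf1.1 0).trans_lt (pow_lt_one₀ zero_le hr₀1 (by positivity))
      simpa only [Prod.fst_sub, Prod.fst_one, HahnSeries.coeff_sub, HahnSeries.coeff_one,
        if_pos] using this
    have h2 : A.valuation (1 : K) < 1 := by
      rw [show (1 : K) = (T' f).1.coeff 0 - ((T' f).1.coeff 0 - 1) by ring]
      exact (A.valuation.map_sub _ _).trans_lt (max_lt h0 h1)
    rw [map_one] at h2
    exact lt_irrefl _ h2
  · push Not at hsep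
    obtain ⟨f, hf, hfneg, hf0⟩ := hsep
    have hf' : f ≠ 0 := fun h => hf0 (by rw [h, map_zero])
    have hmem : f ∈ S.L d.E 0 := hdownC hf (fun i hi' => (hfneg i (by simpa using hi')).1)
      (fun i hi' => (hfneg i (by simpa using hi')).2)
    have heff : 0 ≤ d.E + FF.divOf K f := fun v => by
      have := S.mem_L.mp hmem v
      rw [FF.mem_ordGE_of_ne_zero v hf'] at this
      simp only [Finsupp.coe_zero, Pi.zero_apply, Finsupp.add_apply, FF.divOf_apply, bd,
        Finsupp.single_zero, Finsupp.coe_zero, add_zero] at this ⊢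
      omega
    have hdeg : Divisor.degree (d.E + FF.divOf K f) = 0 := by
      rw [map_add, d.deg, FF.degree_divOf, add_zero]
    have hzero : d.E + FF.divOf K f = 0 := by
      refine Finsupp.ext fun v => le_antisymm ?_ (heff v)
      by_contra hpos
      rw [Finsupp.coe_zero, Pi.zero_apply, not_le] at hpos
      have hle : Finsupp.single v ((d.E + FF.divOf K f) v) ≤ d.E + FF.divOf K f := fun w => by
        rcases eq_or_ne w v with rfl | hw
        · simp
        · simpa [Finsupp.single_eq_of_ne hw] using heff w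
      have := FF.degree_mono hle
      rw [hdeg, Divisor.degree_single, FF.deg_eq_one] at this
      omega
    refine ⟨f⁻¹, inv_ne_zero hf', fun v => ?_⟩
    have := congrArg (fun D : Divisor K F => D v) hzero
    simp only [Finsupp.add_apply, FF.divOf_apply, Finsupp.coe_zero, Pi.zero_apply] at this
    rw [v.ord_inv]
    omega

end Sheets

end Fermat.Agent.Semistable
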