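import Fermat.Agent.Semistable.Pair
import Fermat.Agent.FF.Degree

/-!
# Functions on a curve with two expansions and a two-sheeted reduction

`Sheets` packages what is needed from `X₀(qM)` at a place over `q ∤ M`: functions regular outside
the cusps `∞`, `0` have two `q`-expansions whose reductions are regular functions on the reduced
curve of level `M`, and level `M` functions lift through the two degeneracy maps.
-/

set_option autoImplicit false

noncomputable section

namespace Fermat.Agent.Semistable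

open HahnSeries AlgebraicCurve ModularCurve Fermat.Agent.Reduction

variable {K F : Type*} [Field K] [Field F] [Algebra K F]

/-- Regular outside a pair of places. -/
def RegOff (v₁ v₂ : Place K F) (f : F) : Prop :=
  ∀ v : Place K F, v ≠ v₁ → v ≠ v₂ → f ∈ FF.ordGE v 0

/-- The data of a two-sheeted reduction. -/
structure Sheets {k : Type*} [Field k] (A : ValuationSubring K) (π : A →+* k) (q : ℕ) [NeZero q]
    (F : Type*) [Field F] [Algebra K F] where
  surj : Function.Surjective π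
  arch : ∀ a : A, π a = 0 → ∀ b : K, b ≠ 0 →
    ∃ n : ℕ, A.valuation (a : K) ^ n ≤ A.valuation b
  one_lt : 1 < q
  /-- the regular functions of the reduced curve of level `M` -/
  C : Subalgebra k (LaurentSeries k)
  /-- the genus of level `M` -/
  gM : ℤ
  /-- the gap bound of level `M` -/
  n₀ : ℕ
  finite_C : ∀ n : ℤ, FiniteDimensional k ↥(poleLESubmodule k n ⊓
    { C.toSubsemiring.toAddSubmonoid with
      smul_mem' := fun c x hx => by
        rw [smul_eq_algebraMap_mul]; exact C.mul_mem (C.algebraMap_mem c) hx })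
  finrank_C : ∀ n : ℤ, (n₀ : ℤ) ≤ n → (Module.finrank k ↥(poleLESubmodule k n ⊓
    { C.toSubsemiring.toAddSubmonoid with
      smul_mem' := fun c x hx => by
        rw [smul_eq_algebraMap_mul]; exact C.mul_mem (C.algebraMap_mem c) hx }) : ℤ) = n + 1 - gM
  normal : ∀ a y : LaurentSeries k, y ∈ C → y ≠ 0 → a * y ∈ C → ∀ m : ℕ, 0 < m → a ^ m ∈ C → a ∈ C
  /-- the Frobenius of `k` -/
  σ : k ≃+* k
  frob_eq : ∀ x : LaurentSeries k, qExpand k q (coeffMap (σ : k →+* k) x) = x ^ q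
  σ_mem : ∀ x ∈ C, coeffMap (σ : k →+* k) x ∈ C
  σ_symm_mem : ∀ x ∈ C, coeffMap (σ.symm : k →+* k) x ∈ C
  /-- expansion at `∞` -/
  ι : F →ₐ[K] LaurentSeries K
  /-- the involution exchanging the two cusps -/
  w : F ≃ₐ[K] F
  w_w : ∀ f, w (w f) = f
  /-- the cusp `∞` -/
  inf : Place K F
  /-- the cusp `0` -/
  zero : Place K F
  inf_ne_zero : inf ≠ zero
  ord_inf : ∀ f, inf.ord f = (ι f).order
  ord_zero : ∀ f, zero.ord f = (ι (w f)).order
  reg_w : ∀ f, RegOff inf zero f → RegOff inf zero (w f)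
  normalizable : ∀ f, RegOff inf zero f → f ≠ 0 → Normalizable A π (ι f)
  red_mem : ∀ f, RegOff inf zero f → ∀ x, Red A π (ι f) x → (∀ i, (ι (w f)).coeff i ∈ A) → x ∈ C
  exists_lift : ∀ (n : ℕ), n₀ ≤ n → ∀ x ∈ C, PoleLE n x → ∃ f, RegOff inf zero f ∧
    Red A π (ι f) x ∧ Red A π (ι (w f)) (qExpand k q x) ∧
      PoleLE n (ι f) ∧ PoleLE ((q * n : ℕ) : ℤ) (ι (w f))

namespace Sheets

variable {k : Type*} [Field k] {A : ValuationSubring K} {π : A →+* k} {q : ℕ} [NeZero q]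
  (S : Sheets A π q F)

/-- `S.C` as a submodule for the coefficientwise action. -/
def Csub : Submodule k (LaurentSeries k) :=
  { S.C.toSubsemiring.toAddSubmonoid with
    smul_mem' := fun c x hx => by
      rw [smul_eq_algebraMap_mul]; exact S.C.mul_mem (S.C.algebraMap_mem c) hx }

@[simp]
theorem mem_Csub {x : LaurentSeries k} : x ∈ S.Csub ↔ x ∈ S.C := Iff.rfl

/-- Level `M` reduced functions with pole order `≤ n`. -/
def Cle (n : ℤ) : Submodule k (LaurentSeries k) := poleLESubmodule k n ⊓ S.Csub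

theorem finiteDimensional_Cle (n : ℤ) : FiniteDimensional k (S.Cle n) := S.finite_C n

theorem finrank_Cle {n : ℤ} (hn : (S.n₀ : ℤ) ≤ n) :
    (Module.finrank k (S.Cle n) : ℤ) = n + 1 - S.gM := S.finrank_C n hn

theorem Cle_mono {m n : ℤ} (h : m ≤ n) : S.Cle m ≤ S.Cle n :=
  fun _ hx => ⟨hx.1.mono h, hx.2⟩

/-- Above the gap every pole order occurs. -/
theorem exists_order_eq {n : ℤ} (hn : (S.n₀ : ℤ) < n) :
    ∃ x ∈ S.C, x ≠ 0 ∧ x.order = -n ∧ PoleLE n x := by
  have := S.finiteDimensional_Cle (n - 1)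
  by_contra hne
  push Not at hne
  have hle : S.Cle n ≤ S.Cle (n - 1) := by
    intro x hx
    refine ⟨?_, hx.2⟩
    rcases eq_or_ne x 0 with rfl | hx0
    · exact fun _ _ => rfl
    show PoleLE (n - 1) x
    rw [poleLE_iff_order hx0]
    have h1 := (poleLE_iff_order hx0).mp hx.1
    have h2 := hne x hx.2 hx0
    by_contra hlt
    exact h2 (by omega) hx.1
  have h1 := Submodule.finrank_mono hle
  have h2 := S.finrank_Cle hn.le
  have h3 := S.finrank_Cle (n := n - 1) (by omega)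
  omega

/-- Pairs of level `M` reduced functions, pole orders `≤ n`. -/
def Ole (n : ℤ) : Submodule k (Ser2 k) := (S.Cle n).prod (S.Cle n)

/-- `Ole n` is a product. -/
def oleEquiv (n : ℤ) : S.Ole n ≃ₗ[k] S.Cle n × S.Cle n where
  toFun x := (⟨x.1.1, x.2.1⟩, ⟨x.1.2, x.2.2⟩)
  invFun y := ⟨(y.1.1, y.2.1), y.1.2, y.2.2⟩
  map_add' _ _ := rfl
  map_smul' _ _ := rfl
  left_inv _ := rfl
  right_inv _ := rfl

theorem finiteDimensional_Ole (n : ℤ) : FiniteDimensional k (S.Ole n) :=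
  have := S.finiteDimensional_Cle n
  Module.Finite.equiv (S.oleEquiv n).symm

theorem finrank_Ole {n : ℤ} (hn : (S.n₀ : ℤ) ≤ n) :
    (Module.finrank k (S.Ole n) : ℤ) = 2 * (n + 1 - S.gM) := by
  have := S.finiteDimensional_Cle n
  rw [(S.oleEquiv n).finrank_eq, Module.finrank_prod]
  push_cast
  rw [S.finrank_Cle hn]
  ring

/-! ### Expansions -/

/-- The pair of expansions. -/
def T : F →ₗ[K] Ser2 K where
  toFun f := (S.ι f, S.ι (S.w f))
  map_add' a b := by simp
  map_smul' c f := by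
    simp only [RingHom.id_apply, Algebra.smul_def c f, map_mul, AlgEquiv.commutes,
      AlgHom.commutes, Prod.smul_mk, smul_eq_algebraMap_mul]

@[simp] theorem T_fst (f : F) : (S.T f).1 = S.ι f := rfl

@[simp] theorem T_snd (f : F) : (S.T f).2 = S.ι (S.w f) := rfl

theorem T_apply (f : F) : S.T f = (S.ι f, S.ι (S.w f)) := rfl

theorem T_mul (f g : F) : S.T (f * g) = S.T f * S.T g := by simp [T_apply]

theorem T_one : S.T 1 = 1 := by simp [T_apply, Prod.one_eq_mk]

theorem T_pow (f : F) (n : ℕ) : S.T (f ^ n) = S.T f ^ n := by simp [T_apply]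

theorem T_w (f : F) : S.T (S.w f) = (S.T f).swap := by simp [T_apply, S.w_w]

/-- Regular outside the two cusps. -/
def Reg (f : F) : Prop := RegOff S.inf S.zero f

variable {S}

theorem Reg.mul {f g : F} (hf : S.Reg f) (hg : S.Reg g) : S.Reg (f * g) := fun v h1 h2 => by
  simpa using FF.mul_mem_ordGE v (hf v h1 h2) (hg v h1 h2)

theorem Reg.add {f g : F} (hf : S.Reg f) (hg : S.Reg g) : S.Reg (f + g) :=
  fun v h1 h2 => add_mem (hf v h1 h2) (hg v h1 h2)

theorem Reg.sub {f g : F} (hf : S.Reg f) (hg : S.Reg g) : S.Reg (f - g) :=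
  fun v h1 h2 => sub_mem (hf v h1 h2) (hg v h1 h2)

theorem reg_algebraMap (c : K) : S.Reg (algebraMap K F c) :=
  fun v _ _ => FF.algebraMap_mem_ordGE_zero v c

theorem Reg.smul {f : F} (hf : S.Reg f) (c : K) : S.Reg (c • f) :=
  fun v h1 h2 => Submodule.smul_mem _ c (hf v h1 h2)

theorem reg_one : S.Reg 1 := fun v _ _ => FF.one_mem_ordGE_zero v

theorem Reg.pow {f : F} (hf : S.Reg f) (n : ℕ) : S.Reg (f ^ n) := fun v h1 h2 => by
  simpa using FF.pow_mem_ordGE v (hf v h1 h2) n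

theorem Reg.apply_w {f : F} (hf : S.Reg f) : S.Reg (S.w f) := S.reg_w f hf

theorem ι_injective : Function.Injective S.ι := S.ι.toRingHom.injective

theorem Reg.normalizable2 {f : F} (hf : S.Reg f) (hf0 : f ≠ 0) :
    Normalizable2 A π (S.T f) :=
  normalizable2_of_components
    (fun h => hf0 (ι_injective ((congrArg Prod.fst h).trans (map_zero S.ι).symm)))
    (fun _ => S.normalizable f hf hf0)
    (fun _ => S.normalizable _ hf.apply_w ((map_ne_zero S.w).mpr hf0))

theorem Reg.red_mem {f : F} (hf : S.Reg f) {x : Ser2 k} (hx : Red2 A π (S.T f) x) :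
    x.1 ∈ S.C ∧ x.2 ∈ S.C :=
  ⟨S.red_mem f hf _ hx.1 fun i => hx.2.coeff_mem i,
    S.red_mem _ hf.apply_w _ hx.2 fun i => by rw [S.w_w]; exact hx.1.coeff_mem i⟩

/-- Quotients of integral functions. -/
theorem exists_red2_of_mul {G r : F} (hr : S.Reg r) {g x : Ser2 k} (hG : Red2 A π (S.T G) g)
    (hg1 : g.1 ≠ 0) (hg2 : g.2 ≠ 0) (hGr : Red2 A π (S.T (G * r)) x) :
    ∃ z, Red2 A π (S.T r) z ∧ g * z = x := by
  rw [T_mul] at hGr
  have key : ∀ f, S.Reg f → S.ι f = 0 ∨ Normalizable A π (S.ι f) := fun f hf => by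
    rcases eq_or_ne f 0 with rfl | h0
    · exact Or.inl (map_zero _)
    · exact Or.inr (S.normalizable f hf h0)
  obtain ⟨z₁, hz₁, he₁⟩ := exists_red_of_mul S.surj hG.1 hg1 hGr.1 (key r hr)
  obtain ⟨z₂, hz₂, he₂⟩ := exists_red_of_mul S.surj hG.2 hg2 hGr.2 (key _ hr.apply_w)
  exact ⟨(z₁, z₂), ⟨hz₁, hz₂⟩, Prod.ext he₁ he₂⟩

/-! ### Riemann–Roch spaces -/

variable (S)

/-- `n (∞) + n (0)`. -/
def bd (n : ℤ) : Divisor K F := Finsupp.single S.inf n + Finsupp.single S.zero n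

theorem bd_inf (n : ℤ) : S.bd n S.inf = n := by
  simp [bd, S.inf_ne_zero]

theorem bd_zero (n : ℤ) : S.bd n S.zero = n := by
  simp [bd, S.inf_ne_zero.symm]

theorem bd_of_ne (n : ℤ) {v : Place K F} (h1 : v ≠ S.inf) (h2 : v ≠ S.zero) : S.bd n v = 0 := by
  simp [bd, h1.symm, h2.symm]

theorem bd_add (m n : ℤ) : S.bd (m + n) = S.bd m + S.bd n := by
  simp only [bd, Finsupp.single_add]; abel

theorem bd_mono {m n : ℤ} (h : m ≤ n) : S.bd m ≤ S.bd n := fun v => by
  by_cases h1 : v = S.inf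
  · subst h1; simp only [bd_inf]; exact h
  by_cases h2 : v = S.zero
  · subst h2; simp only [bd_zero]; exact h
  simp [S.bd_of_ne _ h1 h2]

/-- `E` is effective-free outside the cusps. -/
def Neg (E : Divisor K F) : Prop := ∀ v, v ≠ S.inf → v ≠ S.zero → E v ≤ 0

theorem neg_zero' : S.Neg 0 := fun v _ _ => by simp

/-- `L(E + n (∞) + n (0))`. -/
def L (E : Divisor K F) (n : ℤ) : Submodule K F := riemannRochSpace (E + S.bd n)

theorem L_mono (E : Divisor K F) {m n : ℤ} (h : m ≤ n) : S.L E m ≤ S.L E n :=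
  FF.riemannRochSpace_mono (add_le_add le_rfl (S.bd_mono h))

theorem mem_L {E : Divisor K F} {n : ℤ} {f : F} :
    f ∈ S.L E n ↔ ∀ v, f ∈ FF.ordGE v (-(E + S.bd n) v) := FF.mem_riemannRochSpace

variable {S}

theorem mul_mem_L {E E' : Divisor K F} {m n : ℤ} {f g : F} (hf : f ∈ S.L E m)
    (hg : g ∈ S.L E' n) : f * g ∈ S.L (E + E') (m + n) := by
  rw [mem_L] at hf hg ⊢
  intro v
  have := FF.mul_mem_ordGE v (hf v) (hg v)
  rwa [← neg_add, ← Finsupp.add_apply, add_add_add_comm, ← S.bd_add] at this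

theorem pow_mem_L {E : Divisor K F} {n : ℤ} {f : F} (hf : f ∈ S.L E n) (e : ℕ) :
    f ^ e ∈ S.L ((e : ℤ) • E) (e * n) := by
  induction e with
  | zero =>
    rw [mem_L]
    intro v
    by_cases h1 : v = S.inf
    · subst h1; simp [bd_inf, FF.one_mem_ordGE_zero]
    by_cases h2 : v = S.zero
    · subst h2; simp [bd_zero, FF.one_mem_ordGE_zero]
    simp [S.bd_of_ne _ h1 h2, FF.one_mem_ordGE_zero]
  | succ e ih =>
    rw [pow_succ,
      show ((e + 1 : ℕ) : ℤ) • E = (e : ℤ) • E + E by push_cast; rw [add_smul, one_smul],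
      show ((e + 1 : ℕ) : ℤ) * n = e * n + n by push_cast; ring]
    exact mul_mem_L ih hf

theorem reg_of_mem_L {E : Divisor K F} (hE : S.Neg E) {n : ℤ} {f : F} (hf : f ∈ S.L E n) :
    S.Reg f := fun v h1 h2 => by
  refine FF.ordGE_antitone v ?_ (S.mem_L.mp hf v)
  rw [Finsupp.add_apply, S.bd_of_ne n h1 h2]
  have := hE v h1 h2
  omega

theorem mem_ordGE_iff_poleLE {v : Place K F} {h : F → LaurentSeries K}
    (h0 : ∀ f, h f = 0 ↔ f = 0) (hord : ∀ f, v.ord f = (h f).order) {n : ℤ} {f : F} :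
    f ∈ FF.ordGE v (-n) ↔ PoleLE n (h f) := by
  rcases eq_or_ne f 0 with rfl | hf
  · simp only [Submodule.zero_mem, true_iff]
    rw [(h0 0).mpr rfl]
    exact fun _ _ => rfl
  · rw [FF.mem_ordGE_of_ne_zero v hf, hord, poleLE_iff_order (fun h' => hf ((h0 f).mp h'))]

theorem mem_ordGE_inf {n : ℤ} {f : F} :
    f ∈ FF.ordGE S.inf (-n) ↔ PoleLE n (S.ι f) :=
  mem_ordGE_iff_poleLE (fun _ => map_eq_zero S.ι) S.ord_inf

theorem mem_ordGE_zero {n : ℤ} {f : F} :
    f ∈ FF.ordGE S.zero (-n) ↔ PoleLE n (S.ι (S.w f)) :=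
  mem_ordGE_iff_poleLE (h := fun f => S.ι (S.w f))
    (fun f => by simp [map_eq_zero]) S.ord_zero

theorem poleLE_of_mem_L {E : Divisor K F} {n : ℤ} {f : F} (hf : f ∈ S.L E n) :
    PoleLE (E S.inf + n) (S.ι f) ∧ PoleLE (E S.zero + n) (S.ι (S.w f)) := by
  refine ⟨mem_ordGE_inf.mp ?_, mem_ordGE_zero.mp ?_⟩
  · simpa [bd_inf] using S.mem_L.mp hf S.inf
  · simpa [bd_zero] using S.mem_L.mp hf S.zero

theorem mem_L_iff {E : Divisor K F} (_hE : S.Neg E) {n : ℤ} {f : F} :
    f ∈ S.L E n ↔ (∀ v, v ≠ S.inf → v ≠ S.zero → f ∈ FF.ordGE v (-E v)) ∧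
      PoleLE (E S.inf + n) (S.ι f) ∧ PoleLE (E S.zero + n) (S.ι (S.w f)) := by
  refine ⟨fun hf => ⟨fun v h1 h2 => ?_, poleLE_of_mem_L hf⟩, fun h => S.mem_L.mpr fun v => ?_⟩
  · simpa [S.bd_of_ne _ h1 h2] using S.mem_L.mp hf v
  · by_cases h1 : v = S.inf
    · subst h1; rw [Finsupp.add_apply, bd_inf, mem_ordGE_inf]; exact h.2.1
    by_cases h2 : v = S.zero
    · subst h2; rw [Finsupp.add_apply, bd_zero, mem_ordGE_zero]; exact h.2.2
    rw [Finsupp.add_apply, S.bd_of_ne _ h1 h2, add_zero]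
    exact h.1 v h1 h2

theorem mem_L_zero {n : ℤ} {f : F} :
    f ∈ S.L 0 n ↔ S.Reg f ∧ PoleLE n (S.ι f) ∧ PoleLE n (S.ι (S.w f)) := by
  rw [mem_L_iff S.neg_zero']
  simp [Reg, RegOff]

variable [FF.IsFunctionField K F] [IsAlgClosed K]

variable (S) in
theorem degree_bd (n : ℤ) : Divisor.degree (S.bd n) = 2 * n := by
  simp [bd, FF.deg_eq_one]; ring

variable (S) in
instance finiteDimensional_L (E : Divisor K F) (n : ℤ) : FiniteDimensional K (S.L E n) :=
  FF.instFiniteRiemannRochSpace _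

variable (S) in
/-- The dimension of `L(E + n (∞) + n (0))` is eventually independent of the degree zero `E`. -/
theorem exists_ell_eq {E : Divisor K F} (hdeg : Divisor.degree E = 0) :
    ∃ N : ℤ, ∀ n, N ≤ n → FF.ell (E + S.bd n) = FF.ell (S.bd n) := by
  obtain ⟨γ, hγ⟩ := FF.exists_riemann_inequality K F
  -- the defect `l(D) - deg D` along a ray
  have key : ∀ E : Divisor K F, Divisor.degree E = 0 → ∃ (N d : ℤ), ∀ n, N ≤ n →
      (FF.ell (E + S.bd n) : ℤ) - 2 * n = d := by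
    intro E hE
    set δ : ℤ → ℤ := fun n => (FF.ell (E + S.bd n) : ℤ) - 2 * n with hδ
    have hanti : ∀ {m n : ℤ}, m ≤ n → δ n ≤ δ m := fun {m n} h => by
      have := FF.ell_sub_degree_antitone (K := K) (F := F) (add_le_add (le_refl E) (S.bd_mono h))
      rw [map_add, map_add, hE, S.degree_bd, S.degree_bd] at this
      simp only [hδ]
      omega
    have hbd : ∃ b : ℤ, ∀ d, (∃ n, δ n = d) → b ≤ d := ⟨1 - γ, fun d ⟨n, hn⟩ => by
      have := hγ (E + S.bd n)
      rw [map_add, hE, S.degree_bd] at this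
      simp only [hδ] at hn
      omega⟩
    obtain ⟨d, ⟨N, hN⟩, hmin⟩ := Int.exists_least_of_bdd hbd ⟨δ 0, 0, rfl⟩
    exact ⟨N, d, fun n hn => le_antisymm ((hanti hn).trans hN.le) (hmin _ ⟨n, rfl⟩)⟩
  -- linearly equivalent comparison
  have cmp : ∀ E E' : Divisor K F, Divisor.degree E = 0 → Divisor.degree E' = 0 → ∀ d d' N N',
      (∀ n, N ≤ n → (FF.ell (E + S.bd n) : ℤ) - 2 * n = d) →
      (∀ n, N' ≤ n → (FF.ell (E' + S.bd n) : ℤ) - 2 * n = d') → d' ≤ d := by
    intro E E' hE hE' d d' N N' h h'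
    obtain ⟨a, ha⟩ : ∃ a : ℤ, 1 ≤ FF.ell (E' - E + S.bd a) := ⟨max 0 γ, by
      have := hγ (E' - E + S.bd (max 0 γ))
      rw [map_add, map_sub, hE, hE', S.degree_bd] at this
      omega⟩
    obtain ⟨f, hf, hf0⟩ : ∃ f ∈ riemannRochSpace (E' - E + S.bd a), f ≠ 0 := by
      refine Submodule.exists_mem_ne_zero_of_ne_bot fun hb => ?_
      rw [FF.ell, hb, finrank_bot] at ha
      omega
    set n := max N (N' - a) with hn
    have hle : E + S.bd n ≤ E' + S.bd (n + a) + FF.divOf K f := fun v => by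
      have := FF.mem_riemannRochSpace.mp hf v
      rw [FF.mem_ordGE_of_ne_zero v hf0] at this
      simp only [Finsupp.add_apply, Finsupp.sub_apply, FF.divOf_apply, S.bd_add] at this ⊢
      omega
    have h4 := FF.ell_sub_degree_antitone hle
    have h5 := FF.ell_sub_divOf hf0 (E' + S.bd (n + a) + FF.divOf K f)
    rw [add_sub_cancel_right] at h5
    rw [← h5, map_add, map_add, map_add, FF.degree_divOf, hE, hE', S.degree_bd, S.degree_bd]
      at h4
    have := h n (le_max_left _ _)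
    have := h' (n + a) (by omega)
    omega
  obtain ⟨N, d, hd⟩ := key E hdeg
  obtain ⟨N', d', hd'⟩ := key 0 (map_zero _)
  have hdd : d = d' := le_antisymm (cmp 0 E (map_zero _) hdeg d' d N' N hd' hd)
    (cmp E 0 hdeg (map_zero _) d d' N N' hd hd')
  refine ⟨max N N', fun n hn => ?_⟩
  have h1 := hd n ((le_max_left _ _).trans hn)
  have h2 := hd' n ((le_max_right _ _).trans hn)
  rw [zero_add] at h2
  omega

end Sheets

end Fermat.Agent.Semistable
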