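import Fermat.Agent.Semistable.Datum

/-!
# Operations on torsion classes: inertia, products, inverses

If `E` is a torsion class and `τ` is in the inertia group then `τ E - E` is a trivial class.
-/

set_option autoImplicit false

noncomputable section

namespace Fermat.Agent.Semistable

open HahnSeries AlgebraicCurve ModularCurve Fermat.Agent.Reduction

variable {K F k : Type*} [Field K] [Field F] [Algebra K F] [Field k] {A : ValuationSubring K}
  {π : A →+* k} {q : ℕ} [NeZero q]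

namespace Sheets

/-- An automorphism acting semilinearly and preserving the place of reduction. -/
structure Semi (S : Sheets A π q F) where
  τ : K ≃+* K
  g : F ≃+* F
  P : Place K F ≃ Place K F
  ord_P : ∀ v f, (P v).ord (g f) = v.ord f
  P_inf : P S.inf = S.inf
  P_zero : P S.zero = S.zero
  ι_g : ∀ f, S.ι (g f) = coeffMap (τ : K →+* K) (S.ι f)
  w_g : ∀ f, S.w (g f) = g (S.w f)
  mem : ∀ a ∈ A, τ a ∈ A
  val : ∀ c : K, A.valuation (τ c) = A.valuation c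

/-- An element of the inertia group acting semilinearly. -/
structure Inertia (S : Sheets A π q F) extends Semi S where
  res : ∀ a : A, π ⟨τ a, mem a a.2⟩ = π a

variable {S : Sheets A π q F} (σ : S.Inertia)

namespace Semi

variable (σ : S.Semi)

theorem T_g (f : F) :
    S.T (σ.g f) = (coeffMap (σ.τ : K →+* K) (S.ι f), coeffMap (σ.τ : K →+* K) (S.ι (S.w f))) :=
  Prod.ext (σ.ι_g f) ((congrArg S.ι (σ.w_g f)).trans (σ.ι_g _))

/-- The action on divisors. -/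
def act : Divisor K F →+ Divisor K F := Finsupp.mapDomain.addMonoidHom σ.P

theorem act_apply (E : Divisor K F) (v : Place K F) : σ.act E (σ.P v) = E v :=
  Finsupp.mapDomain_apply σ.P.injective E v

theorem neg_act {E : Divisor K F} (hE : S.Neg E) : S.Neg (σ.act E) := fun v h1 h2 => by
  obtain ⟨v, rfl⟩ := σ.P.surjective v
  rw [σ.act_apply]
  exact hE v (fun h => h1 (by rw [h, σ.P_inf])) (fun h => h2 (by rw [h, σ.P_zero]))

variable [FF.IsFunctionField K F] [IsAlgClosed K]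

theorem degree_act (E : Divisor K F) : Divisor.degree (σ.act E) = Divisor.degree E := by
  induction E using Finsupp.induction with
  | zero => simp
  | single_add v n E _ _ ih =>
    rw [map_add, map_add, map_add, ih]
    simp [act, FF.deg_eq_one]

omit [FF.IsFunctionField K F] [IsAlgClosed K] in
theorem mem_L_act {E : Divisor K F} {n : ℤ} {f : F} (hf : f ∈ S.L E n) :
    σ.g f ∈ S.L (σ.act E) n := by
  rw [mem_L] at hf ⊢
  intro v
  obtain ⟨v, rfl⟩ := σ.P.surjective v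
  have hbd : S.bd n (σ.P v) = S.bd n v := by
    by_cases h1 : v = S.inf
    · subst h1; rw [σ.P_inf]
    by_cases h2 : v = S.zero
    · subst h2; rw [σ.P_zero]
    rw [S.bd_of_ne n h1 h2, S.bd_of_ne n
      (fun h => h1 (σ.P.injective (h.trans σ.P_inf.symm)))
      (fun h => h2 (σ.P.injective (h.trans σ.P_zero.symm)))]
  rw [Finsupp.add_apply, σ.act_apply, hbd, ← Finsupp.add_apply]
  rcases eq_or_ne f 0 with rfl | hf0
  · rw [map_zero]; exact Submodule.zero_mem _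
  · refine FF.mem_ordGE_of_le_ord _ ?_
    rw [σ.ord_P]
    exact (FF.mem_ordGE_of_ne_zero v hf0).mp (hf v)

end Semi

namespace Inertia

theorem red {y : LaurentSeries K} {x : LaurentSeries k} (h : Red A π y x) :
    Red A π (coeffMap (σ.τ : K →+* K) y) x := fun i => by
  obtain ⟨hi, hv⟩ := h i
  exact ⟨σ.mem _ hi, (σ.res ⟨_, hi⟩).trans hv⟩

theorem red2 {f : F} {x : Ser2 k} (h : Red2 A π (S.T f) x) : Red2 A π (S.T (σ.g f)) x := by
  rw [σ.T_g]
  exact ⟨σ.red h.1, σ.red h.2⟩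

end Inertia

variable {m : ℕ} [FF.IsFunctionField K F] [IsAlgClosed K]

/-- Conjugate class. -/
def Datum.conj (d : S.Datum m) : S.Datum m where
  E := σ.act d.E
  G := σ.g d.G
  η := d.η
  ū := d.ū
  neg := σ.neg_act d.neg
  deg := by rw [σ.degree_act, d.deg]
  G_ne := fun h => d.G_ne (σ.g.injective (h.trans (map_zero σ.g).symm))
  ord_G := fun v => by
    obtain ⟨v, rfl⟩ := σ.P.surjective v
    rw [σ.ord_P, σ.act_apply, d.ord_G]
  red_G := σ.red2 d.red_G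
  η₁_mem := d.η₁_mem
  η₂_mem := d.η₂_mem
  η₁_ne := d.η₁_ne
  η₂_ne := d.η₂_ne
  u₁_ne := d.u₁_ne
  u₂_ne := d.u₂_ne

omit [FF.IsFunctionField K F] [IsAlgClosed K] in
/-- Sum of classes. -/
def Datum.mul (d e : S.Datum m) : S.Datum m where
  E := d.E + e.E
  G := d.G * e.G
  η := d.η * e.η
  ū := d.ū * e.ū
  neg := fun v h1 h2 => by
    rw [Finsupp.add_apply]
    have := d.neg v h1 h2
    have := e.neg v h1 h2
    omega
  deg := by rw [map_add, d.deg, e.deg, add_zero]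
  G_ne := mul_ne_zero d.G_ne e.G_ne
  ord_G := fun v => by
    rw [v.ord_mul d.G_ne e.G_ne, d.ord_G, e.ord_G, Finsupp.add_apply]
    ring
  red_G := by
    rw [S.T_mul, mul_pow, ← scale2_mul]
    exact d.red_G.mul e.red_G
  η₁_mem := S.C.mul_mem d.η₁_mem e.η₁_mem
  η₂_mem := S.C.mul_mem d.η₂_mem e.η₂_mem
  η₁_ne := mul_ne_zero d.η₁_ne e.η₁_ne
  η₂_ne := mul_ne_zero d.η₂_ne e.η₂_ne
  u₁_ne := mul_ne_zero d.u₁_ne e.u₁_ne
  u₂_ne := mul_ne_zero d.u₂_ne e.u₂_ne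

omit [IsAlgClosed K] in
/-- The class inverse to `d`, normalised by a function `h`. -/
theorem Datum.exists_inv (d : S.Datum m) {n : ℤ} {h : F} (hh : h ∈ S.L d.E n) {a : Ser2 k}
    (hred : Red2 A π (S.T h) (d.η * a)) (ha : a ∈ S.Ole n) (ha1 : a.1 ≠ 0) (ha2 : a.2 ≠ 0) :
    ∃ e : S.Datum m, e.E = -d.E - FF.divOf K h ∧ e.η = a ∧ e.ū = d.ū⁻¹ ∧ h ≠ 0 := by
  have hh0 : h ≠ 0 := by
    rintro rfl
    rw [map_zero] at hred
    exact mul_ne_zero d.η₁_ne ha1 (congrArg Prod.fst (hred.unique red2_zero))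
  set E' : Divisor K F := -d.E - FF.divOf K h with hE'
  have hord : ∀ v, v ≠ S.inf → v ≠ S.zero → E' v ≤ 0 := fun v h1 h2 => by
    have := S.mem_L.mp hh v
    rw [FF.mem_ordGE_of_ne_zero v hh0, Finsupp.add_apply, S.bd_of_ne n h1 h2, add_zero] at this
    simp only [hE', Finsupp.sub_apply, Finsupp.neg_apply, FF.divOf_apply]
    omega
  set G' : F := h ^ m / d.G with hG'
  have hG'0 : G' ≠ 0 := div_ne_zero (pow_ne_zero m hh0) d.G_ne
  have hordG : ∀ v, v.ord G' = -((m : ℤ) * E' v) := fun v => by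
    rw [hG', FF.ord_div v (pow_ne_zero m hh0) d.G_ne, FF.ord_pow, d.ord_G]
    simp only [hE', Finsupp.sub_apply, Finsupp.neg_apply, FF.divOf_apply]
    ring
  have hreg : S.Reg G' := fun v h1 h2 => by
    refine FF.mem_ordGE_of_le_ord v ?_
    rw [hordG]
    nlinarith [hord v h1 h2, Int.natCast_nonneg m]
  have hGG : d.G * G' = h ^ m := mul_div_cancel₀ _ d.G_ne
  obtain ⟨z, hz, he⟩ := exists_red2_of_mul (S := S) hreg d.red_G d.red_G_ne.1 d.red_G_ne.2
    (x := (d.η * a) ^ m) (by rw [hGG, S.T_pow]; exact hred.pow m)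
  refine ⟨
    { E := E'
      G := G'
      η := a
      ū := d.ū⁻¹
      neg := hord
      deg := by rw [hE', map_sub, map_neg, d.deg, FF.degree_divOf, neg_zero, sub_zero]
      G_ne := hG'0
      ord_G := hordG
      red_G := ?_
      η₁_mem := ha.1.2
      η₂_mem := ha.2.2
      η₁_ne := ha1
      η₂_ne := ha2
      u₁_ne := inv_ne_zero d.u₁_ne
      u₂_ne := inv_ne_zero d.u₂_ne }, rfl, rfl, rfl, hh0⟩
  have key : scale2 d.ū⁻¹ (a ^ m) = z := by
    refine Prod.ext ?_ ?_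
    · have h1 := eq_scale_of_mul_eq (pow_ne_zero m d.η₁_ne) (congrArg Prod.fst he)
        (mul_pow d.η.1 a.1 m)
      show d.ū.1⁻¹ • a.1 ^ m = z.1
      rw [h1, smul_smul, inv_mul_cancel₀ d.u₁_ne, one_smul]
    · have h1 := eq_scale_of_mul_eq (pow_ne_zero m d.η₂_ne) (congrArg Prod.snd he)
        (mul_pow d.η.2 a.2 m)
      show d.ū.2⁻¹ • a.2 ^ m = z.2
      rw [h1, smul_smul, inv_mul_cancel₀ d.u₂_ne, one_smul]
  rw [key]
  exact hz

omit [IsAlgClosed K] in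
/-- Elements of a class and of its inverse multiply to reduced pairs. -/
theorem Datum.isCbar_mul_inv (d e : S.Datum m) {h : F} (hh : h ≠ 0) {a : Ser2 k}
    (hred : Red2 A π (S.T h) (d.η * a)) (ha1 : a.1 ≠ 0) (ha2 : a.2 ≠ 0)
    (hE : e.E = -d.E - FF.divOf K h) (hη : e.η = a) {n n' : ℤ} {b b' : Ser2 k}
    (hb : b ∈ d.V n) (hb' : b' ∈ e.V n') : S.IsCbar (b * b') := by
  obtain ⟨-, f, hf, hfb⟩ := hb
  obtain ⟨-, f', hf', hfb'⟩ := hb'
  have hr : f * f' / h ∈ S.L 0 (n + n') := by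
    have h1 := div_mem_L (E' := FF.divOf K h) (mul_mem_L hf hf') hh fun v => by simp
    rwa [hE, show d.E + (-d.E - FF.divOf K h) + FF.divOf K h = 0 by abel] at h1
  have hx : Red2 A π (S.T (h * (f * f' / h))) (d.η * a * (b * b')) := by
    rw [mul_div_cancel₀ _ hh, S.T_mul]
    have := hfb.mul hfb'
    rwa [mulPair_apply, mulPair_apply, hη, mul_mul_mul_comm] at this
  obtain ⟨z, hz, he⟩ := exists_red2_of_mul (S := S) (reg_of_mem_L S.neg_zero' hr) hred
    (mul_ne_zero d.η₁_ne ha1) (mul_ne_zero d.η₂_ne ha2) hx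
  obtain rfl : z = b * b' := Prod.ext
    (mul_left_cancel₀ (mul_ne_zero d.η₁_ne ha1) (congrArg Prod.fst he))
    (mul_left_cancel₀ (mul_ne_zero d.η₂_ne ha2) (congrArg Prod.snd he))
  exact ⟨_, reg_of_mem_L S.neg_zero' hr, hz⟩

variable [IsAlgClosed k]

omit [FF.IsFunctionField K F] [IsAlgClosed K] [IsAlgClosed k] in
/-- The value of a product of two pairs at a node. -/
theorem value_mul {n n' : ℤ} (b : S.Ole n) (b' : S.Ole n') {p : ℤ}
    (c : S.Ole p) (hc : (c : Ser2 k) = b.1 * b'.1) (u : S.Node) :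
    S.evNode p c u = S.evNode n b u * S.evNode n' b' u := by
  have h1 : (S.elt c).1 = (S.elt b).1 * (S.elt b').1 := Subtype.ext (congrArg Prod.fst hc)
  have h2 : (S.elt c).2 = (S.elt b).2 * (S.elt b').2 := Subtype.ext (congrArg Prod.snd hc)
  refine Prod.ext ?_ ?_
  · show (u.1 : S.Pt) (S.elt c).1 = _
    rw [h1, Pt.map_mul]; rfl
  · show S.flip u.1 (S.elt c).2 = _
    rw [h2, Pt.map_mul]; rfl

omit [FF.IsFunctionField K F] [IsAlgClosed K] in
theorem value_mul_eq {n n' : ℤ} (b : S.Ole n) (b' : S.Ole n') (h : S.IsCbar (b.1 * b'.1))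
    (u : S.Node) :
    (S.evNode n b u).1 * (S.evNode n' b' u).1 = (S.evNode n b u).2 * (S.evNode n' b' u).2 := by
  obtain ⟨p, -, hp⟩ : ∃ p : ℤ, True ∧ (b.1 * b'.1 : Ser2 k) ∈ S.Ole p :=
    ⟨n + n', trivial, ⟨PoleLE.mul b.2.1.1 b'.2.1.1, S.C.mul_mem b.2.1.2 b'.2.1.2⟩,
      ⟨PoleLE.mul b.2.2.1 b'.2.2.1, S.C.mul_mem b.2.2.2 b'.2.2.2⟩⟩
  have := (isCbar_iff_evNode ⟨_, hp⟩).mp h u
  rwa [value_mul b b' ⟨_, hp⟩ rfl u] at this

omit [FF.IsFunctionField K F] [IsAlgClosed K] in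
/-- A class whose multiplier is trivial and which has, at every node, one element with equal
nonzero values, is trivial. -/
theorem Datum.isTrivial_of_witness (d : S.Datum m) (hm : 0 < m) (hu : d.ū = 1)
    (hw : ∀ u : S.Node, ∃ (n : ℤ) (a : S.Ole n), (a : Ser2 k) ∈ d.V n ∧
      (S.evNode n a u).1 = (S.evNode n a u).2 ∧ (S.evNode n a u).1 ≠ 0) : d.IsTrivial := by
  intro n a ha
  refine (isCbar_iff_evNode ⟨a, ha.1⟩).mpr fun u => ?_
  obtain ⟨n₁, b, hb, heq, hne⟩ := hw u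
  have hbn : (b : Ser2 k) ∈ d.V (max n n₁) := d.V_mono (le_max_right _ _) hb
  have han : a ∈ d.V (max n n₁) := d.V_mono (le_max_left _ _) ha
  have hr := d.node_rel hm (a := ⟨_, hbn.1⟩) (a' := ⟨a, han.1⟩) hbn han u
  rw [hu, Prod.fst_one, Prod.snd_one, one_mul, one_mul] at hr
  have hb1 : S.evNode (max n n₁) ⟨b.1, hbn.1⟩ u = S.evNode n₁ b u := rfl
  have ha1 : S.evNode (max n n₁) ⟨a, han.1⟩ u = S.evNode n ⟨a, ha.1⟩ u := rfl
  rw [hb1, ha1, ← heq] at hr
  exact mul_left_cancel₀ (pow_ne_zero _ hne) hr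

omit [IsAlgClosed k] in
theorem Datum.conj_mem_V {d : S.Datum m} (hm : 0 < m) {n : ℤ} {b : Ser2 k} (hb : b ∈ d.V n) :
    b ∈ (d.conj σ).V n := by
  obtain ⟨-, f, hf, hfb⟩ := hb
  exact (d.conj σ).mem_V_of_red hm (f := σ.g f) (σ.mem_L_act hf) (σ.red2 hfb)

omit [IsAlgClosed k] [FF.IsFunctionField K F] [IsAlgClosed K] in
theorem Datum.mul_mem_V {d e : S.Datum m} (hm : 0 < m) {n n' : ℤ} {b b' : Ser2 k}
    (hb : b ∈ d.V n) (hb' : b' ∈ e.V n') : b * b' ∈ (d.mul e).V (n + n') := by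
  obtain ⟨-, f, hf, hfb⟩ := hb
  obtain ⟨-, f', hf', hfb'⟩ := hb'
  rw [mulPair_apply] at hfb hfb'
  refine (d.mul e).mem_V_of_red hm (f := f * f') (mul_mem_L hf hf') ?_
  show Red2 A π _ (d.η * e.η * (b * b'))
  rw [S.T_mul, mul_mul_mul_comm]
  exact hfb.mul hfb'

/-- **`τ E - E` is a trivial class.** -/
theorem Datum.exists_trivial_conj (d : S.Datum m) (hm : 0 < m) :
    ∃ e : S.Datum m, e.ū = 1 ∧ e.IsTrivial ∧
      ∃ h : F, h ≠ 0 ∧ e.E = σ.act d.E - d.E - FF.divOf K h := by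
  obtain ⟨n₀, a, ha, ha1, ha2⟩ := d.exists_both hm
  obtain ⟨-, h, hh, hred⟩ := id ha
  obtain ⟨di, hE, hη, hu, hh0⟩ := d.exists_inv hh hred ha.1 ha1 ha2
  refine ⟨(d.conj σ).mul di, ?_, ?_, h, hh0, ?_⟩
  · show d.ū * di.ū = 1
    rw [hu]
    exact Prod.ext (mul_inv_cancel₀ d.u₁_ne) (mul_inv_cancel₀ d.u₂_ne)
  · refine Datum.isTrivial_of_witness _ hm ?_ fun u => ?_
    · show d.ū * di.ū = 1
      rw [hu]
      exact Prod.ext (mul_inv_cancel₀ d.u₁_ne) (mul_inv_cancel₀ d.u₂_ne)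
    obtain ⟨N₁, hN₁⟩ := d.exists_value_ne_zero hm
    obtain ⟨N₂, hN₂⟩ := di.exists_value_ne_zero hm
    obtain ⟨b, hb, hb1, -⟩ := hN₁ N₁ le_rfl u
    obtain ⟨b', hb', hb'1, -⟩ := hN₂ N₂ le_rfl u
    have hmem := Datum.mul_mem_V hm (Datum.conj_mem_V σ hm hb) hb'
    have hc := d.isCbar_mul_inv di hh0 hred ha1 ha2 hE hη hb hb'
    refine ⟨N₁ + N₂, ⟨_, hmem.1⟩, hmem, ?_, ?_⟩
    · rw [value_mul b b' ⟨_, hmem.1⟩ rfl u]
      exact value_mul_eq b b' hc u
    · rw [value_mul b b' ⟨_, hmem.1⟩ rfl u]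
      exact mul_ne_zero hb1 hb'1
  · show σ.act d.E + di.E = _
    rw [hE]
    abel

/-- The inverse of a trivial class is trivial. -/
theorem Datum.IsTrivial.inv {d e : S.Datum m} (hd : d.IsTrivial) (hm : 0 < m) {h : F} (hh : h ≠ 0)
    {a : Ser2 k} (hred : Red2 A π (S.T h) (d.η * a)) (ha1 : a.1 ≠ 0) (ha2 : a.2 ≠ 0)
    (hE : e.E = -d.E - FF.divOf K h) (hη : e.η = a) : e.IsTrivial := by
  intro n b' hb'
  refine (isCbar_iff_evNode ⟨b', hb'.1⟩).mpr fun u => ?_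
  obtain ⟨N, hN⟩ := d.exists_value_ne_zero hm
  obtain ⟨b, hb, hb1, -⟩ := hN N le_rfl u
  have h1 := value_mul_eq b ⟨b', hb'.1⟩ (d.isCbar_mul_inv e hh hred ha1 ha2 hE hη hb hb') u
  rw [← (isCbar_iff_evNode b).mp (hd N b.1 hb) u] at h1
  exact mul_left_cancel₀ hb1 h1

end Sheets

end Fermat.Agent.Semistable
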